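import Fermat.Agent.FF.Existence
import Mathlib.FieldTheory.SeparablyGenerated
import Mathlib.RingTheory.Etale.Kaehler
import Mathlib.RingTheory.Etale.Field
import Mathlib.RingTheory.Kaehler.Polynomial
import Mathlib.RingTheory.AlgebraicIndependent.Adjoin
import Mathlib.RingTheory.AlgebraicIndependent.TranscendenceBasis

/-!
# Ways to recognise function fields

The main criterion is `isFunctionField_of_finite`: over a perfect field, be finite over some
`K(x)`.
-/

set_option autoImplicit false

noncomputable section

open AlgebraicCurve IntermediateField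

namespace Fermat.FF

variable {K F : Type*} [Field K] [Field F] [Algebra K F]

/-- Over a perfect field it is enough to be finite over some `K(x)`. -/
theorem isFunctionField_of_finite [PerfectField K] {x : F} (hx : Transcendental K x)
    (hfin : FiniteDimensional K⟮x⟯ F) : IsFunctionField K F := by
  have : Algebra.EssFiniteType K K⟮x⟯ :=
    essFiniteType_iff.mpr (fg_adjoin_of_finite (Set.finite_singleton x))
  have : Algebra.EssFiniteType K F := Algebra.EssFiniteType.comp K K⟮x⟯ F
  obtain ⟨s, hs, hsep⟩ := exists_isTranscendenceBasis_and_isSeparable_of_perfectField K F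
  have hb := isTranscendenceBasis_singleton hx inferInstance
  have hcard : s.card = 1 := by
    have h := hb.lift_cardinalMk_eq hs
    simp only [Cardinal.mk_fin, Cardinal.lift_natCast, Cardinal.mk_coe_finset] at h
    exact_mod_cast h.symm
  obtain ⟨t, rfl⟩ := Finset.card_eq_one.mp hcard
  have ht : Transcendental K t :=
    hs.1.transcendental ⟨t, Finset.mem_singleton_self t⟩
  rw [Finset.coe_singleton] at hsep
  refine ⟨t, ht, ?_, hsep⟩
  have := hsep
  have : Algebra.EssFiniteType K⟮t⟯ F := Algebra.EssFiniteType.of_comp K K⟮t⟯ F
  exact Algebra.finite_of_essFiniteType_of_isAlgebraic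

/-- A finite extension of a function field (perfect constants). -/
theorem isFunctionField_of_finite_extension [PerfectField K] (F' : Type*) [Field F'] [Algebra K F']
    [Algebra F F'] [IsScalarTower K F F'] [IsFunctionField K F] [FiniteDimensional F F'] :
    IsFunctionField K F' := by
  obtain ⟨x, hx, hfin, -⟩ := IsFunctionField.exists_separating (K := K) (F := F)
  have hx' : Transcendental K (algebraMap F F' x) := fun h => hx <|
    (isAlgebraic_algebraMap_iff (algebraMap F F').injective).mp h
  refine isFunctionField_of_finite hx' ?_
  let φ := IsScalarTower.toAlgHom K F F'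
  have he : K⟮x⟯.map φ = K⟮algebraMap F F' x⟯ := by
    rw [adjoin_map, Set.image_singleton]; rfl
  let e : K⟮x⟯ ≃ₐ[K] K⟮algebraMap F F' x⟯ :=
    (K⟮x⟯.equivMap φ).trans (IntermediateField.equivOfEq he)
  have : FiniteDimensional K⟮x⟯ F' := Module.Finite.trans F F'
  exact Module.Finite.of_equiv_equiv e.toRingEquiv (RingEquiv.refl F') (by ext c; rfl)

/-- An intermediate field of finite codegree (perfect constants). -/
theorem isFunctionField_intermediateField [PerfectField K] [IsFunctionField K F]
    (E : IntermediateField K F) [FiniteDimensional E F] : IsFunctionField K E := by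
  obtain ⟨x, hx, -, -⟩ := IsFunctionField.exists_separating (K := K) (F := F)
  obtain ⟨y, hy⟩ : ∃ y : E, Transcendental K y := by
    by_contra h
    push Not at h
    have : Algebra.IsAlgebraic K E := ⟨fun y => not_not.mp (h y)⟩
    have : Algebra.IsAlgebraic K F := Algebra.IsAlgebraic.trans K E F
    exact hx (Algebra.IsAlgebraic.isAlgebraic x)
  have hy' : Transcendental K (y : F) := fun h => hy <|
    (isAlgebraic_algebraMap_iff (algebraMap E F).injective).mp h
  have := finiteDimensional_adjoin hy'
  refine isFunctionField_of_finite hy ?_
  have he : K⟮y⟯.map E.val = K⟮(y : F)⟯ := by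
    rw [adjoin_map, Set.image_singleton]; rfl
  let e : K⟮y⟯ ≃ₐ[K] K⟮(y : F)⟯ := (K⟮y⟯.equivMap E.val).trans (IntermediateField.equivOfEq he)
  have : FiniteDimensional K⟮y⟯ F :=
    Module.Finite.of_equiv_equiv e.symm.toRingEquiv (RingEquiv.refl F) (by
      ext c
      obtain ⟨d, rfl⟩ := e.surjective c
      change algebraMap K⟮y⟯ F (e.symm (e d)) = algebraMap K⟮(y : F)⟯ F (e d)
      rw [e.symm_apply_apply]
      rfl)
  exact FiniteDimensional.left K⟮y⟯ E F

/-- The hypotheses of S27 give a function field. -/
theorem isFunctionField_of_isCurveOver [CharZero K] [IsCurveOver K F] [Algebra.EssFiniteType K F] :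
    IsFunctionField K F := by
  obtain ⟨s, hs, hsep⟩ := exists_isTranscendenceBasis_and_isSeparable_of_perfectField K F
  set v : s → F := Subtype.val with hv
  let A := MvPolynomial s K
  let L := FractionRing A
  let e := hs.1.aevalEquivField
  let : Algebra L F := ((IntermediateField.adjoin K (Set.range v)).val.comp
    e.toAlgHom).toRingHom.toAlgebra
  have : IsScalarTower K L F := IsScalarTower.of_algebraMap_eq fun c =>
    (((IntermediateField.adjoin K (Set.range v)).val.comp e.toAlgHom).commutes c).symm
  have : Algebra.IsSeparable (IntermediateField.adjoin K (Set.range v)) F := by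
    rw [show Set.range v = (s : Set F) from Subtype.range_coe]
    exact hsep
  have : Algebra.IsSeparable L F :=
    Algebra.IsSeparable.of_equiv_equiv e.symm.toRingEquiv (RingEquiv.refl F) (by
      ext c
      obtain ⟨d, rfl⟩ := e.surjective c
      change algebraMap L F (e.symm (e d)) =
        algebraMap (IntermediateField.adjoin K (Set.range v)) F (e d)
      rw [e.symm_apply_apply]
      rfl)
  have : Algebra.FormallyEtale L F := Algebra.FormallyEtale.of_isSeparable _ _
  have : Algebra.FormallyEtale A L :=
    Algebra.FormallyEtale.of_isLocalization (Rₘ := L) (nonZeroDivisors A)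
  -- the differentials of a transcendence basis form a basis, so it has one element
  have h1 : Module.finrank L Ω[L⁄K] = s.card := by
    rw [← (KaehlerDifferential.tensorKaehlerEquivOfFormallyEtale K A L).finrank_eq,
      Module.finrank_baseChange, Module.finrank_eq_card_basis
        (KaehlerDifferential.mvPolynomialBasis K s),
      Fintype.card_coe]
  have h2 : Module.finrank F Ω[F⁄K] = s.card := by
    rw [← (KaehlerDifferential.tensorKaehlerEquivOfFormallyEtale K L F).finrank_eq,
      Module.finrank_baseChange, h1]
  have hcard : s.card = 1 := h2.symm.trans IsCurveOver.finrank_kaehler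
  obtain ⟨t, rfl⟩ := Finset.card_eq_one.mp hcard
  have ht : Transcendental K t :=
    hs.1.transcendental ⟨t, Finset.mem_singleton_self t⟩
  rw [Finset.coe_singleton] at hsep
  refine ⟨t, ht, ?_, hsep⟩
  have := hsep
  have : Algebra.EssFiniteType K⟮t⟯ F := Algebra.EssFiniteType.of_comp K K⟮t⟯ F
  exact Algebra.finite_of_essFiniteType_of_isAlgebraic

end Fermat.FF

end
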