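import Fermat.Agent.FF.RiemannRoch

/-!
# Duality: `h¹(D) = ℓ(W - D)`

It gives `IsCanonical.riemann_roch` and `ell_of_degree_ge`, `ℓ(D) = deg D + 1 - g` in large
degree.
-/

set_option autoImplicit false

noncomputable section

open AlgebraicCurve

namespace Fermat.FF

variable {K F : Type*} [Field K] [Field F] [Algebra K F]

/-- A canonical divisor: degree `2g - 2` and `ℓ = g`. -/
def IsCanonical (W : Divisor K F) : Prop :=
  Divisor.degree W = 2 * (genusFF K F : ℤ) - 2 ∧ ell W = genusFF K F

variable [IsAlgClosed K] [IsFunctionField K F]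

variable (K F) in
/-- Functionals on repartitions; the Weil differentials are those lying in some `weilSpace`. -/
abbrev WeilFunctional : Type _ := Module.Dual K ↥(repartitions K F)

/-- The functionals vanishing on `R(D) + F`. -/
def weilSpace (D : Divisor K F) : Submodule K (WeilFunctional K F) :=
  (repartitionsOf D ⊔ principalRepartitions K F).dualAnnihilator

omit [IsAlgClosed K] [IsFunctionField K F] in
/-- Membership: vanishing on `R(D)` and on the principal repartitions. -/
theorem mem_weilSpace {D : Divisor K F} {ω : WeilFunctional K F} :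
    ω ∈ weilSpace D ↔ (∀ α ∈ repartitionsOf D, ω α = 0) ∧
      ∀ α ∈ principalRepartitions K F, ω α = 0 := by
  rw [weilSpace, Submodule.mem_dualAnnihilator]
  refine ⟨fun h => ⟨fun α hα => h α (Submodule.mem_sup_left hα),
    fun α hα => h α (Submodule.mem_sup_right hα)⟩, fun h α hα => ?_⟩
  obtain ⟨a, ha, b, hb, rfl⟩ := Submodule.mem_sup.mp hα
  rw [map_add, h.1 a ha, h.2 b hb, add_zero]

omit [IsAlgClosed K] [IsFunctionField K F] in
/-- Larger divisors have smaller spaces of differentials. -/
theorem weilSpace_anti {D E : Divisor K F} (h : D ≤ E) : weilSpace E ≤ weilSpace D := fun ω hω => by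
  rw [mem_weilSpace] at hω ⊢
  exact ⟨fun α hα => hω.1 α (repartitionsOf_mono h hα), hω.2⟩

omit [IsAlgClosed K] [IsFunctionField K F] in
/-- The differentials of `D` have dimension `h¹(D)`. -/
theorem finrank_weilSpace (D : Divisor K F) : Module.finrank K (weilSpace D) = h1 D := by
  rw [weilSpace, ← (Submodule.dualQuotEquivDualAnnihilator _).finrank_eq, Subspace.dual_finrank_eq]
  rfl

/-- The spaces of Weil differentials bounded by a divisor are finite dimensional. -/
instance instFiniteWeilSpace (D : Divisor K F) : FiniteDimensional K (weilSpace D) :=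
  Module.Finite.equiv (Submodule.dualQuotEquivDualAnnihilator
    (repartitionsOf D ⊔ principalRepartitions K F))

/-- Multiplication of a functional by a function. -/
def weilAct (f : F) (ω : WeilFunctional K F) : WeilFunctional K F where
  toFun α := ω (f • α)
  map_add' a b := by rw [smul_add, map_add]
  map_smul' c a := by rw [smul_comm, map_smul, RingHom.id_apply]

omit [IsAlgClosed K] [IsFunctionField K F] in
/-- The value of a multiplied functional. -/
theorem weilAct_apply (f : F) (ω : WeilFunctional K F) (α : ↥(repartitions K F)) :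
    weilAct f ω α = ω (f • α) := rfl

omit [IsAlgClosed K] [IsFunctionField K F] in
/-- Multiplication of functionals is associative. -/
theorem weilAct_mul (f g : F) (ω : WeilFunctional K F) :
    weilAct f (weilAct g ω) = weilAct (f * g) ω := by
  ext α; simp [weilAct_apply, smul_smul, mul_comm]

omit [IsAlgClosed K] [IsFunctionField K F] in
/-- `1` acts trivially. -/
theorem weilAct_one (ω : WeilFunctional K F) : weilAct 1 ω = ω := by
  ext α; simp [weilAct_apply]

omit [IsAlgClosed K] [IsFunctionField K F] in
/-- `0` kills every functional. -/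
theorem weilAct_zero (ω : WeilFunctional K F) : weilAct 0 ω = 0 := by
  ext α; simp [weilAct_apply]

omit [IsAlgClosed K] [IsFunctionField K F] in
/-- Multiplication is additive in the function. -/
theorem weilAct_add (f g : F) (ω : WeilFunctional K F) :
    weilAct (f + g) ω = weilAct f ω + weilAct g ω := by
  ext α; simp [weilAct_apply, add_smul]

omit [IsAlgClosed K] [IsFunctionField K F] in
/-- Multiplication commutes with negation of the function. -/
theorem weilAct_neg (f : F) (ω : WeilFunctional K F) : weilAct (-f) ω = -weilAct f ω := by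
  ext α; simp [weilAct_apply, neg_smul]

omit [IsAlgClosed K] [IsFunctionField K F] in
/-- Multiplication is `K`-linear in the function. -/
theorem weilAct_smul (c : K) (f : F) (ω : WeilFunctional K F) :
    weilAct (c • f) ω = c • weilAct f ω := by
  ext α; simp [weilAct_apply, smul_assoc]

omit [IsAlgClosed K] [IsFunctionField K F] in
/-- A nonzero functional is killed only by `0`. -/
theorem weilAct_eq_zero {f : F} {ω : WeilFunctional K F} (hω : ω ≠ 0) (h : weilAct f ω = 0) :
    f = 0 := by
  by_contra hf
  exact hω (by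
    rw [← weilAct_one ω, ← inv_mul_cancel₀ hf, ← weilAct_mul, h]; ext α; simp [weilAct_apply])

/-- Multiplication by `f` carries the Weil functionals of `D` to those of `E` when `E ≤ D + (f)`. -/
theorem weilAct_mem {D E : Divisor K F} {f : F} {ω : WeilFunctional K F} (hω : ω ∈ weilSpace D)
    (h : f ≠ 0 → E ≤ D + divOf K f) : weilAct f ω ∈ weilSpace E := by
  rcases eq_or_ne f 0 with rfl | hf
  · rw [weilAct_zero]; exact zero_mem _
  rw [mem_weilSpace] at hω ⊢
  refine ⟨fun α hα => hω.1 _ ?_, fun α hα => hω.2 _ ?_⟩
  · rw [mem_repartitionsOf] at hα ⊢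
    intro v
    change OrdGE v (f * (α : Place K F → F) v) _
    refine ((ordGE_ord v f).mul (hα v)).mono ?_
    have := Finsupp.le_def.mp (h hf) v
    simp only [Finsupp.add_apply, divOf_apply] at this
    omega
  · obtain ⟨g, hg⟩ := mem_principalRepartitions_iff.mp hα
    refine mem_principalRepartitions_iff.mpr ⟨f * g, ?_⟩
    funext v
    change f * (α : Place K F → F) v = _
    rw [congrFun hg v]

/-- `h¹` only depends on the divisor class. -/
theorem h1_add_divOf (D : Divisor K F) {f : F} (hf : f ≠ 0) : h1 (D + divOf K f) = h1 D := by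
  have e1 := FF.riemann_roch (D + divOf K f)
  have e2 := FF.riemann_roch D
  rw [ell_add_divOf D hf, map_add, degree_divOf] at e1
  omega

/-- `h¹` vanishes in large degree. -/
theorem exists_degree_bound (K F : Type*) [Field K] [Field F] [Algebra K F] [IsAlgClosed K]
    [IsFunctionField K F] : ∃ b : ℤ, ∀ D : Divisor K F, b ≤ Divisor.degree D → h1 D = 0 := by
  obtain ⟨D₀, hD₀⟩ := exists_h1_eq_zero K F
  refine ⟨Divisor.degree D₀ + genusFF K F, fun D hD => ?_⟩
  have hne : ell (D - D₀) ≠ 0 := by
    have := FF.riemann_inequality (D - D₀)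
    rw [map_sub] at this
    omega
  obtain ⟨f, hf0, hf⟩ := exists_effective_of_ell_ne_zero hne
  have hle : D₀ ≤ D + divOf K f := by
    refine Finsupp.le_def.mpr fun v => ?_
    have := Finsupp.le_def.mp hf v
    simp only [Finsupp.coe_zero, Pi.zero_apply, Finsupp.add_apply, Finsupp.sub_apply] at this ⊢
    omega
  rw [← h1_add_divOf D hf0]
  have := (h1Map_surjective hle).subsingleton
  exact Module.finrank_zero_of_subsingleton

/-- The repartitions of a supremum are sums of those of the two divisors. -/
theorem repartitionsOf_sup_le (D E : Divisor K F) :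
    repartitionsOf (D ⊔ E) ≤ repartitionsOf D ⊔ repartitionsOf E := by
  classical
  intro α hα
  rw [mem_repartitionsOf] at hα
  let a₀ : Place K F → F := fun v =>
    if E v ≤ D v then (α : Place K F → F) v else 0
  have ha₀ : a₀ ∈ repartitions K F := mem_repartitions_of_finite_ord <|
    (repartition_finite α).subset fun v hv => by
      simp only [Set.mem_ofPred_eq, a₀] at hv ⊢
      split at hv
      · exact hv
      · simp at hv
  refine Submodule.mem_sup.mpr ⟨⟨a₀, ha₀⟩, ?_, α - ⟨a₀, ha₀⟩, ?_, add_sub_cancel _ _⟩
  · rw [mem_repartitionsOf]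
    intro v
    change OrdGE v (a₀ v) _
    simp only [a₀]
    split
    · exact (hα v).mono (by rw [Finsupp.sup_apply, sup_eq_left.mpr ‹_›])
    · exact ordGE_zero _ _
  · rw [mem_repartitionsOf]
    intro v
    change OrdGE v ((α : Place K F → F) v - a₀ v) _
    simp only [a₀]
    split
    · rw [sub_self]; exact ordGE_zero _ _
    · rw [sub_zero]
      exact (hα v).mono (by rw [Finsupp.sup_apply, sup_eq_right.mpr (by omega)])

/-- Weil differentials are one-dimensional over `F`. -/
theorem exists_weilAct_eq {ω ω' : WeilFunctional K F} (hω : ω ≠ 0) {W D : Divisor K F}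
    (hW : ω ∈ weilSpace W) (hD : ω' ∈ weilSpace D) : ∃ f : F, ω' = weilAct f ω := by
  by_contra hne
  push Not at hne
  obtain ⟨P⟩ := nonempty_place K F
  set g : ℤ := (genusFF K F : ℤ) with hg
  set b : ℤ := |Divisor.degree W| + |Divisor.degree D| + 3 * g + 1 with hb
  have hb0 : 1 ≤ b := by
    have := abs_nonneg (Divisor.degree W)
    have := abs_nonneg (Divisor.degree D)
    omega
  set B : Divisor K F := Finsupp.single P b with hB
  let Φ : riemannRochSpace (W + B) × riemannRochSpace (D + B) →ₗ[K] weilSpace (-B) :=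
    { toFun := fun p => ⟨weilAct (p.1 : F) ω + weilAct (p.2 : F) ω', add_mem
        (weilAct_mem hW fun h0 => by
          have := Finsupp.le_def.mp ((nonneg_add_divOf_iff h0).mpr p.1.2)
          refine Finsupp.le_def.mpr fun v => ?_
          have := this v
          simp only [Finsupp.coe_zero, Pi.zero_apply, Finsupp.add_apply,
            Finsupp.neg_apply] at this ⊢
          omega)
        (weilAct_mem hD fun h0 => by
          have := Finsupp.le_def.mp ((nonneg_add_divOf_iff h0).mpr p.2.2)
          refine Finsupp.le_def.mpr fun v => ?_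
          have := this v
          simp only [Finsupp.coe_zero, Pi.zero_apply, Finsupp.add_apply,
            Finsupp.neg_apply] at this ⊢
          omega)⟩
      map_add' := fun p q => Subtype.ext (by
        simp only [Prod.fst_add, Prod.snd_add, Submodule.coe_add, weilAct_add]
        abel)
      map_smul' := fun c p => Subtype.ext (by
        simp [weilAct_smul, smul_add]) }
  have hinj : Function.Injective Φ := by
    refine (injective_iff_map_eq_zero Φ).mpr ?_
    rintro ⟨a, b⟩ h
    have h' : weilAct (a : F) ω + weilAct (b : F) ω' = 0 := congrArg Subtype.val h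
    have hb0 : (b : F) = 0 := by
      by_contra hb
      refine hne (-((b : F)⁻¹ * a)) ?_
      rw [weilAct_neg, ← weilAct_mul]
      have hw : weilAct (a : F) ω = -weilAct (b : F) ω' := eq_neg_of_add_eq_zero_left h'
      rw [hw]
      have : weilAct ((b : F))⁻¹ (-weilAct (b : F) ω') = -ω' := by
        ext α
        simp [weilAct_apply, smul_smul, mul_inv_cancel₀ hb]
      rw [this, neg_neg]
    rw [hb0, weilAct_zero, add_zero] at h'
    exact Prod.ext (Subtype.ext (weilAct_eq_zero hω h')) (Subtype.ext hb0)
  -- but the left side grows twice as fast as the right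
  have hdim := LinearMap.finrank_le_finrank_of_injective hinj
  rw [Module.finrank_prod, finrank_weilSpace] at hdim
  change ell (W + B) + ell (D + B) ≤ h1 (-B) at hdim
  have e1 := FF.riemann_inequality (W + B)
  have e2 := FF.riemann_inequality (D + B)
  have e3 := FF.riemann_roch (-B)
  have hBdeg : Divisor.degree B = b := by rw [hB, Divisor.degree_single, deg_eq_one]; simp
  have hneg : ell (-B) = 0 := ell_eq_zero_of_degree_neg (by rw [map_neg, hBdeg]; omega)
  rw [map_add, hBdeg] at e1 e2
  rw [map_neg, hBdeg, hneg] at e3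
  have a1 := neg_abs_le (Divisor.degree W)
  have a2 := neg_abs_le (Divisor.degree D)
  omega

/-- The divisor of a nonzero Weil differential. -/
theorem exists_divisor_weil {ω : WeilFunctional K F} (hω0 : ω ≠ 0) {D₁ : Divisor K F}
    (hω : ω ∈ weilSpace D₁) :
    ∃ W : Divisor K F, IsCanonical W ∧ ω ∈ weilSpace W ∧ (∀ D, ω ∈ weilSpace D → D ≤ W) ∧
      ∀ D, h1 D = ell (W - D) := by
  classical
  obtain ⟨b, hb⟩ := exists_degree_bound K F
  have hbound : ∀ D : Divisor K F, ω ∈ weilSpace D → Divisor.degree D < b := fun D hD => by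
    by_contra hle
    have h0 := finrank_weilSpace D
    rw [hb D (not_lt.mp hle)] at h0
    exact hω0 ((Submodule.eq_bot_iff _).mp (Submodule.finrank_eq_zero.mp h0) ω hD)
  obtain ⟨m, ⟨W, hWm, hW⟩, hmax⟩ := Int.exists_greatest_of_bdd
    (P := fun z => ∃ D : Divisor K F, Divisor.degree D = z ∧ ω ∈ weilSpace D)
    ⟨b, fun z ⟨D, hDz, hD⟩ => hDz ▸ (hbound D hD).le⟩ ⟨_, _, rfl, hω⟩
  -- take `W` of maximal degree; then it is the maximum
  have hle : ∀ D, ω ∈ weilSpace D → D ≤ W := by
    intro D hD
    have hsup : ω ∈ weilSpace (D ⊔ W) := by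
      rw [mem_weilSpace] at hD hW ⊢
      refine ⟨fun α hα => ?_, hW.2⟩
      obtain ⟨a, ha, c, hc, rfl⟩ := Submodule.mem_sup.mp (repartitionsOf_sup_le D W hα)
      rw [map_add, hD.1 a ha, hW.1 c hc, add_zero]
    have h1' := hmax _ ⟨_, rfl, hsup⟩
    have h2 := degree_mono (le_sup_right : W ≤ D ⊔ W)
    have h3 := eq_zero_of_nonneg_of_degree (sub_nonneg.mpr (le_sup_right : W ≤ D ⊔ W))
      (by rw [map_sub]; omega)
    exact le_sup_left.trans_eq (sub_eq_zero.mp h3)
  -- `f ↦ f ω` is bijective from `L(W - D)` to the differentials of `D`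
  have hdual : ∀ D, h1 D = ell (W - D) := by
    intro D
    let φ : riemannRochSpace (W - D) →ₗ[K] weilSpace D :=
      { toFun := fun f => ⟨weilAct (f : F) ω, weilAct_mem hW fun h0 => by
          refine Finsupp.le_def.mpr fun v => ?_
          have := Finsupp.le_def.mp ((nonneg_add_divOf_iff h0).mpr f.2) v
          simp only [Finsupp.coe_zero, Pi.zero_apply, Finsupp.add_apply,
            Finsupp.sub_apply] at this ⊢
          omega⟩
        map_add' := fun f g => Subtype.ext (by simp [weilAct_add])
        map_smul' := fun c f => Subtype.ext (by simp [weilAct_smul]) }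
    have hinj : Function.Injective φ := by
      refine (injective_iff_map_eq_zero φ).mpr ?_
      exact fun f hf => Subtype.ext (weilAct_eq_zero hω0 (congrArg Subtype.val hf))
    have hsurj : Function.Surjective φ := by
      rintro ⟨ω', hω'⟩
      obtain ⟨f, rfl⟩ := exists_weilAct_eq hω0 hW hω'
      refine ⟨⟨f, ?_⟩, rfl⟩
      rcases eq_or_ne f 0 with rfl | hf
      · exact zero_mem _
      have hmem := weilAct_mem (f := f⁻¹) (E := D + divOf K f⁻¹) hω' fun _ => le_rfl
      rw [weilAct_mul, inv_mul_cancel₀ hf, weilAct_one] at hmem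
      refine (nonneg_add_divOf_iff hf).mp (Finsupp.le_def.mpr fun v => ?_)
      have := Finsupp.le_def.mp (hle _ hmem) v
      simp only [Finsupp.coe_zero, Pi.zero_apply, Finsupp.add_apply, Finsupp.sub_apply,
        divOf_apply, Place.ord_inv] at this ⊢
      omega
    rw [← finrank_weilSpace D, ← (LinearEquiv.ofBijective φ ⟨hinj, hsurj⟩).finrank_eq, ell]
  refine ⟨W, ⟨?_, ?_⟩, hW, hle, hdual⟩
  · have e1 := hdual 0
    have e2 := hdual W
    rw [sub_zero, h1_zero] at e1
    rw [sub_self, ell_zero] at e2
    have e3 := FF.riemann_roch W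
    rw [← e1, e2] at e3
    push_cast at e3
    omega
  · rw [← h1_zero, hdual 0, sub_zero]

/-- A canonical divisor exists and gives duality `h¹(D) = ℓ(W - D)`. -/
theorem exists_isCanonical_and_h1 (K F : Type*) [Field K] [Field F] [Algebra K F] [IsAlgClosed K]
    [IsFunctionField K F] :
    ∃ W : Divisor K F, IsCanonical W ∧ ∀ D, h1 D = ell (W - D) := by
  classical
  obtain ⟨P⟩ := nonempty_place K F
  have hne : weilSpace (Finsupp.single P (-2) : Divisor K F) ≠ ⊥ := fun h => by
    have h1' := finrank_weilSpace (Finsupp.single P (-2) : Divisor K F)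
    rw [h, finrank_bot] at h1'
    have e := FF.riemann_roch (Finsupp.single P (-2) : Divisor K F)
    rw [Divisor.degree_single, deg_eq_one, ← h1',
      ell_eq_zero_of_degree_neg (D := (Finsupp.single P (-2) : Divisor K F))
        (by rw [Divisor.degree_single, deg_eq_one]; norm_num)] at e
    push_cast at e
    omega
  obtain ⟨ω, hω, hω0⟩ := Submodule.exists_mem_ne_zero_of_ne_bot hne
  obtain ⟨W, hW, -, -, hdual⟩ := exists_divisor_weil hω0 hω
  exact ⟨W, hW, hdual⟩

/-- A canonical divisor exists. -/
theorem exists_isCanonical (K F : Type*) [Field K] [Field F] [Algebra K F] [IsAlgClosed K]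
    [IsFunctionField K F] : ∃ W : Divisor K F, IsCanonical W :=
  let ⟨W, hW, _⟩ := exists_isCanonical_and_h1 K F
  ⟨W, hW⟩

/-- Canonical divisors are linearly equivalent, given duality for one. -/
theorem IsCanonical.exists_eq_add_divOf {W W' : Divisor K F} (hW : IsCanonical W)
    (hdual : ∀ D, h1 D = ell (W - D)) (hW' : IsCanonical W') :
    ∃ f : F, f ≠ 0 ∧ W - W' = divOf K f := by
  refine ell_eq_one_of_degree_zero (by rw [map_sub, hW.1, hW'.1, sub_self]) ?_
  rw [← hdual]
  have e := FF.riemann_roch W'
  rw [hW'.1, hW'.2] at e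
  omega

/-- Serre duality: `h¹ D = ℓ (W - D)` for a canonical `W`. -/
theorem IsCanonical.h1_eq {W : Divisor K F} (hW : IsCanonical W) (D : Divisor K F) :
    h1 D = ell (W - D) := by
  obtain ⟨W₀, hW₀, hdual⟩ := exists_isCanonical_and_h1 K F
  obtain ⟨f, hf, hsub⟩ := hW₀.exists_eq_add_divOf hdual hW
  rw [hdual, sub_eq_iff_eq_add'.mp hsub, add_sub_right_comm, ell_add_divOf _ hf]

/-- The Riemann-Roch theorem. -/
theorem IsCanonical.riemann_roch {W : Divisor K F} (hW : IsCanonical W) (D : Divisor K F) :
    (ell D : ℤ) - ell (W - D) = Divisor.degree D + 1 - genusFF K F := by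
  rw [← hW.h1_eq]; exact FF.riemann_roch D

/-- `h¹(D) = 0` for `deg D ≥ 2g - 1`. -/
theorem h1_eq_zero {D : Divisor K F} (hD : 2 * (genusFF K F : ℤ) - 1 ≤ Divisor.degree D) :
    h1 D = 0 := by
  obtain ⟨W, hW⟩ := exists_isCanonical K F
  rw [hW.h1_eq]
  apply ell_eq_zero_of_degree_neg
  rw [map_sub, hW.1]; omega

/-- `ℓ(D) = deg D + 1 - g` for `deg D ≥ 2g - 1`. -/
theorem ell_of_degree_ge {D : Divisor K F} (hD : 2 * (genusFF K F : ℤ) - 1 ≤ Divisor.degree D) :
    (ell D : ℤ) = Divisor.degree D + 1 - genusFF K F := by
  have := FF.riemann_roch D; rw [h1_eq_zero hD] at this; omega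

end Fermat.FF

end
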