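import Fermat.Agent.FF.Kaehler
import Fermat.Agent.FF.Duality

/-!
# Canonical divisors from differentials; Riemann-Hurwitz

For a tame separable `x` the composition of the Weil differential of `K(x)` with the trace has
divisor `Σ (e - 1) P - 2 (x)_∞`, which is the divisor of `dx`.
-/

set_option autoImplicit false

noncomputable section

open AlgebraicCurve KaehlerDifferential IntermediateField

namespace Fermat.FF

variable {K F : Type*} [Field K] [Field F] [Algebra K F] [IsAlgClosed K] [IsFunctionField K F]

/-- A divisor linearly equivalent to a canonical one is canonical. -/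
theorem IsCanonical.add_divOf {W : Divisor K F} (hW : IsCanonical W) {f : F} (hf : f ≠ 0) :
    IsCanonical (W + divOf K f) :=
  ⟨by rw [map_add, degree_divOf, add_zero, hW.1], by rw [ell_add_divOf W hf, hW.2]⟩

/-- The genus of a purely transcendental function field is zero. -/
theorem genusFF_eq_zero_of_top {t : F} (ht : Transcendental K t) (htop : K⟮t⟯ = ⊤) :
    genusFF K F = 0 := by
  have hn : Module.finrank K⟮t⟯ F = 1 := by rw [htop]; exact IntermediateField.finrank_top
  set k : ℕ := 2 * genusFF K F + 1
  set A := poleDiv K t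
  have hA : Divisor.degree (k • A) = k := by
    rw [map_nsmul, degree_poleDiv ht, hn, nsmul_eq_mul]; simp
  have hmem : ∀ i : Fin (k + 1), t ^ (i : ℕ) ∈ riemannRochSpace (k • A) := fun i => by
    rw [mem_riemannRochSpace]
    intro v
    refine (ordGE_ord v _).mono ?_
    rw [ord_pow, Finsupp.smul_apply, nsmul_eq_mul, poleDiv_apply]
    have h1 : ((i : ℕ) : ℤ) ≤ k := by have := i.2; omega
    rcases le_total (v.ord t) 0 with h | h
    · rw [max_eq_left (by omega)]; nlinarith
    · rw [max_eq_right (by omega)]; nlinarith
  -- `1, t, …, t ^ k` are independent in the Riemann-Roch space of `k • A`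
  have hli : LinearIndependent K (fun i : Fin (k + 1) =>
      (⟨_, hmem i⟩ : riemannRochSpace (k • A))) := by
    refine LinearIndependent.of_comp (riemannRochSpace (k • A)).subtype ?_
    rw [Fintype.linearIndependent_iff]
    intro c hc i
    have h0 : Polynomial.aeval t (∑ i : Fin (k + 1), Polynomial.C (c i) *
        Polynomial.X ^ (i : ℕ)) = 0 := by
      simpa [Algebra.smul_def] using hc
    have := congrArg (fun p => Polynomial.coeff p (i : ℕ)) (transcendental_iff.mp ht _ h0)
    simpa [Polynomial.finsetSum_coeff, Polynomial.coeff_C_mul, Polynomial.coeff_X_pow,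
      Fin.val_inj] using this
  -- compare with Riemann-Roch in degree `k = 2 g + 1`
  have h1 := hli.fintype_card_le_finrank
  rw [Fintype.card_fin] at h1
  change k + 1 ≤ ell (k • A) at h1
  have h2 := ell_of_degree_ge (D := k • A) (by rw [hA]; simp only [k]; push_cast; omega)
  rw [hA] at h2
  omega

/-- In genus zero a divisor of degree `-2` carries a Weil differential and is maximal with this
property. -/
theorem exists_weil_of_genus_zero {E : Type*} [Field E] [Algebra K E] [IsFunctionField K E]
    (hg : genusFF K E = 0) (W₁ : Divisor K E) (hdeg : Divisor.degree W₁ = -2) :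
    ∃ η ∈ weilSpace W₁, η ≠ 0 ∧ ∀ u, weilSpace (W₁ + Finsupp.single u 1) = ⊥ := by
  have hne : weilSpace W₁ ≠ ⊥ := fun h => by
    have h1 := finrank_weilSpace W₁
    rw [h, finrank_bot] at h1
    have e := FF.riemann_roch W₁
    rw [hdeg, ← h1, ell_eq_zero_of_degree_neg (by rw [hdeg]; norm_num), hg] at e
    norm_num at e
  obtain ⟨η, hη, hη0⟩ := Submodule.exists_mem_ne_zero_of_ne_bot hne
  refine ⟨η, hη, hη0, fun u => Submodule.finrank_eq_zero.mp ?_⟩
  rw [finrank_weilSpace]
  have e := FF.riemann_roch (W₁ + Finsupp.single u 1)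
  have hd : Divisor.degree (W₁ + Finsupp.single u 1) = -1 := by
    rw [map_add, hdeg, Divisor.degree_single, deg_eq_one]; norm_num
  rw [hd, ell_eq_zero_of_degree_neg (by rw [hd]; norm_num), hg] at e
  omega

section Cotrace

variable {E : Type*} [Field E] [Algebra K E] [IsFunctionField K E] [Algebra E F]
  [IsScalarTower K E F] [Algebra.IsIntegral E F] [FiniteDimensional E F]
  {W₀ : Divisor K F} {W₁ : Divisor K E}
  (hrel : ∀ w : Place K F, W₀ w
    = (w.ramificationIndex E : ℤ) * W₁ (w.restrict E) + (w.ramificationIndex E : ℤ) - 1)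

include hrel

/-- The trace preserves the bound given by a divisor and its pullback plus the different. -/
theorem ordGE_trace_of_rel (u : Place K E) (z : F)
    (hz : ∀ w ∈ u.fiber F, OrdGE w z (-W₀ w)) : OrdGE u (Algebra.trace E F z) (-W₁ u) := by
  obtain ⟨s, hs0, hs⟩ := exists_ord_eq u (W₁ u + 1)
  have hz' : ∀ w ∈ u.fiber F, OrdGE w (s • z) 1 := fun w hw => by
    rw [Algebra.smul_def]
    refine ((ordGE_algebraMap_of_restrict (Place.mem_fiber.mp hw) (ordGE_ord u s)).mul
      (hz w hw)).mono ?_
    rw [hs, hrel, Place.mem_fiber.mp hw]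
    linarith
  have h1 : OrdGE u (Algebra.trace E F (s • z)) 1 := by
    rw [← evalAt_eq_zero_iff (ordGE_trace u fun w hw => (hz' w hw).mono zero_le_one),
      evalAt_trace u fun w hw => (hz' w hw).mono zero_le_one]
    exact Finset.sum_eq_zero fun w hw => by
      rw [(evalAt_eq_zero_iff ((hz' w hw).mono zero_le_one)).mpr (hz' w hw), mul_zero]
  rw [map_smul, smul_eq_mul] at h1
  have h2 := (ordGE_ord u s⁻¹).mul h1
  rw [inv_mul_cancel_left₀ hs0] at h2
  exact h2.mono (by rw [u.ord_inv, hs]; omega)

/-- Traces of approximations of a repartition on each fibre form a repartition. -/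
theorem trace_mem_repartitions (α : ↥(repartitions K F)) (z : Place K E → F)
    (hz : ∀ u, ∀ w ∈ u.fiber F, OrdGE w ((α : Place K F → F) w - z u) (-W₀ w)) :
    (fun u => Algebra.trace E F (z u)) ∈ repartitions K E := by
  classical
  refine mem_repartitions_of_finite_ord (Set.Finite.subset
    (((repartition_finite α).image fun w : Place K F => w.restrict E).union
      W₁.support.finite_toSet) fun u hu => ?_)
  simp only [Set.mem_union, Set.mem_image, Set.mem_ofPred_eq, Finset.mem_coe,
    Finsupp.mem_support_iff] at hu ⊢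
  by_contra h
  push Not at h
  have hW : W₁ u = 0 := h.2
  have := ordGE_trace_of_rel hrel u (z u) fun w hw => by
    have hreg : OrdGE w ((α : Place K F → F) w) (-W₀ w) := by
      refine (ordGE_ord w _).mono ?_
      have h0 : 0 ≤ w.ord ((α : Place K F → F) w) := by
        by_contra hlt
        exact h.1 w (by omega) (Place.mem_fiber.mp hw)
      rw [hrel, Place.mem_fiber.mp hw, hW]
      have := w.ramificationIndex_pos (F := E)
      omega
    have := hreg.sub (hz u w hw)
    rwa [sub_sub_cancel] at this
  rw [hW, neg_zero, ordGE_iff] at this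
  rcases this with h0 | h0
  · rw [h0, Place.ord_zero] at hu; omega
  · omega

/-- The transpose of the trace on a Weil differential: its value at a repartition is read off from
any approximation on the fibres. -/
theorem exists_cotrace {η : WeilFunctional K E} (hη : η ∈ weilSpace W₁) :
    ∃ ω : WeilFunctional K F,
      ∀ (α : ↥(repartitions K F)) (β : ↥(repartitions K E)) (y : Place K E → F),
        (∀ u, ∀ w ∈ u.fiber F, OrdGE w ((α : Place K F → F) w - y u) (-W₀ w)) →
        (∀ u, OrdGE u ((β : Place K E → E) u - Algebra.trace E F (y u)) (-W₁ u)) →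
        ω α = η β := by
  classical
  have happ : ∀ (α : ↥(repartitions K F)) (u : Place K E), ∃ z : F,
      ∀ w ∈ u.fiber F, OrdGE w ((α : Place K F → F) w - z) (-W₀ w) := by
    intro α u
    obtain ⟨z, hz⟩ := exists_approx (u.fiber F) (fun w => (α : Place K F → F) w)
      ((∑ w ∈ u.fiber F, (W₀ w).natAbs : ℕ) : ℤ)
    refine ⟨z, fun w hw => ?_⟩
    rw [← neg_sub]
    refine ((hz w hw).mono ?_).neg
    have : (W₀ w).natAbs ≤ ∑ w ∈ u.fiber F, (W₀ w).natAbs :=
      Finset.single_le_sum (f := fun w : Place K F => (W₀ w).natAbs) (fun _ _ => Nat.zero_le _) hw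
    omega
  choose z hz using happ
  let τ : ↥(repartitions K F) → ↥(repartitions K E) := fun α =>
    ⟨_, trace_mem_repartitions hrel α (z α) (hz α)⟩
  -- any admissible choice gives the same value
  have hwd : ∀ (α : ↥(repartitions K F)) (β : ↥(repartitions K E)) (y : Place K E → F),
      (∀ u, ∀ w ∈ u.fiber F, OrdGE w ((α : Place K F → F) w - y u) (-W₀ w)) →
      (∀ u, OrdGE u ((β : Place K E → E) u - Algebra.trace E F (y u)) (-W₁ u)) →
      η (τ α) = η β := by
    intro α β y hy hβ
    rw [← sub_eq_zero, ← map_sub]
    refine (mem_weilSpace.mp hη).1 _ (mem_repartitionsOf.mpr fun u => ?_)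
    change OrdGE u (Algebra.trace E F (z α u) - (β : Place K E → E) u) _
    have h1 := ordGE_trace_of_rel hrel u (z α u - y u) fun w hw => by
      have := (hy u w hw).sub (hz α u w hw)
      rwa [sub_sub_sub_cancel_left] at this
    rw [map_sub] at h1
    have := h1.sub (hβ u)
    rwa [sub_sub_sub_cancel_right] at this
  refine ⟨{ toFun := fun α => η (τ α), map_add' := fun α β => ?_, map_smul' := fun c α => ?_ },
    hwd⟩
  · rw [hwd (α + β) (τ α + τ β) (fun u => z α u + z β u) (fun u w hw => by
        have := (hz α u w hw).add (hz β u w hw)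
        rwa [← add_sub_add_comm] at this)
      (fun u => by
        change OrdGE u (Algebra.trace E F (z α u) + Algebra.trace E F (z β u) -
          Algebra.trace E F (z α u + z β u)) _
        rw [map_add, sub_self]; exact ordGE_zero _ _), map_add]
  · rw [hwd (c • α) (c • τ α) (fun u => c • z α u) (fun u w hw => by
        have := (hz α u w hw).smul c
        rwa [smul_sub] at this)
      (fun u => by
        change OrdGE u (c • Algebra.trace E F (z α u) - Algebra.trace E F (c • z α u)) _
        rw [← IsScalarTower.algebraMap_smul E c (z α u), map_smul, IsScalarTower.algebraMap_smul,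
          sub_self]
        exact ordGE_zero _ _), map_smul]
    rfl

omit hrel [IsFunctionField K E] [FiniteDimensional E F] in
/-- The transpose of the trace of a differential of `W₁` lies in `W₀`. -/
theorem cotrace_mem_weilSpace {η : WeilFunctional K E} (hη : η ∈ weilSpace W₁)
    {ω : WeilFunctional K F}
    (hspec : ∀ (α : ↥(repartitions K F)) (β : ↥(repartitions K E)) (y : Place K E → F),
      (∀ u, ∀ w ∈ u.fiber F, OrdGE w ((α : Place K F → F) w - y u) (-W₀ w)) →
      (∀ u, OrdGE u ((β : Place K E → E) u - Algebra.trace E F (y u)) (-W₁ u)) →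
      ω α = η β) : ω ∈ weilSpace W₀ := by
  rw [mem_weilSpace]
  refine ⟨fun α hα => ?_, fun α hα => ?_⟩
  · rw [hspec α 0 (fun _ => 0) (fun u w hw => by rw [sub_zero]; exact mem_repartitionsOf.mp hα w)
      (fun u => by
        change OrdGE u ((0 : E) - Algebra.trace E F 0) _
        rw [map_zero, sub_zero]; exact ordGE_zero _ _), map_zero]
  · obtain ⟨f, hf⟩ := mem_principalRepartitions_iff.mp hα
    rw [hspec α (algebraMap E _ (Algebra.trace E F f)) (fun _ => f)
      (fun u w hw => by rw [congrFun hf w, sub_self]; exact ordGE_zero _ _)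
      (fun u => by
        change OrdGE u (Algebra.trace E F f - Algebra.trace E F f) _
        rw [sub_self]; exact ordGE_zero _ _)]
    exact (mem_weilSpace.mp hη).2 _ (mem_principalRepartitions_iff.mpr ⟨_, rfl⟩)

omit hrel in
/-- At a tame place there is a function regular on the fibre, vanishing off the place, with trace
of order zero below. -/
theorem exists_trace_ord_zero (w₀ : Place K F) (htame : (w₀.ramificationIndex E : K) ≠ 0) :
    ∃ g : F, (∀ w ∈ (w₀.restrict E).fiber F, OrdGE w g 0) ∧
      (∀ w ∈ (w₀.restrict E).fiber F, w ≠ w₀ → OrdGE w g 1) ∧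
      Algebra.trace E F g ≠ 0 ∧ (w₀.restrict E).ord (Algebra.trace E F g) = 0 := by
  classical
  set u₀ := w₀.restrict E
  -- `g` is `1` at `w₀` and `0` at the other places of the fibre
  obtain ⟨g, hg'⟩ := exists_approx (u₀.fiber F) (fun w => if w = w₀ then (1 : F) else 0) 1
  have hgreg : ∀ w ∈ u₀.fiber F, OrdGE w g 0 := fun w hw => by
    have := (hg' w hw).mono (zero_le_one : (0 : ℤ) ≤ 1)
    have h2 : OrdGE w (if w = w₀ then (1 : F) else 0) 0 := by
      split
      · exact ordGE_one w
      · exact ordGE_zero _ _
    simpa using this.add h2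
  -- so its trace takes the value `e`, nonzero by tameness
  have hev : evalAt u₀ (Algebra.trace E F g) = (w₀.ramificationIndex E : K) := by
    rw [evalAt_trace u₀ hgreg, Finset.sum_eq_single_of_mem w₀ (Place.mem_fiber.mpr rfl)]
    · rw [evalAt_eq (v := w₀) (f := g) (c := 1) (by
        have := hg' w₀ (Place.mem_fiber.mpr rfl)
        rwa [if_pos rfl, ← map_one (algebraMap K F)] at this), mul_one]
    · intro w hw hne
      rw [evalAt_eq (v := w) (f := g) (c := 0) (by
        have := hg' w hw
        rwa [if_neg hne, ← map_zero (algebraMap K F)] at this), mul_zero]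
  have hT0 : Algebra.trace E F g ≠ 0 := fun h0 => htame (by
    rw [← hev, h0]; simpa using evalAt_algebraMap u₀ (0 : K))
  refine ⟨g, hgreg, fun w hw hne => ?_, hT0,
    le_antisymm ?_ ((ordGE_trace u₀ hgreg).le_ord hT0)⟩
  · have := hg' w hw
    rwa [if_neg hne, sub_zero] at this
  · by_contra h
    exact htame (hev ▸ (evalAt_eq_zero_iff (ordGE_trace u₀ hgreg)).mpr
      (ordGE_iff.mpr (.inr (by omega))))

/-- If the transpose of the trace has more zeros at a tame place, so has the differential below. -/
theorem mem_weilSpace_add_single_of_cotrace {η : WeilFunctional K E} (hη : η ∈ weilSpace W₁)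
    {ω : WeilFunctional K F}
    (hspec : ∀ (α : ↥(repartitions K F)) (β : ↥(repartitions K E)) (y : Place K E → F),
      (∀ u, ∀ w ∈ u.fiber F, OrdGE w ((α : Place K F → F) w - y u) (-W₀ w)) →
      (∀ u, OrdGE u ((β : Place K E → E) u - Algebra.trace E F (y u)) (-W₁ u)) →
      ω α = η β)
    (w₀ : Place K F) (htame : (w₀.ramificationIndex E : K) ≠ 0)
    (hmem : ω ∈ weilSpace (W₀ + Finsupp.single w₀ 1)) :
    η ∈ weilSpace (W₁ + Finsupp.single (w₀.restrict E) 1) := by
  classical
  set u₀ := w₀.restrict E
  obtain ⟨g, hgreg, hgoff, hT0, hTord⟩ := exists_trace_ord_zero w₀ htame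
  rw [mem_weilSpace]
  refine ⟨fun β hβ => ?_, (mem_weilSpace.mp hη).2⟩
  rw [mem_repartitionsOf] at hβ
  set b := (β : Place K E → E) u₀
  set c := b / Algebra.trace E F g
  have hc : OrdGE u₀ c (-W₁ u₀ - 1) := by
    simp only [c, div_eq_mul_inv]
    refine ((hβ u₀).mul (ordGE_ord u₀ _)).mono ?_
    rw [u₀.ord_inv, hTord, Finsupp.add_apply, Finsupp.single_eq_same]
    omega
  -- a repartition upstairs, supported over `u₀`, whose trace is `β u₀`
  let α₀ : Place K F → F := fun w => if w.restrict E = u₀ then c • g else 0
  have hα₀ : α₀ ∈ repartitions K F := mem_repartitions_of_finite_ord <|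
    (u₀.fiber F).finite_toSet.subset fun w hw => by
      simp only [Finset.mem_coe, Place.mem_fiber]
      by_contra h
      simp only [Set.mem_ofPred_eq, α₀, if_neg h, Place.ord_zero] at hw
      omega
  have hαmem : (⟨α₀, hα₀⟩ : ↥(repartitions K F)) ∈
      repartitionsOf (W₀ + Finsupp.single w₀ 1) := by
    rw [mem_repartitionsOf]
    intro w
    change OrdGE w (α₀ w) _
    simp only [α₀]
    split
    · next h =>
      rw [Algebra.smul_def]
      have hcw := ordGE_algebraMap_of_restrict h hc
      rcases eq_or_ne w w₀ with rfl | hne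
      · refine (hcw.mul (hgreg w (Place.mem_fiber.mpr h))).mono ?_
        rw [Finsupp.add_apply, Finsupp.single_eq_same, hrel]
        linarith
      · refine (hcw.mul (hgoff w (Place.mem_fiber.mpr h) hne)).mono ?_
        rw [Finsupp.add_apply, Finsupp.single_eq_of_ne hne, hrel, h]
        linarith
    · exact ordGE_zero _ _
  rw [← (mem_weilSpace.mp hmem).1 _ hαmem]
  refine (hspec _ β (fun u => if u = u₀ then c • g else 0) (fun u w hw => ?_) fun u => ?_).symm
  · change OrdGE w (α₀ w - _) _
    simp only [α₀, Place.mem_fiber.mp hw]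
    split <;> simp [ordGE_zero]
  · show OrdGE u ((β : Place K E → E) u - Algebra.trace E F (if u = u₀ then c • g else 0)) _
    split
    · next h =>
      subst h
      rw [map_smul, smul_eq_mul, div_mul_cancel₀ b hT0, sub_self]
      exact ordGE_zero _ _
    · next h =>
      rw [map_zero, sub_zero]
      refine (hβ u).mono ?_
      rw [Finsupp.add_apply, Finsupp.single_eq_of_ne h, add_zero]

end Cotrace

/-- The divisor of `dx` lies over `-2` times the pole of the generator of `K(x)`, with the tame
ramification as correction. -/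
theorem ramDiv_apply_eq {x : F} (hx : Transcendental K x) [IsFunctionField K K⟮x⟯]
    [Algebra.IsIntegral K⟮x⟯ F] {W₀ : Divisor K F}
    (hW₀ : ∀ v, W₀ v = (ramIndex x v : ℤ) - 1 - 2 * poleDiv K x v) (w : Place K F) :
    W₀ w = (w.ramificationIndex K⟮x⟯ : ℤ) *
        ((-2 : ℤ) • poleDiv K (AdjoinSimple.gen K x)) (w.restrict K⟮x⟯) +
      (w.ramificationIndex K⟮x⟯ : ℤ) - 1 := by
  have hord := w.ord_restrict (F := K⟮x⟯) (AdjoinSimple.gen K x)
  rw [AdjoinSimple.algebraMap_gen] at hord
  have hp : poleDiv K x w = (w.ramificationIndex K⟮x⟯ : ℤ) *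
      poleDiv K (AdjoinSimple.gen K x) (w.restrict K⟮x⟯) := by
    rw [poleDiv_apply, poleDiv_apply, hord, mul_max_of_nonneg _ _ (Int.natCast_nonneg _),
      mul_zero, mul_neg]
  rw [hW₀, hp, ← ramificationIndex_adjoin hx w, Finsupp.smul_apply, smul_eq_mul]
  ring

/-- For a tame `x` the divisor of `dx` is canonical, being that of a Weil differential obtained
from the trace. -/
theorem isCanonical_ramDiv {x : F} (hx : Transcendental K x)
    (htame : ∀ v : Place K F, (ramIndex x v : K) ≠ 0)
    (W₀ : Divisor K F) (hW₀ : ∀ v, W₀ v = (ramIndex x v : ℤ) - 1 - 2 * poleDiv K x v) :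
    IsCanonical W₀ := by
  classical
  have := finiteDimensional_adjoin hx
  have := isFunctionField_adjoin hx
  have : Algebra.IsIntegral K⟮x⟯ F := Algebra.IsIntegral.of_finite _ _
  set E := K⟮x⟯
  set t : E := AdjoinSimple.gen K x
  have htt : Transcendental K t := fun h => hx (by simpa [t] using h.algebraMap (A := F))
  have htop : K⟮t⟯ = (⊤ : IntermediateField K E) := adjoin_gen_eq_top x
  set W₁ : Divisor K E := (-2 : ℤ) • poleDiv K t with hW₁
  obtain ⟨η, hη, hη0, hmax⟩ := exists_weil_of_genus_zero (genusFF_eq_zero_of_top htt htop) W₁ (by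
    rw [hW₁, map_zsmul, degree_poleDiv htt, htop, IntermediateField.finrank_top]; norm_num)
  -- `W₀` above `W₁`
  have hrel := ramDiv_apply_eq hx hW₀
  obtain ⟨ω, hspec⟩ := exists_cotrace hrel hη
  have hω : ω ∈ weilSpace W₀ := cotrace_mem_weilSpace hη hspec
  have hstrict : ∀ w₀ : Place K F, ω ∉ weilSpace (W₀ + Finsupp.single w₀ 1) := fun w₀ hmem => by
    have h := mem_weilSpace_add_single_of_cotrace hrel hη hspec w₀
      (ramificationIndex_adjoin hx w₀ ▸ htame w₀) hmem
    rw [hmax] at h
    exact hη0 ((Submodule.mem_bot K).mp h)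
  -- `W₀` is the largest divisor whose Weil differentials contain `ω`, so it is canonical
  obtain ⟨w₁⟩ := nonempty_place K F
  have hω0 : ω ≠ 0 := fun h => hstrict w₁ (h ▸ zero_mem _)
  obtain ⟨W, hW, hWω, hle, -⟩ := exists_divisor_weil hω0 hω
  suffices W₀ = W by rwa [this]
  refine le_antisymm (hle _ hω) (Finsupp.le_def.mpr fun w => ?_)
  by_contra hlt
  refine hstrict w (weilSpace_anti (Finsupp.le_def.mpr fun v => ?_) hWω)
  have h1 := Finsupp.le_def.mp (hle _ hω) v
  rcases eq_or_ne v w with rfl | hne
  · simp only [Finsupp.add_apply, Finsupp.single_eq_same]; omega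
  · simpa [Finsupp.single_eq_of_ne hne] using h1

/-- At a tame place `dx` has order `e - 1`, less twice the pole order of `x`. -/
theorem ordDifferential_D_eq_ramIndex {x : F} (hx : Transcendental K x) (v : Place K F)
    (htame : (ramIndex x v : K) ≠ 0) :
    v.ordDifferential (KaehlerDifferential.D K F x) = (ramIndex x v : ℤ) - 1 - 2 *
      poleDiv K x v := by
  have hpos := ramIndex_pos hx v
  rw [poleDiv_apply]
  unfold ramIndex at htame hpos ⊢
  split at htame
  · next h =>
    rw [if_pos h] at hpos ⊢
    rw [max_eq_right (by omega), mul_zero, sub_zero]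
    set f := x - algebraMap K F (evalAt v x)
    have hD : KaehlerDifferential.D K F x = KaehlerDifferential.D K F f := by
      rw [map_sub, Derivation.map_algebraMap, sub_zero]
    have hf : ((v.ord f).toNat : ℤ) = v.ord f := Int.toNat_of_nonneg (by omega)
    rw [hD, ordDifferential_D_eq v (by rwa [← hf, Int.cast_natCast]), hf]
  · next h =>
    rw [if_neg h] at hpos ⊢
    rw [max_eq_left (by omega)]
    have hf : ((-v.ord x).toNat : ℤ) = -v.ord x := Int.toNat_of_nonneg (by omega)
    have hK : (v.ord x : K) ≠ 0 := fun h0 => htame (by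
      rw [← Int.cast_natCast, hf, Int.cast_neg, h0, neg_zero])
    rw [ordDifferential_D_eq v hK, hf]
    omega

/-- `div(dx)` is canonical when `x` is tamely ramified everywhere. -/
theorem isCanonical_of_tame {x : F} (hx : Transcendental K x)
    (htame : ∀ v : Place K F, (ramIndex x v : K) ≠ 0)
    (W : Divisor K F) (hW : ∀ v, W v = v.ordDifferential (KaehlerDifferential.D K F x)) :
    IsCanonical W :=
  isCanonical_ramDiv hx htame W fun v => by
    rw [hW, ordDifferential_D_eq_ramIndex hx v (htame v)]

/-- Riemann-Hurwitz for a tame function. -/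
theorem hurwitz_of_tame {x : F} (hx : Transcendental K x)
    (hsep : Algebra.IsSeparable K⟮x⟯ F) (htame : ∀ v : Place K F, (ramIndex x v : K) ≠ 0) :
    ∃ R : Divisor K F, (∀ v, R v = (ramIndex x v : ℤ) - 1) ∧
      2 * (genusFF K F : ℤ) - 2 = -2 * (Module.finrank K⟮x⟯ F : ℤ) + Divisor.degree R := by
  let R : Divisor K F := Finsupp.onFinset (finite_ramified hx hsep).toFinset
    (fun v => (ramIndex x v : ℤ) - 1) fun v hv => by
      simp only [Set.Finite.mem_toFinset, Set.mem_ofPred_eq]; omega
  refine ⟨R, fun v => Finsupp.onFinset_apply, ?_⟩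
  have hW := isCanonical_ramDiv hx htame (R - (2 : ℤ) • poleDiv K x) fun v => by
    simp [R]
  have h1 := hW.1
  rw [map_sub, map_zsmul, degree_poleDiv hx, smul_eq_mul] at h1
  omega

omit [IsAlgClosed K] in
/-- In characteristic zero `F` is separable over every `K(x)`. -/
theorem separable_of_charZero [CharZero K] {x : F} (hx : Transcendental K x) :
    Algebra.IsSeparable K⟮x⟯ F := by
  have := finiteDimensional_adjoin hx
  have : CharZero K⟮x⟯ := charZero_of_injective_algebraMap (algebraMap K K⟮x⟯).injective
  infer_instance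

/-- In characteristic zero all ramification is tame. -/
theorem tame_of_charZero [CharZero K] {x : F} (hx : Transcendental K x) (v : Place K F) :
    (ramIndex x v : K) ≠ 0 :=
  Nat.cast_ne_zero.mpr (ramIndex_pos hx v).ne'

/-- In characteristic zero every divisor of a differential is canonical. -/
theorem isCanonical_canonicalDivisorOf [CharZero K] {ω : Ω[F⁄K]} (hω : ω ≠ 0) :
    IsCanonical (canonicalDivisorOf hω) := by
  obtain ⟨x, hx, -, -⟩ := IsFunctionField.exists_separating (K := K) (F := F)
  have hne := D_ne_zero_of_separable hx (separable_of_charZero hx)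
  have htop : Submodule.span F {KaehlerDifferential.D K F x} = ⊤ :=
    (finrank_eq_one_iff_of_nonzero _ hne).mp finrank_kaehler_eq_one
  obtain ⟨c, hc⟩ := Submodule.mem_span_singleton.mp (htop ▸ Submodule.mem_top : ω ∈ _)
  have hc0 : c ≠ 0 := fun h => hω (by rw [← hc, h, zero_smul])
  have hW := isCanonical_of_tame hx (tame_of_charZero hx) (canonicalDivisorOf hne)
    fun v => canonicalDivisorOf_apply hne v
  have : canonicalDivisorOf hω = canonicalDivisorOf hne + divOf K c := by
    ext v
    rw [Finsupp.add_apply, canonicalDivisorOf_apply, canonicalDivisorOf_apply,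
      divOf_apply, add_comm]
    conv_lhs => rw [← hc, ordDifferential_smul v hc0 hne]
  rw [this]
  exact hW.add_divOf hc0

/-- `genus = genusFF` in characteristic zero, for any instance of `HasCanonicalDivisor`. -/
theorem genus_eq_genusFF [CharZero K] [HasCanonicalDivisor (K := K) (F := F)] :
    genus K F = genusFF K F := by
  classical
  have h : ∃ ω : Ω[F⁄K], ω ≠ 0 := exists_ne 0
  rw [genus, dif_pos h, (isCanonical_canonicalDivisorOf h.choose_spec).1]
  omega

/-- Riemann-Hurwitz in characteristic zero. -/
theorem hurwitz [CharZero K] (F' : Type*) [Field F'] [Algebra K F'] [IsFunctionField K F']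
    [Algebra F F'] [IsScalarTower K F F'] [Algebra.IsIntegral F F'] [FiniteDimensional F F'] :
    ∃ R : Divisor K F', (∀ w, R w = (w.ramificationIndex F : ℤ) - 1) ∧
      2 * (genusFF K F' : ℤ) - 2
        = (Module.finrank F F' : ℤ) * (2 * (genusFF K F : ℤ) - 2) + Divisor.degree R := by
  obtain ⟨x, hx, -, -⟩ := IsFunctionField.exists_separating (K := K) (F := F)
  have hx' := transcendental_algebraMap_fieldHom (F' := F') hx
  have hne := D_ne_zero_of_separable hx (separable_of_charZero hx)
  have hne' := D_ne_zero_of_separable hx' (separable_of_charZero hx')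
  refine ⟨canonicalDivisorOf hne' - Divisor.pullback F' (canonicalDivisorOf hne), fun w => ?_, ?_⟩
  · rw [Finsupp.sub_apply, Divisor.pullback_apply, canonicalDivisorOf_apply,
      canonicalDivisorOf_apply]
    -- compute both orders with `x - a`, which has a zero or a pole below `w`
    obtain ⟨a, ha⟩ : ∃ a : K, (w.restrict F).ord (x - algebraMap K F a) ≠ 0 := by
      by_cases h : (w.restrict F).ord x = 0
      · refine ⟨evalAt (w.restrict F) x, ?_⟩
        have hne0 : x - algebraMap K F (evalAt (w.restrict F) x) ≠ 0 := fun h0 =>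
          hx ((sub_eq_zero.mp h0) ▸ isAlgebraic_algebraMap _)
        have := (evalAt_spec (ordGE_of_ord_eq_zero h)).le_ord hne0
        omega
      · exact ⟨0, by simpa using h⟩
    have hcast : ∀ z : ℤ, z ≠ 0 → (z : K) ≠ 0 := fun z hz => Int.cast_ne_zero.mpr hz
    have he := w.ramificationIndex_pos (F := F)
    have h1 := ordDifferential_D_eq (w.restrict F) (hcast _ ha)
    have hord := w.ord_restrict (F := F) (x - algebraMap K F a)
    have h2 := ordDifferential_D_eq w (f := algebraMap F F' (x - algebraMap K F a))
      (hcast _ (by rw [hord]; exact mul_ne_zero (Int.natCast_ne_zero.mpr he.ne') ha))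
    rw [map_sub, Derivation.map_algebraMap, sub_zero] at h1
    rw [hord, map_sub (algebraMap F F'), ← IsScalarTower.algebraMap_apply, map_sub,
      Derivation.map_algebraMap, sub_zero] at h2
    rw [h1, h2]
    ring
  · rw [map_sub, Divisor.degree_pullback, (isCanonical_canonicalDivisorOf hne).1,
      (isCanonical_canonicalDivisorOf hne').1]
    ring

end Fermat.FF

end
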