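import Fermat.Agent.FF.API

/-!
# Orders of polynomials at a pole of the coordinate

Used for the orders of rational functions of `j` at the cusps and for the branch families.
-/

set_option autoImplicit false

noncomputable section

open AlgebraicCurve

namespace Fermat.FF

variable {K F : Type*} [Field K] [Field F] [Algebra K F] [IsAlgClosed K] [IsFunctionField K F]

omit [IsFunctionField K F] in
/-- At a pole `v` of `y` a polynomial in `y` has order its degree times that of `y`. -/
theorem ord_aeval_of_neg {v : Place K F} {y : F} (hy : v.ord y < 0) {g : Polynomial K}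
    (hg : g ≠ 0) : v.ord (Polynomial.aeval y g) = g.natDegree * v.ord y := by
  have hy0 : y ≠ 0 := fun h => by rw [h, Place.ord_zero] at hy; exact lt_irrefl _ hy
  set G := g.reflect g.natDegree
  have hG : G ≠ 0 := fun h => hg (Polynomial.reflect_eq_zero_iff.mp h)
  have h0 : G.coeff 0 ≠ 0 := by
    rw [Polynomial.coeff_reflect, Polynomial.revAt_le (Nat.zero_le _), Nat.sub_zero]
    exact Polynomial.leadingCoeff_ne_zero.mpr hg
  have ht : G.natTrailingDegree = 0 := Polynomial.natTrailingDegree_eq_zero.mpr (Or.inr h0)
  have h1 := FF.ord_aeval (v := v) (y := y⁻¹) (by rw [v.ord_inv]; omega) hG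
  rw [ht, Nat.cast_zero, zero_mul] at h1
  have hne : Polynomial.aeval y⁻¹ G ≠ 0 := fun h => by
    exact hG (transcendental_iff.mp (transcendental_of_not_mem fun ⟨c, hc⟩ => by
      rw [eq_comm, inv_eq_iff_eq_inv] at hc
      rw [hc, v.ord_inv, ord_algebraMap] at hy
      exact lt_irrefl _ hy) G h)
  let : Invertible y := invertibleOfNonzero hy0
  have e := Polynomial.eval₂_reflect_mul_pow (algebraMap K F) y g.natDegree g le_rfl
  rw [invOf_eq_inv, ← Polynomial.aeval_def, ← Polynomial.aeval_def] at e
  rw [← e, v.ord_mul hne (pow_ne_zero _ hy0), ord_pow, h1, zero_add]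

end Fermat.FF
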