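import Fermat.Agent.FF.Along

/-!
# Weil reciprocity

Both sides are pushed down to `K(f)` by the norm, where the statement is a computation with
products of linear factors.
-/

set_option autoImplicit false

noncomputable section

open AlgebraicCurve IntermediateField

namespace Fermat.FF

variable {K F : Type*} [Field K] [Field F] [Algebra K F] [IsAlgClosed K] [IsFunctionField K F]

/-- `f(D) = ∏ f(v) ^ D(v)`. -/
def evalDiv (f : F) (D : Divisor K F) : K := D.prod fun v n => evalAt v f ^ n

omit [IsAlgClosed K] [IsFunctionField K F] in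
/-- A function of order zero is regular. -/
theorem ordGE_of_ord_eq_zero {v : Place K F} {f : F} (h : v.ord f = 0) : OrdGE v f 0 :=
  ordGE_iff.mpr (.inr h.ge)

/-- A function of order zero has nonzero value. -/
theorem evalAt_ne_zero {v : Place K F} {f : F} (hf : f ≠ 0) (h : v.ord f = 0) :
    evalAt v f ≠ 0 := fun h0 => by
  have := ((evalAt_eq_zero_iff (ordGE_of_ord_eq_zero h)).mp h0).le_ord hf
  omega

/-- The value of an inverse. -/
theorem evalAt_inv {v : Place K F} {f : F} (hf : f ≠ 0) (h : v.ord f = 0) :
    evalAt v f⁻¹ = (evalAt v f)⁻¹ := by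
  have h' : v.ord f⁻¹ = 0 := by rw [v.ord_inv, h, neg_zero]
  have := evalAt_mul (ordGE_of_ord_eq_zero h) (ordGE_of_ord_eq_zero h')
  rw [mul_inv_cancel₀ hf, evalAt_one] at this
  exact eq_inv_of_mul_eq_one_right this.symm

/-- The value of a power. -/
theorem evalAt_pow {v : Place K F} {f : F} (h : OrdGE v f 0) (n : ℕ) :
    evalAt v (f ^ n) = evalAt v f ^ n := by
  induction n with
  | zero => simp
  | succ n ih => rw [pow_succ, pow_succ, evalAt_mul ((h.pow n).mono (by simp)) h, ih]

/-- The value of an integral power. -/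
theorem evalAt_zpow {v : Place K F} {f : F} (hf : f ≠ 0) (h : v.ord f = 0) (n : ℤ) :
    evalAt v (f ^ n) = evalAt v f ^ n := by
  obtain ⟨m, rfl | rfl⟩ := n.eq_nat_or_neg
  · rw [zpow_natCast, zpow_natCast, evalAt_pow (ordGE_of_ord_eq_zero h)]
  · rw [zpow_neg, zpow_neg, zpow_natCast, zpow_natCast,
      evalAt_inv (pow_ne_zero _ hf) (by rw [ord_pow, h, mul_zero]),
      evalAt_pow (ordGE_of_ord_eq_zero h)]

/-- The value of a product. -/
theorem evalAt_prod {ι : Type*} {v : Place K F} (s : Finset ι) (f : ι → F)
    (h : ∀ i ∈ s, OrdGE v (f i) 0) :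
    OrdGE v (∏ i ∈ s, f i) 0 ∧ evalAt v (∏ i ∈ s, f i) = ∏ i ∈ s, evalAt v (f i) := by
  classical
  induction s using Finset.induction_on with
  | empty => exact ⟨by simpa using ordGE_one v, by simp⟩
  | insert a s ha ih =>
    obtain ⟨h1, h2⟩ := ih fun i hi => h i (Finset.mem_insert_of_mem hi)
    have ha' := h a (Finset.mem_insert_self a s)
    rw [Finset.prod_insert ha, Finset.prod_insert ha, evalAt_mul ha' h1, h2]
    exact ⟨(ha'.mul h1).mono (by simp), rfl⟩

omit [IsAlgClosed K] in
/-- A product of powers of a constant. -/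
theorem prod_zpow_const {ι : Type*} {c : K} (hc : c ≠ 0) (s : Finset ι) (n : ι → ℤ) :
    ∏ i ∈ s, c ^ n i = c ^ ∑ i ∈ s, n i := by
  classical
  induction s using Finset.induction_on with
  | empty => simp
  | insert a s ha ih => rw [Finset.prod_insert ha, Finset.sum_insert ha, ih, zpow_add₀ hc]

omit [IsAlgClosed K] [IsFunctionField K F] in
/-- A transcendental element is not a constant. -/
theorem transcendental_not_mem_range {t : F} (ht : Transcendental K t) :
    t ∉ Set.range (algebraMap K F) :=
  fun ⟨c, hc⟩ => ht (hc ▸ isAlgebraic_algebraMap c)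

/-- A divisor of zeros of degree one has a single simple point. -/
theorem eq_of_ord_pos_of_degree_eq_one {x : F} (hx : Divisor.degree (zeroDiv K x) = 1)
    {v w : Place K F} (hv : 0 < v.ord x) (hw : 0 < w.ord x) : v = w ∧ v.ord x = 1 := by
  classical
  rw [degree_eq_sum, Finsupp.sum] at hx
  have hmem : ∀ u : Place K F, 0 < u.ord x → u ∈ (zeroDiv K x).support := fun u hu => by
    rw [Finsupp.mem_support_iff, zeroDiv_apply]; omega
  have hpos : ∀ u ∈ (zeroDiv K x).support, 1 ≤ zeroDiv K x u := fun u hu => by
    rw [Finsupp.mem_support_iff, zeroDiv_apply] at hu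
    rw [zeroDiv_apply]
    omega
  have h1 := Finset.single_le_sum (f := fun u => zeroDiv K x u)
    (fun u hu => le_trans zero_le_one (hpos u hu)) (hmem v hv)
  simp only [zeroDiv_apply] at h1 hx
  refine ⟨?_, by omega⟩
  by_contra hne
  have h2 := Finset.add_le_sum (f := fun u : Place K F => max (u.ord x) 0)
    (fun u _ => le_max_right _ _) (hmem v hv) (hmem w hw) hne
  omega

section Rational

variable {t : F} (ht : Transcendental K t) (htop : K⟮t⟯ = ⊤)

omit [IsAlgClosed K] [IsFunctionField K F] in
include ht in
/-- A linear factor is not zero. -/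
theorem gen_sub_ne_zero (a : K) : t - algebraMap K F a ≠ 0 := fun h =>
  transcendental_not_mem_range ht ⟨a, (sub_eq_zero.mp h).symm⟩

include ht htop in
/-- A linear factor of the generator has one zero, simple. -/
theorem eq_of_ord_gen_sub_pos (a : K) {v w : Place K F} (hv : 0 < v.ord (t - algebraMap K F a))
    (hw : 0 < w.ord (t - algebraMap K F a)) : v = w ∧ v.ord (t - algebraMap K F a) = 1 :=
  eq_of_ord_pos_of_degree_eq_one
    (by rw [degree_zeroDiv_sub ht a, htop, IntermediateField.finrank_top, Nat.cast_one]) hv hw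

include ht htop in
/-- The generator has one pole, simple. -/
theorem eq_of_ord_gen_neg {v w : Place K F} (hv : v.ord t < 0) (hw : w.ord t < 0) :
    v = w ∧ v.ord t = -1 := by
  have hp : Divisor.degree (zeroDiv K t⁻¹) = 1 := by
    have := degree_poleDiv ht
    rw [htop, IntermediateField.finrank_top, Nat.cast_one] at this
    exact this
  obtain ⟨h1, h2⟩ := eq_of_ord_pos_of_degree_eq_one hp (v := v) (w := w)
    (by rw [v.ord_inv]; omega) (by rw [w.ord_inv]; omega)
  rw [v.ord_inv] at h2
  exact ⟨h1, by omega⟩

open Classical in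
include ht htop in
/-- The orders of the linear factor vanishing at `u`. -/
theorem ord_gen_sub_evalAt {p u : Place K F} (hp : p.ord t < 0) (hu : u.ord t = 0)
    (v : Place K F) : v.ord (t - algebraMap K F (evalAt u t)) =
      if v = u then 1 else if v = p then -1 else 0 := by
  classical
  have ht0 : t ≠ 0 := fun h => ht (h ▸ isAlgebraic_zero)
  have hne := gen_sub_ne_zero ht (evalAt u t)
  have hupos : 0 < u.ord (t - algebraMap K F (evalAt u t)) := by
    have := (evalAt_spec (ordGE_of_ord_eq_zero hu)).le_ord hne; omega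
  rcases eq_or_ne v u with rfl | hvu
  · rw [if_pos rfl]; exact (eq_of_ord_gen_sub_pos ht htop _ hupos hupos).2
  rw [if_neg hvu]
  rcases eq_or_ne v p with rfl | hvp
  · rw [if_pos rfl]
    have hv := (eq_of_ord_gen_neg ht htop hp hp).2
    have := (ord_eq_of_ordGE_lt v (g := -algebraMap K F (evalAt u t)) ht0
      ((ordGE_algebraMap v _).neg.mono (by omega))).1
    rw [← sub_eq_add_neg] at this
    omega
  rw [if_neg hvp]
  have ht' : OrdGE v t 0 := ordGE_iff.mpr (.inr (by
    by_contra h; exact hvp (eq_of_ord_gen_neg ht htop (by omega) hp).1))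
  have h1 := (ht'.sub (ordGE_algebraMap v (evalAt u t))).le_ord hne
  by_contra h2
  exact hvu (eq_of_ord_gen_sub_pos ht htop _ (by omega) hupos).1

include ht htop in
/-- A function prime to the generator is a constant times a product of linear factors. -/
theorem exists_eq_const_mul_prod {R : F} (hR : R ≠ 0) {p : Place K F} (hp : p.ord t < 0)
    (hUord : ∀ u ∈ (divOf K R).support, u.ord t = 0) :
    ∃ c : K, c ≠ 0 ∧ R = algebraMap K F c *
      ∏ u ∈ (divOf K R).support, (t - algebraMap K F (evalAt u t)) ^ u.ord R := by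
  classical
  set U := (divOf K R).support with hU
  set P := ∏ u ∈ U, (t - algebraMap K F (evalAt u t)) ^ u.ord R with hP
  have hlne : ∀ u ∈ U, (t - algebraMap K F (evalAt u t)) ^ u.ord R ≠ 0 := fun u _ =>
    zpow_ne_zero _ (gen_sub_ne_zero ht _)
  have hP0 : P ≠ 0 := Finset.prod_ne_zero_iff.mpr hlne
  have hsum : ∑ u ∈ U, u.ord R = 0 := by
    have := degree_divOf (K := K) R
    rw [degree_eq_sum, Finsupp.sum] at this
    simpa using this
  have hPord : ∀ v : Place K F, v.ord P = v.ord R := by
    intro v
    rw [hP, ord_prod v U _ hlne]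
    have hterm : ∀ u ∈ U, v.ord ((t - algebraMap K F (evalAt u t)) ^ u.ord R)
        = (if v = u then u.ord R else 0) + if v = p then -u.ord R else 0 := fun u hu => by
      rw [v.ord_zpow, ord_gen_sub_evalAt ht htop hp (hUord u hu) v]
      by_cases h1 : v = u
      · have hvp : v ≠ p := fun h => by
          have := hUord u hu; rw [← h1, h] at this; omega
        rw [if_pos h1, if_pos h1, if_neg hvp]; ring
      · rw [if_neg h1, if_neg h1]
        by_cases h2 : v = p
        · rw [if_pos h2, if_pos h2]; ring
        · rw [if_neg h2, if_neg h2]; ring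
    rw [Finset.sum_congr rfl hterm, Finset.sum_add_distrib, Finset.sum_ite_eq]
    have h0 : ∑ u ∈ U, (if v = p then -u.ord R else 0) = 0 := by
      split <;> simp [hsum]
    rw [h0, add_zero]
    split
    · rfl
    · next h => simp [hU] at h; omega
  -- `R / P` has neither zeros nor poles
  obtain ⟨c, hc⟩ : R / P ∈ Set.range (algebraMap K F) :=
    mem_range_of_forall_ordGE fun v => ordGE_iff.mpr (.inr (by
      rw [ord_div v hR hP0, hPord, sub_self]))
  exact ⟨c, fun h => div_ne_zero hR hP0 (by rw [← hc, h, map_zero]),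
    by rw [hc, div_mul_cancel₀ R hP0]⟩

include ht htop in
/-- The value at the zero of the generator of a product of linear factors. -/
theorem evalAt_zero_prod_gen_sub {p₀ p : Place K F} (hp₀ : 0 < p₀.ord t) (hp : p.ord t < 0)
    {U : Finset (Place K F)} (hUord : ∀ u ∈ U, u.ord t = 0) (c : K) (m : Place K F → ℤ) :
    evalAt p₀ (algebraMap K F c * ∏ u ∈ U, (t - algebraMap K F (evalAt u t)) ^ m u) =
      c * ∏ u ∈ U, (-evalAt u t) ^ m u := by
  classical
  have hfac : ∀ u ∈ U, p₀.ord (t - algebraMap K F (evalAt u t)) = 0 := fun u hu => by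
    rw [ord_gen_sub_evalAt ht htop hp (hUord u hu),
      if_neg (fun h => by have := hUord u hu; rw [← h] at this; omega),
      if_neg (fun h => by rw [h] at hp₀; omega)]
  have hz0 : ∀ u ∈ U, OrdGE p₀ ((t - algebraMap K F (evalAt u t)) ^ m u) 0 := fun u hu =>
    ordGE_iff.mpr (.inr (by rw [Place.ord_zpow, hfac u hu, mul_zero]))
  rw [evalAt_mul (ordGE_algebraMap _ _) (evalAt_prod U _ hz0).1, evalAt_algebraMap,
    (evalAt_prod U _ hz0).2]
  congr 1
  refine Finset.prod_congr rfl fun u hu => ?_
  rw [evalAt_zpow (gen_sub_ne_zero ht _) (hfac u hu)]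
  congr 1
  refine evalAt_eq ?_
  rw [map_neg, sub_neg_eq_add, sub_add_cancel]
  exact ordGE_iff.mpr (.inr hp₀)

include ht in
/-- The value at the pole of the generator of a degree zero product of linear factors. -/
theorem evalAt_pole_prod_gen_sub {p : Place K F} (hp : p.ord t < 0) (U : Finset (Place K F))
    (a : Place K F → K) (c : K) {m : Place K F → ℤ} (hsum : ∑ u ∈ U, m u = 0) :
    evalAt p (algebraMap K F c * ∏ u ∈ U, (t - algebraMap K F (a u)) ^ m u) = c := by
  classical
  have ht0 : t ≠ 0 := fun h => ht (h ▸ isAlgebraic_zero)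
  -- as `∑ m u = 0`, use the factors `1 - a u / t`, each of value `1` at `p`
  have hprod : ∏ u ∈ U, (t - algebraMap K F (a u)) ^ m u =
      ∏ u ∈ U, (1 - algebraMap K F (a u) / t) ^ m u := by
    have : ∏ u ∈ U, (1 - algebraMap K F (a u) / t) ^ m u =
        (∏ u ∈ U, (t - algebraMap K F (a u)) ^ m u) / ∏ u ∈ U, t ^ m u := by
      rw [← Finset.prod_div_distrib]
      refine Finset.prod_congr rfl fun u _ => ?_
      rw [← div_zpow]
      congr 1
      field_simp
    rw [this]
    have : ∏ u ∈ U, t ^ m u = 1 := by
      have key : ∀ s : Finset (Place K F), ∏ u ∈ s, t ^ m u = t ^ ∑ u ∈ s, m u := by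
        intro s
        induction s using Finset.induction_on with
        | empty => simp
        | insert b s hb ih => rw [Finset.prod_insert hb, Finset.sum_insert hb, ih, zpow_add₀ ht0]
      rw [key, hsum, zpow_zero]
    rw [this, div_one]
  have hsmall : ∀ u : Place K F, OrdGE p (algebraMap K F (a u) / t) 1 := fun u => by
    rw [div_eq_mul_inv]
    exact ((ordGE_algebraMap p _).mul (ordGE_ord p t⁻¹)).mono (by rw [p.ord_inv]; omega)
  have hfac : ∀ u ∈ U, p.ord (1 - algebraMap K F (a u) / t) = 0 ∧
      1 - algebraMap K F (a u) / t ≠ 0 := fun u _ => by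
    have := ord_eq_of_ordGE_lt p (f := (1 : F)) (g := -(algebraMap K F (a u) / t)) one_ne_zero
      ((hsmall u).neg.mono (by simp))
    rw [← sub_eq_add_neg, Place.ord_one] at this
    exact this
  have hz1 : ∀ u ∈ U, OrdGE p ((1 - algebraMap K F (a u) / t) ^ m u) 0 := fun u hu =>
    ordGE_iff.mpr (.inr (by rw [Place.ord_zpow, (hfac u hu).1, mul_zero]))
  rw [hprod, evalAt_mul (ordGE_algebraMap _ _) (evalAt_prod U _ hz1).1, evalAt_algebraMap,
    (evalAt_prod U _ hz1).2, Finset.prod_eq_one, mul_one]
  intro u hu
  rw [evalAt_zpow (hfac u hu).2 (hfac u hu).1,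
    show evalAt p (1 - algebraMap K F (a u) / t) = 1 from
      evalAt_eq (by simpa using (hsmall u).neg), one_zpow]

include ht htop in
/-- A function evaluated on the divisor of the generator. -/
theorem evalDiv_divOf_gen {p₀ p : Place K F} (hp₀ : 0 < p₀.ord t) (hp : p.ord t < 0) (R : F) :
    evalDiv R (divOf K t) = evalAt p₀ R / evalAt p R := by
  classical
  have hzero : ∀ v : Place K F, 0 < v.ord t → v = p₀ ∧ v.ord t = 1 := fun v hv => by
    simpa using eq_of_ord_gen_sub_pos ht htop 0 (v := v) (w := p₀) (by simpa using hv)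
      (by simpa using hp₀)
  have hsupp : (divOf K t).support = {p₀, p} := by
    ext v
    simp only [Finsupp.mem_support_iff, divOf_apply, Finset.mem_insert, Finset.mem_singleton]
    constructor
    · intro h
      rcases lt_or_gt_of_ne h with h | h
      · exact .inr (eq_of_ord_gen_neg ht htop h hp).1
      · exact .inl (hzero v h).1
    · rintro (rfl | rfl) <;> omega
  have hne : p₀ ≠ p := fun h => by rw [h] at hp₀; omega
  rw [evalDiv, Finsupp.prod, hsupp, Finset.prod_pair hne, divOf_apply, divOf_apply,
    (hzero p₀ hp₀).2, (eq_of_ord_gen_neg ht htop hp hp).2, zpow_one, zpow_neg_one, div_eq_mul_inv]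

end Rational

/-- The case of a rational function field, `f` the generator. -/
theorem weil_reciprocity_rational {t R : F} (ht : Transcendental K t)
    (htop : K⟮t⟯ = ⊤) (hR : R ≠ 0)
    (hdisj : ∀ v : Place K F, v.ord t = 0 ∨ v.ord R = 0) :
    evalDiv t (divOf K R) = evalDiv R (divOf K t) := by
  classical
  obtain ⟨p₀, hp₀⟩ := exists_place_ord_pos ht
  obtain ⟨p, hp⟩ := exists_ord_neg (transcendental_not_mem_range ht)
  set U := (divOf K R).support with hU
  have hUord : ∀ u ∈ U, u.ord t = 0 := fun u hu => by
    rcases hdisj u with h | h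
    · exact h
    · simp [hU, h] at hu
  have hsum : ∑ u ∈ U, u.ord R = 0 := by
    have := degree_divOf (K := K) R
    rw [degree_eq_sum, Finsupp.sum] at this
    simpa using this
  obtain ⟨c, hc0, hRP⟩ := exists_eq_const_mul_prod ht htop hR hp hUord
  have hv0 := evalAt_zero_prod_gen_sub ht htop hp₀ hp hUord c fun u => u.ord R
  have hvinf := evalAt_pole_prod_gen_sub ht hp U (fun u => evalAt u t) c hsum
  simp only [hU, ← hRP] at hv0 hvinf
  rw [evalDiv_divOf_gen ht htop hp₀ hp, hv0, hvinf, mul_div_cancel_left₀ _ hc0]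
  have hneg : ∏ u ∈ U, (-evalAt u t) ^ u.ord R =
      (∏ u ∈ U, (-1 : K) ^ u.ord R) * ∏ u ∈ U, evalAt u t ^ u.ord R := by
    rw [← Finset.prod_mul_distrib]
    exact Finset.prod_congr rfl fun u _ => by rw [← mul_zpow, neg_one_mul]
  rw [← hU, hneg, prod_zpow_const (neg_ne_zero.mpr one_ne_zero), hsum, zpow_zero, one_mul, evalDiv,
    Finsupp.prod]
  exact Finset.prod_congr rfl fun u _ => by rw [divOf_apply]

section Pullback

variable {E : IntermediateField K F} [FiniteDimensional E F] [Algebra.IsIntegral E F]
  [IsFunctionField K E]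

/-- Values of a function of `E` on the divisor of `g` are its values on the divisor of the norm
of `g`. -/
theorem evalDiv_algebraMap_left {t : E} (ht : t ≠ 0) {g : F} (hg : g ≠ 0)
    (hdisj : ∀ v : Place K F, v.ord (algebraMap E F t) = 0 ∨ v.ord g = 0) :
    evalDiv (algebraMap E F t) (divOf K g) = evalDiv t (divOf K (Algebra.norm E g)) := by
  classical
  -- `t` has the same value at a place and below it
  have heval : ∀ v : Place K F, 0 ≤ (v.restrict E).ord t →
      evalAt v (algebraMap E F t) = evalAt (v.restrict E) t := fun v hv => by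
    refine evalAt_eq ?_
    have h := evalAt_spec (v := v.restrict E) (f := t) (ordGE_iff.mpr (.inr hv))
    have h' := ordGE_algebraMap_of_restrict (w := v) rfl h
    rw [map_sub, ← IsScalarTower.algebraMap_apply] at h'
    exact h'.mono (by have := v.ramificationIndex_pos (F := E); omega)
  rw [evalDiv, evalDiv, Finsupp.prod, Finsupp.prod]
  -- group the divisor of `g` by the place below
  set T := (divOf K g).support.image (fun v : Place K F => v.restrict E) with hT
  rw [Finset.prod_subset (s₁ := (divOf K (Algebra.norm E g)).support) (s₂ := T) ?sub ?one]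
  case sub =>
    intro u hu
    rw [Finsupp.mem_support_iff, divOf_apply, ord_norm u hg] at hu
    obtain ⟨w, hw, hw0⟩ := Finset.exists_ne_zero_of_sum_ne_zero hu
    exact Finset.mem_image.mpr ⟨w, by simpa using hw0, Place.mem_fiber.mp hw⟩
  case one =>
    intro u _ hu
    rw [Finsupp.notMem_support_iff] at hu
    rw [hu, zpow_zero]
  rw [← Finset.prod_fiberwise_of_maps_to (s := (divOf K g).support) (t := T)
    (g := fun v : Place K F => v.restrict E) fun v hv => Finset.mem_image_of_mem _ hv]
  refine Finset.prod_congr rfl fun u hu => ?_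
  obtain ⟨w₀, hw₀, rfl⟩ := Finset.mem_image.mp hu
  have hw₀' : w₀.ord g ≠ 0 := by simpa using hw₀
  have ht0 : (w₀.restrict E).ord t = 0 := by
    have := (hdisj w₀).resolve_right hw₀'
    rw [w₀.ord_restrict (F := E) t] at this
    exact (mul_eq_zero.mp this).resolve_left
      (Int.natCast_ne_zero.mpr w₀.ramificationIndex_pos.ne')
  -- each fibre gives the order of the norm
  rw [Finset.prod_congr rfl fun w hw => by
    rw [heval w (by rw [(Finset.mem_filter.mp hw).2]; omega), (Finset.mem_filter.mp hw).2],
    prod_zpow_const (evalAt_ne_zero ht ht0), divOf_apply, ord_norm _ hg]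
  congr 1
  refine Finset.sum_subset_zero_on_sdiff (fun w hw => ?_) (fun w hw => ?_)
    (fun w _ => divOf_apply g w)
  · exact Place.mem_fiber.mpr (Finset.mem_filter.mp hw).2
  · simp only [Finset.mem_sdiff, Place.mem_fiber, Finset.mem_filter, Finsupp.mem_support_iff,
      divOf_apply, not_and] at hw
    by_contra h
    exact hw.2 h hw.1

/-- Values of `g` on the divisor of a function of `E` are the values of its norm on the divisor
in `E`. -/
theorem evalDiv_algebraMap_right {t : E} {g : F}
    (hdisj : ∀ v : Place K F, v.ord (algebraMap E F t) = 0 ∨ v.ord g = 0) :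
    evalDiv g (divOf K (algebraMap E F t)) = evalDiv (Algebra.norm E g) (divOf K t) := by
  classical
  rw [evalDiv, evalDiv, Finsupp.prod, Finsupp.prod]
  rw [← Finset.prod_fiberwise_of_maps_to (s := (divOf K (algebraMap E F t)).support)
    (t := (divOf K t).support) (g := fun v : Place K F => v.restrict E) fun v hv => by
      simp only [Finsupp.mem_support_iff, divOf_apply] at hv ⊢
      exact fun h => hv (by rw [v.ord_restrict (F := E) t, h, mul_zero])]
  refine Finset.prod_congr rfl fun u hu => ?_
  simp only [Finsupp.mem_support_iff, divOf_apply] at hu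
  have hne : ∀ w : Place K F, w.restrict E = u → w.ord (algebraMap E F t) ≠ 0 := fun w h => by
    rw [w.ord_restrict (F := E) t, h]
    exact mul_ne_zero (Int.natCast_ne_zero.mpr w.ramificationIndex_pos.ne') hu
  have hfib : (divOf K (algebraMap E F t)).support.filter
      (fun v : Place K F => v.restrict E = u) = u.fiber F := by
    ext w
    simp only [Finset.mem_filter, Finsupp.mem_support_iff, divOf_apply, Place.mem_fiber,
      and_iff_right_iff_imp]
    exact hne w
  have hg0 : ∀ w ∈ u.fiber F, w.ord g = 0 := fun w hw =>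
    (hdisj w).resolve_left (hne w (Place.mem_fiber.mp hw))
  rw [hfib, evalAt_norm u (fun w hw => ordGE_of_ord_eq_zero (hg0 w hw)), divOf_apply,
    ← Finset.prod_zpow]
  refine Finset.prod_congr rfl fun w hw => ?_
  rw [divOf_apply, w.ord_restrict (F := E) t, Place.mem_fiber.mp hw, zpow_mul, zpow_natCast]

end Pullback

/-- Weil reciprocity for functions with disjoint divisors. -/
theorem weil_reciprocity {f g : F} (hf : f ≠ 0) (hg : g ≠ 0)
    (hdisj : ∀ v : Place K F, v.ord f = 0 ∨ v.ord g = 0) :
    evalDiv f (divOf K g) = evalDiv g (divOf K f) := by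
  classical
  by_cases hfc : f ∈ Set.range (algebraMap K F)
  · obtain ⟨c, rfl⟩ := hfc
    have hc : c ≠ 0 := fun h => hf (by simp [h])
    have h0 : divOf K (algebraMap K F c) = 0 := by ext v; simp [ord_algebraMap]
    have hd := degree_divOf (K := K) g
    rw [degree_eq_sum, Finsupp.sum] at hd
    rw [h0, evalDiv, evalDiv, Finsupp.prod_zero_index, Finsupp.prod]
    simp only [evalAt_algebraMap]
    rw [prod_zpow_const hc, hd, zpow_zero]
  have hft := transcendental_of_not_mem hfc
  have := finiteDimensional_adjoin hft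
  have : IsFunctionField K K⟮f⟯ := isFunctionField_adjoin hft
  have : Algebra.IsIntegral K⟮f⟯ F := Algebra.IsIntegral.of_finite _ _
  set E := K⟮f⟯
  set t : E := AdjoinSimple.gen K f
  have htt : Transcendental K t := fun h => hft (by simpa [t] using h.algebraMap (A := F))
  have htop : K⟮t⟯ = (⊤ : IntermediateField K E) := by
    refine IntermediateField.map_injective E.val ?_
    rw [adjoin_map, Set.image_singleton, ← AlgHom.fieldRange_eq_map, fieldRange_val]
    rfl
  have htF : algebraMap E F t = f := AdjoinSimple.algebraMap_gen K f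
  set R := Algebra.norm E g
  have hR : R ≠ 0 := Algebra.norm_ne_zero_iff.mpr hg
  have hdisj' : ∀ u : Place K E, u.ord t = 0 ∨ u.ord R = 0 := fun u => by
    refine or_iff_not_imp_left.mpr fun h => ?_
    rw [ord_norm u hg]
    refine Finset.sum_eq_zero fun w hw => (hdisj w).resolve_left ?_
    rw [← htF, w.ord_restrict (F := E) t, Place.mem_fiber.mp hw]
    exact mul_ne_zero (Int.natCast_ne_zero.mpr w.ramificationIndex_pos.ne') h
  -- push both sides down to `K(f)`
  rw [← htF] at hdisj ⊢
  rw [evalDiv_algebraMap_left (fun h : t = 0 => htt (h ▸ isAlgebraic_zero)) hg hdisj,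
    evalDiv_algebraMap_right hdisj]
  exact weil_reciprocity_rational htt htop hR hdisj'

end Fermat.FF

end
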