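import Fermat.Agent.FF.RationalBase
import Fermat.Agent.FF.Reciprocity
import Fermat.Agent.FF.Constructions
import Fermat.Prelude.Def_AlgebraicCurve_CanonicalDivisor
import Fermat.Prelude.Def_AlgebraicCurve_IsCurveOver
import Mathlib.RingTheory.Discriminant
import Mathlib.LinearAlgebra.Matrix.ToLinearEquiv

/-!
# Differentials of a function field

Derivations are continuous at every place, so the differential of a uniformiser generates; the
differential of a separating function has finitely many zeros and poles (discriminant).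
-/

set_option autoImplicit false

noncomputable section

open AlgebraicCurve IntermediateField Polynomial

namespace Fermat.FF

variable {K F : Type*} [Field K] [Field F] [Algebra K F] [IsAlgClosed K] [IsFunctionField K F]

/-- The differentials form a line. -/
theorem finrank_kaehler_eq_one : Module.finrank F Ω[F⁄K] = 1 := by
  obtain ⟨x, hx, -, hsep⟩ := IsFunctionField.exists_separating (K := K) (F := F)
  set v : Fin 1 → F := fun _ => x
  have hv : AlgebraicIndependent K v := algebraicIndependent_unique_type_iff.mpr hx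
  let A := MvPolynomial (Fin 1) K
  let L := FractionRing A
  let e := hv.aevalEquivField
  let : Algebra L F :=
    ((IntermediateField.adjoin K (Set.range v)).val.comp e.toAlgHom).toRingHom.toAlgebra
  have : IsScalarTower K L F := IsScalarTower.of_algebraMap_eq fun c =>
    (((IntermediateField.adjoin K (Set.range v)).val.comp e.toAlgHom).commutes c).symm
  have : Algebra.IsSeparable (IntermediateField.adjoin K (Set.range v)) F := by
    rw [show Set.range v = {x} from Set.range_const]
    exact hsep
  have : Algebra.IsSeparable L F :=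
    Algebra.IsSeparable.of_equiv_equiv e.symm.toRingEquiv (RingEquiv.refl F) (by
      ext c
      obtain ⟨d, rfl⟩ := e.surjective c
      change algebraMap L F (e.symm (e d)) =
        algebraMap (IntermediateField.adjoin K (Set.range v)) F (e d)
      rw [e.symm_apply_apply]
      rfl)
  have : Algebra.FormallyEtale L F := Algebra.FormallyEtale.of_isSeparable _ _
  have : Algebra.FormallyEtale A L :=
    Algebra.FormallyEtale.of_isLocalization (Rₘ := L) (nonZeroDivisors A)
  -- differentials commute with the étale steps `K[x] → K(x) → F`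
  rw [← (KaehlerDifferential.tensorKaehlerEquivOfFormallyEtale K L F).finrank_eq,
    Module.finrank_baseChange,
    ← (KaehlerDifferential.tensorKaehlerEquivOfFormallyEtale K A L).finrank_eq,
    Module.finrank_baseChange,
    Module.finrank_eq_card_basis (KaehlerDifferential.mvPolynomialBasis K (Fin 1)),
    Fintype.card_fin]

/-- A function field is a curve over its constants: functions have divisors, residue fields are
finite and the differentials have rank one. -/
instance (priority := 100) instIsCurveOver : IsCurveOver K F where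
  exists_divisor := fun f _ => exists_divisor_of_ord f
  finiteResidue := fun v => instFiniteResidue v
  kaehler_free_rank_one := ⟨Module.Free.of_divisionRing _ _, finrank_kaehler_eq_one⟩

omit [IsFunctionField K F] [IsAlgClosed K] in
/-- Regular elements of `K(y)` at the zero of `y` are fractions with nonvanishing denominator. -/
theorem exists_regular_fraction {y : F} (hy : Transcendental K y) {u : Place K K⟮y⟯}
    (hu : 0 < u.ord (AdjoinSimple.gen K y)) {c : K⟮y⟯} (hc : OrdGE u c 0) :
    ∃ r s : K[X], s.coeff 0 ≠ 0 ∧ (c : F) = aeval y r / aeval y s := by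
  obtain ⟨r, s, hrs⟩ := (mem_adjoin_simple_iff K _).mp c.2
  rcases eq_or_ne (c : F) 0 with h0 | h0
  · exact ⟨0, 1, by simp, by simp [h0]⟩
  have hr : r ≠ 0 := fun h => h0 (by rw [hrs, h, map_zero, zero_div])
  have hs : s ≠ 0 := fun h => h0 (by rw [hrs, h, map_zero, div_zero])
  have split : ∀ p : K[X], p ≠ 0 → ∃ q : K[X], q.coeff 0 ≠ 0 ∧ p = X ^ p.natTrailingDegree * q := by
    intro p hp
    obtain ⟨q, hq⟩ := X_pow_dvd_iff.mpr
      fun d (hd : d < p.natTrailingDegree) => coeff_eq_zero_of_lt_natTrailingDegree hd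
    refine ⟨q, ?_, hq⟩
    have := trailingCoeff_nonzero_iff_nonzero.mpr hp
    rw [trailingCoeff] at this
    conv at this => lhs; arg 1; rw [hq]
    rwa [coeff_X_pow_mul', if_pos le_rfl, Nat.sub_self] at this
  obtain ⟨r', -, hr'⟩ := split r hr
  obtain ⟨s', hs', hs''⟩ := split s hs
  have hcne : c ≠ 0 := fun h => h0 (by simp [h])
  have hr0 : aeval y r ≠ 0 := fun h => h0 (by rw [hrs, h, zero_div])
  have hs0 : aeval y s ≠ 0 := fun h => h0 (by rw [hrs, h, div_zero])
  have hcoe : ∀ p : K[X],
      ((aeval (AdjoinSimple.gen K y) p : K⟮y⟯) : F) = aeval y p := fun p =>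
    (aeval_algHom_apply K⟮y⟯.val (AdjoinSimple.gen K y) p).symm
  -- regularity at the zero of `y`: the denominator has the lower trailing degree
  have hle : s.natTrailingDegree ≤ r.natTrailingDegree := by
    have hc' : c = aeval (AdjoinSimple.gen K y) r / aeval (AdjoinSimple.gen K y) s :=
      Subtype.ext (by rw [hrs]; push_cast; rw [hcoe, hcoe])
    have h1 := hc.le_ord hcne
    rw [hc', ord_div u (fun h => hr0 (by rw [← hcoe, h]; rfl))
      (fun h => hs0 (by rw [← hcoe, h]; rfl)), ord_aeval hu hr, ord_aeval hu hs] at h1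
    by_contra hlt
    have : (r.natTrailingDegree : ℤ) + 1 ≤ s.natTrailingDegree := by omega
    nlinarith
  refine ⟨X ^ (r.natTrailingDegree - s.natTrailingDegree) * r', s', hs', ?_⟩
  have hy0 : y ≠ 0 := fun h => hy (h ▸ isAlgebraic_zero)
  rw [hrs]
  conv_lhs => rw [hr', hs'']
  obtain ⟨k, hk⟩ := Nat.exists_eq_add_of_le hle
  rw [hk, Nat.add_sub_cancel_left, map_mul, map_mul, map_mul, map_pow, map_pow, map_pow, aeval_X,
    pow_add, mul_assoc, mul_div_mul_left _ _ (pow_ne_zero _ hy0)]

/-- Derivations are continuous. -/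
theorem exists_derivation_bound (δ : Derivation K F F) (v : Place K F) :
    ∃ c : ℤ, ∀ f : F, OrdGE v f 0 → OrdGE v (δ f) c := by
  classical
  obtain ⟨y, hy0, hy⟩ := exists_ord_eq_one v
  have hyt : Transcendental K y := transcendental_of_ord_ne_zero (v := v) (by omega)
  have := finiteDimensional_adjoin hyt
  have := isFunctionField_adjoin hyt
  have : Algebra.IsIntegral K⟮y⟯ F := Algebra.IsIntegral.of_finite _ _
  set u := v.restrict K⟮y⟯
  have hu : 0 < u.ord (AdjoinSimple.gen K y) := by
    have h := v.ord_restrict (F := K⟮y⟯) (AdjoinSimple.gen K y)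
    rw [AdjoinSimple.algebraMap_gen, hy] at h
    by_contra hle
    have : (0 : ℤ) ≤ v.ramificationIndex K⟮y⟯ := Int.natCast_nonneg _
    nlinarith
  obtain ⟨z, hz⟩ := exists_localFamily (F := K⟮y⟯) (u.fiber F)
  have hS : ∀ w ∈ u.fiber F, w.restrict K⟮y⟯ = u := fun w hw => Place.mem_fiber.mp hw
  have hcard := sum_ramificationIndex (F := K⟮y⟯) (F' := F) u
  set N : ℕ := (∑ i, (v.ord (δ (z i))).natAbs) + (v.ord (δ y)).natAbs with hN
  have hDy : OrdGE v (δ y) (-(N : ℤ)) := (ordGE_ord v _).mono (by omega)
  have hvmem : v ∈ u.fiber F := Place.mem_fiber.mpr rfl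
  -- bound on functions regular above `u`
  have hB : ∀ b : F, (∀ w ∈ u.fiber F, OrdGE w b 0) → OrdGE v (δ b) (-(N : ℤ)) := by
    intro b hb
    rw [← hz.sum_repr_smul hS hcard b, map_sum]
    refine OrdGE.sum fun i _ => ?_
    have hc := hz.ordGE_repr hS hcard hb i
    obtain ⟨r, s, hs, hrs⟩ := exists_regular_fraction hyt hu hc
    rw [IntermediateField.smul_def, smul_eq_mul, Derivation.leibniz, smul_eq_mul, smul_eq_mul]
    have hzi : OrdGE v (δ (z i)) (-(N : ℤ)) := (ordGE_ord v _).mono (by
      have : (v.ord (δ (z i))).natAbs ≤ ∑ j, (v.ord (δ (z j))).natAbs :=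
        Finset.single_le_sum (f := fun j => (v.ord (δ (z j))).natAbs) (fun _ _ => Nat.zero_le _)
          (Finset.mem_univ i)
      omega)
    have hyreg : OrdGE v y 0 := ordGE_iff.mpr (.inr (by omega))
    have hs0 : aeval y s ≠ 0 ∧ v.ord (aeval y s) = 0 := by
      have hne : s ≠ 0 := fun h => hs (by simp [h])
      have ht : s.natTrailingDegree = 0 := natTrailingDegree_eq_zero.mpr (.inr hs)
      exact ⟨fun h => hyt ⟨s, hne, h⟩, by rw [ord_aeval (by omega) hne, ht]; simp⟩
    have hinv : OrdGE v (aeval y s)⁻¹ 0 := ordGE_iff.mpr (.inr (by rw [v.ord_inv, hs0.2]; simp))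
    refine OrdGE.add ?_ ?_
    · rw [hrs, div_eq_mul_inv]
      exact (((ordGE_aeval hyreg r).mul hinv).mul hzi).mono (by simp)
    · refine ((hz.ordGE_member_zero i hvmem).mul ?_).mono (by simp : -(N : ℤ) ≤ 0 + -(N : ℤ))
      rw [hrs, div_eq_mul_inv, Derivation.leibniz, Derivation.leibniz_inv, Derivation.map_aeval,
        Derivation.map_aeval]
      simp only [smul_eq_mul]
      refine OrdGE.add ?_ ?_
      · refine ((ordGE_aeval hyreg r).mul ((((hinv.pow 2).neg).mul
          ((ordGE_aeval hyreg (derivative s)).mul hDy)))).mono (by simp)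
      · exact (hinv.mul ((ordGE_aeval hyreg (derivative r)).mul hDy)).mono (by simp)
  refine ⟨-(N : ℤ), fun f hf => ?_⟩
  -- make `f` regular above `u`
  set M : ℕ := (∑ w ∈ u.fiber F, (w.ord f).natAbs) + 1 with hM
  obtain ⟨g, hg⟩ := exists_approx (u.fiber F) (fun w => if w = v then (1 : F) else 0) (M : ℤ)
  have hg1 : OrdGE v (g - 1) 1 := by
    have := hg v hvmem
    rw [if_pos rfl] at this
    exact this.mono (by omega)
  obtain ⟨hgord, hgne⟩ := ord_eq_of_ordGE_lt v (f := (1 : F)) (g := g - 1) one_ne_zero
    (hg1.mono (by simp))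
  rw [add_sub_cancel, Place.ord_one] at hgord
  rw [add_sub_cancel] at hgne
  have hgreg : ∀ w ∈ u.fiber F, OrdGE w g 0 := fun w hw => by
    rcases eq_or_ne w v with rfl | hwv
    · exact ordGE_iff.mpr (.inr hgord.ge)
    · have := hg w hw
      rw [if_neg hwv, sub_zero] at this
      exact this.mono (by omega)
  have hfg : ∀ w ∈ u.fiber F, OrdGE w (f * g) 0 := fun w hw => by
    rcases eq_or_ne w v with rfl | hwv
    · exact (hf.mul (hgreg w hw)).mono (by simp)
    · have h1 := hg w hw
      rw [if_neg hwv, sub_zero] at h1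
      refine ((ordGE_ord w f).mul h1).mono ?_
      have : (w.ord f).natAbs ≤ ∑ w ∈ u.fiber F, (w.ord f).natAbs :=
        Finset.single_le_sum (f := fun w : Place K F => (w.ord f).natAbs)
          (fun _ _ => Nat.zero_le _) hw
      omega
  have key : δ f = g⁻¹ * (δ (f * g) - f * δ g) := by
    rw [Derivation.leibniz, smul_eq_mul, smul_eq_mul]
    field_simp
    ring
  rw [key]
  exact ((ordGE_iff.mpr (.inr (by rw [v.ord_inv, hgord]; simp)) : OrdGE v g⁻¹ 0).mul
    ((hB _ hfg).sub ((hf.mul (hB g hgreg)).mono (by simp)))).mono (by simp)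

/-- Expansion in a uniformiser. -/
theorem exists_expansion {v : Place K F} {t : F} (ht : v.ord t = 1) {f : F} (hf : OrdGE v f 0)
    (N : ℕ) : ∃ (p : K[X]) (r : F), OrdGE v r 0 ∧ f = aeval t p + t ^ N * r := by
  induction N with
  | zero => exact ⟨0, f, hf, by simp⟩
  | succ N ih =>
    obtain ⟨p, r, hr, hpr⟩ := ih
    have ht0 : t ≠ 0 := fun h => by simp [h] at ht
    obtain ⟨a, ha⟩ := exists_value hr
    refine ⟨p + C a * X ^ N, (r - algebraMap K F a) / t, ?_, ?_⟩
    · rw [div_eq_mul_inv]
      exact (ha.mul (ordGE_ord v t⁻¹)).mono (by rw [v.ord_inv, ht]; norm_num)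
    · rw [map_add, map_mul, aeval_C, map_pow, aeval_X, pow_succ, mul_assoc, mul_div_cancel₀ _ ht0,
        hpr]
      ring

/-- A derivation killing a uniformiser is zero. -/
theorem derivation_eq_zero {v : Place K F} {t : F} (ht : v.ord t = 1) {δ : Derivation K F F}
    (h : δ t = 0) (f : F) : δ f = 0 := by
  obtain ⟨c, hc⟩ := exists_derivation_bound δ v
  have key : ∀ g : F, OrdGE v g 0 → δ g = 0 := fun g hg => by
    by_contra hne
    obtain ⟨p, r, hr, hpr⟩ := exists_expansion ht hg ((v.ord (δ g) - c).toNat + 1)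
    have : OrdGE v (δ g) (v.ord (δ g) + 1) := by
      nth_rewrite 1 [hpr]
      rw [map_add, Derivation.leibniz, Derivation.map_aeval, Derivation.leibniz_pow, h]
      simp only [smul_eq_mul, mul_zero, smul_zero, zero_add, add_zero]
      refine ((((ordGE_ord v t).pow _).mul (hc r hr))).mono ?_
      rw [ht]
      push_cast
      omega
    have := this.le_ord hne
    omega
  by_cases hf : OrdGE v f 0
  · exact key f hf
  · have hinv : OrdGE v f⁻¹ 0 := by
      rw [ordGE_iff, v.ord_inv]
      rw [ordGE_iff, not_or] at hf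
      right; omega
    rw [show f = f⁻¹⁻¹ from (inv_inv f).symm, Derivation.leibniz_inv, key _ hinv, smul_zero]

/-- The differential of a uniformiser is nonzero. -/
theorem D_ne_zero_of_ord_eq_one (v : Place K F) {t : F} (ht : v.ord t = 1) :
    KaehlerDifferential.D K F t ≠ 0 := by
  intro h0
  have hall : ∀ f : F, KaehlerDifferential.D K F f = 0 := fun f => by
    refine (Module.forall_dual_apply_eq_zero_iff F _).mp fun φ => ?_
    exact derivation_eq_zero (δ := φ.compDer (KaehlerDifferential.D K F)) ht (by
      change φ (KaehlerDifferential.D K F t) = 0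
      rw [h0, map_zero]) f
  obtain ⟨ω, hω⟩ := exists_ne (0 : Ω[F⁄K])
  have : ω ∈ Submodule.span F (Set.range (KaehlerDifferential.D K F)) := by
    rw [KaehlerDifferential.span_range_derivation]; trivial
  refine hω ?_
  have hle : Submodule.span F (Set.range (KaehlerDifferential.D K F)) ≤
      (⊥ : Submodule F Ω[F⁄K]) := by
    rw [Submodule.span_le]; rintro _ ⟨f, rfl⟩; exact hall f
  exact hle this

/-- The differential of a uniformiser generates the differentials. -/
theorem span_D_eq_top (v : Place K F) {t : F} (ht : v.ord t = 1) :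
    Submodule.span F {KaehlerDifferential.D K F t} = ⊤ :=
  (finrank_eq_one_iff_of_nonzero _ (D_ne_zero_of_ord_eq_one v ht)).mp finrank_kaehler_eq_one

omit [IsAlgClosed K] [IsFunctionField K F] in
/-- The chosen generator at a place is the differential of a uniformiser. -/
theorem exists_dCoord_eq (v : Place K F) :
    ∃ t : F, v.ord t = 1 ∧ v.dCoord = KaehlerDifferential.D K F t :=
  ⟨((IsDiscreteValuationRing.exists_irreducible v.toValuationSubring).choose : F),
    v.ord_coe_irreducible (IsDiscreteValuationRing.exists_irreducible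
      v.toValuationSubring).choose_spec,
    rfl⟩

/-- The differential of the chosen uniformiser generates the differentials at every place. -/
instance (priority := 100) instDCoordGenerates (v : Place K F) : v.DCoordGenerates := by
  obtain ⟨t, ht, h⟩ := exists_dCoord_eq v
  exact ⟨by rw [h]; exact span_D_eq_top v ht⟩

/-- The derivation `d/dt` of a uniformiser. -/
theorem exists_dt (v : Place K F) {t : F} (ht : v.ord t = 1) :
    ∃ δ : Derivation K F F, δ t = 1 ∧
      (∀ f, KaehlerDifferential.D K F f = δ f • KaehlerDifferential.D K F t) ∧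
      ∀ f, OrdGE v f 0 → OrdGE v (δ f) 0 := by
  have hne := D_ne_zero_of_ord_eq_one v ht
  let e : F →ₗ[F] Ω[F⁄K] := LinearMap.toSpanSingleton F _ (KaehlerDifferential.D K F t)
  have he : Function.Bijective e := by
    refine ⟨fun a b h => smul_left_injective F hne h, fun ω => ?_⟩
    have : ω ∈ Submodule.span F {KaehlerDifferential.D K F t} := by
      rw [span_D_eq_top v ht]; trivial
    obtain ⟨a, ha⟩ := Submodule.mem_span_singleton.mp this
    exact ⟨a, ha⟩
  let φ := (LinearEquiv.ofBijective e he).symm
  let δ : Derivation K F F := φ.toLinearMap.compDer (KaehlerDifferential.D K F)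
  have hδ : ∀ f, KaehlerDifferential.D K F f = δ f • KaehlerDifferential.D K F t := fun f =>
    ((LinearEquiv.ofBijective e he).apply_symm_apply (KaehlerDifferential.D K F f)).symm
  have hδt : δ t = 1 := smul_left_injective F hne
    ((hδ t).symm.trans (one_smul F _).symm)
  refine ⟨δ, hδt, hδ, fun f hf => ?_⟩
  obtain ⟨c, hc⟩ := exists_derivation_bound δ v
  obtain ⟨p, r, hr, hpr⟩ := exists_expansion ht hf ((-c).toNat + 1)
  rw [hpr, map_add, Derivation.leibniz, Derivation.map_aeval, Derivation.leibniz_pow, hδt]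
  simp only [smul_eq_mul, nsmul_eq_mul, mul_one]
  have htreg : OrdGE v t 0 := ordGE_iff.mpr (.inr (by omega))
  refine ((ordGE_aeval htreg _)).add (OrdGE.add ?_ ?_)
  · refine (((ordGE_ord v t).pow _).mul (hc r hr)).mono ?_
    rw [ht]; push_cast; omega
  · refine (hr.mul (OrdGE.mul ?_ (htreg.pow _))).mono (by simp : (0 : ℤ) ≤ 0 + (0 + _ * 0))
    simpa using ordGE_algebraMap v (((-c).toNat + 1 : ℕ) : K)

/-- The order of a differential is independent of the uniformiser. -/
theorem ordDifferential_smul_D (v : Place K F) {t : F} (ht : v.ord t = 1) (f : F) :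
    v.ordDifferential (f • KaehlerDifferential.D K F t) = v.ord f := by
  obtain ⟨s, hs, hscoord⟩ := exists_dCoord_eq v
  obtain ⟨δs, -, hδs, hs0⟩ := exists_dt v hs
  obtain ⟨δt, -, hδt, ht0⟩ := exists_dt v ht
  have hprod : δs t * δt s = 1 := by
    refine smul_left_injective F (D_ne_zero_of_ord_eq_one v hs) ?_
    change (δs t * δt s) • KaehlerDifferential.D K F s = (1 : F) • KaehlerDifferential.D K F s
    rw [one_smul, mul_comm, ← smul_smul, ← hδs, ← hδt]
  have hA : δs t ≠ 0 := left_ne_zero_of_mul_eq_one hprod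
  have hB : δt s ≠ 0 := right_ne_zero_of_mul_eq_one hprod
  have hu : v.ord (δs t) = 0 := by
    have h1 := (hs0 t (ordGE_iff.mpr (.inr (by omega)))).le_ord hA
    have h2 := (ht0 s (ordGE_iff.mpr (.inr (by omega)))).le_ord hB
    have h3 := v.ord_mul hA hB
    rw [hprod, Place.ord_one] at h3
    omega
  rw [Place.ordDifferential, v.differentialCoeff_unique (f := f * δs t) (by
    rw [hscoord, ← smul_smul, ← hδs])]
  rcases eq_or_ne f 0 with rfl | hf
  · simp
  · rw [v.ord_mul hf hA, hu, add_zero]

/-- The order of `c ω` is the sum of the orders. -/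
theorem ordDifferential_smul (v : Place K F) {c : F} (hc : c ≠ 0) {ω : Ω[F⁄K]} (hω : ω ≠ 0) :
    v.ordDifferential (c • ω) = v.ord c + v.ordDifferential ω :=
  v.ordDifferential_smul hc fun h => hω (by rw [← v.differentialCoeff_smul_dCoord ω, h, zero_smul])

/-- The differential of a regular function is regular. -/
theorem ordDifferential_D_nonneg (v : Place K F) {f : F} (hf : OrdGE v f 0) :
    0 ≤ v.ordDifferential (KaehlerDifferential.D K F f) := by
  obtain ⟨t, -, ht⟩ := exists_ord_eq_one v
  obtain ⟨δ, -, hδ, hreg⟩ := exists_dt v ht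
  rw [hδ f, ordDifferential_smul_D v ht]
  rcases ordGE_iff.mp (hreg f hf) with h | h
  · simp [h]
  · exact h

/-- At a zero of order `n + 1` prime to the characteristic, `df` has order `n`. -/
theorem ordDifferential_D_of_pos (v : Place K F) {f : F} {n : ℕ} (hn : v.ord f = (n + 1 : ℕ))
    (hK : ((n + 1 : ℕ) : K) ≠ 0) :
    v.ordDifferential (KaehlerDifferential.D K F f) = n := by
  obtain ⟨t, ht0, ht⟩ := exists_ord_eq_one v
  obtain ⟨δ, hδt, hδ, hreg⟩ := exists_dt v ht
  have hf : f ≠ 0 := fun h => by rw [h, Place.ord_zero] at hn; omega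
  set u := f / t ^ (n + 1) with hu
  have hfu : f = t ^ (n + 1) * u := by rw [hu, mul_div_cancel₀ _ (pow_ne_zero _ ht0)]
  have hu0 : u ≠ 0 := div_ne_zero hf (pow_ne_zero _ ht0)
  have huord : v.ord u = 0 := by
    rw [hu, ord_div v hf (pow_ne_zero _ ht0), hn, ord_pow, ht]; omega
  rw [hδ f, ordDifferential_smul_D v ht, hfu, Derivation.leibniz, Derivation.leibniz_pow, hδt,
    add_comm]
  simp only [smul_eq_mul, nsmul_eq_mul, mul_one, Nat.add_sub_cancel]
  -- `df = (n + 1) tⁿ u dt + tⁿ⁺¹ du` for `f = tⁿ⁺¹ u`
  have hcast : ((n + 1 : ℕ) : F) ≠ 0 := by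
    exact fun h => hK ((algebraMap K F).injective (by rw [map_natCast, h, map_zero]))
  have hmain : v.ord (u * (((n + 1 : ℕ) : F) * t ^ n)) = n := by
    rw [v.ord_mul hu0 (mul_ne_zero hcast (pow_ne_zero _ ht0)),
      v.ord_mul hcast (pow_ne_zero _ ht0), huord, ← map_natCast (algebraMap K F), ord_algebraMap,
      ord_pow, ht]
    omega
  rw [(ord_eq_of_ordGE_lt v (mul_ne_zero hu0 (mul_ne_zero hcast (pow_ne_zero _ ht0)))
    (g := t ^ (n + 1) * δ u) ?_).1, hmain]
  rw [hmain]
  exact (((ordGE_ord v t).pow (n + 1)).mul (hreg u (ordGE_iff.mpr (.inr huord.ge)))).mono (by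
    rw [ht]; push_cast; omega)

/-- `ord (df) = e - 1` at a tame point, `-e - 1` at a tame pole. -/
theorem ordDifferential_D_eq (v : Place K F) {f : F} (hf : (v.ord f : K) ≠ 0) :
    v.ordDifferential (KaehlerDifferential.D K F f) = v.ord f - 1 := by
  -- at a pole use `d(1/f) = -df / f²`
  rcases lt_trichotomy (v.ord f) 0 with h | h | h
  · obtain ⟨n, hn⟩ : ∃ n : ℕ, v.ord f⁻¹ = (n + 1 : ℕ) :=
      ⟨(-v.ord f).toNat - 1, by rw [v.ord_inv]; omega⟩
    have hK : ((n + 1 : ℕ) : K) ≠ 0 := by
      have : ((n + 1 : ℕ) : ℤ) = -v.ord f := by rw [← hn, v.ord_inv]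
      rw [← Int.cast_natCast (R := K), this, Int.cast_neg]
      exact neg_ne_zero.mpr hf
    have h1 := ordDifferential_D_of_pos v hn hK
    have hf0 : f ≠ 0 := fun h0 => by simp [h0] at h
    rw [Derivation.leibniz_inv, ordDifferential_smul v
      (neg_ne_zero.mpr (pow_ne_zero _ (inv_ne_zero hf0)))
      (fun h0 => ?_), ord_neg, ord_pow, v.ord_inv] at h1
    · rw [v.ord_inv] at hn
      push_cast at h1 hn ⊢
      omega
    · obtain ⟨t, -, ht⟩ := exists_ord_eq_one v
      have h2 := ordDifferential_D_of_pos v hn hK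
      obtain ⟨δ, -, hδ, -⟩ := exists_dt v ht
      rw [Derivation.leibniz_inv, h0, smul_zero] at h2
      have hz : v.ordDifferential (0 : Ω[F⁄K]) = 0 := by
        simp [Place.ordDifferential]
      rw [hz] at h2
      have hn0 : n = 0 := by exact_mod_cast h2.symm
      subst hn0
      rw [v.ord_inv] at hn
      push_cast at hn
      have ht1 : v.ord f⁻¹ = 1 := by rw [v.ord_inv]; omega
      exact D_ne_zero_of_ord_eq_one v ht1 (by rw [Derivation.leibniz_inv, h0, smul_zero])
  · exact absurd (by simp [h]) hf
  · obtain ⟨n, hn⟩ : ∃ n : ℕ, v.ord f = (n + 1 : ℕ) := ⟨(v.ord f).toNat - 1, by omega⟩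
    rw [ordDifferential_D_of_pos v hn (by rw [hn] at hf; exact_mod_cast hf), hn]
    push_cast
    omega

/-- A separable function is unramified outside a finite set. -/
theorem finite_ramified {x : F} (hx : Transcendental K x) (hsep : Algebra.IsSeparable K⟮x⟯ F) :
    {v : Place K F | ramIndex x v ≠ 1}.Finite := by
  classical
  have := finiteDimensional_adjoin hx
  have := isFunctionField_adjoin hx
  have : Algebra.IsIntegral K⟮x⟯ F := Algebra.IsIntegral.of_finite _ _
  have := hsep
  set n := Module.finrank K⟮x⟯ F with hn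
  let b := Module.finBasis K⟮x⟯ F
  set d := Algebra.discr K⟮x⟯ (b : Fin n → F) with hd
  have hd0 : d ≠ 0 := Algebra.discr_not_zero_of_basis K⟮x⟯ b
  -- bad places of `K(x)`
  let bad : Set (Place K K⟮x⟯) := {u | u.ord d ≠ 0} ∪
    ⋃ j : Fin n, (fun w : Place K F => w.restrict K⟮x⟯) '' {w | w.ord (b j) ≠ 0}
  have hbad : bad.Finite := (finite_setOf_ord_ne_zero d).union
    (Set.finite_iUnion fun j => (finite_setOf_ord_ne_zero (b j)).image _)
  have hgood : ∀ v : Place K F, v.restrict K⟮x⟯ ∉ bad → ramIndex x v = 1 := by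
    intro v hv
    rw [← ramificationIndex_adjoin hx v]
    set u := v.restrict K⟮x⟯ with hu
    simp only [bad, Set.mem_union, Set.mem_ofPred_eq, Set.mem_iUnion, Set.mem_image, not_or,
      not_exists, not_and, not_not] at hv
    have hreg : ∀ j, ∀ w ∈ u.fiber F, OrdGE w (b j) 0 := fun j w hw =>
      ordGE_iff.mpr (.inr (le_of_eq (by
        by_contra hne
        exact hv.2 j w (fun h => hne h.symm) (Place.mem_fiber.mp hw))))
    by_contra hne
    have hlt : (u.fiber F).card < n := by
      rw [hn, ← sum_ramificationIndex (F' := F) u, Finset.card_eq_sum_ones]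
      refine Finset.sum_lt_sum (fun w _ => w.ramificationIndex_pos) ⟨v, Place.mem_fiber.mpr rfl, ?_⟩
      have := v.ramificationIndex_pos (F := K⟮x⟯)
      omega
    -- a relation between the values of the basis
    let V : (Fin n → K) →ₗ[K] (↥(u.fiber F) → K) :=
      { toFun := fun c w => ∑ j, c j * evalAt (w : Place K F) (b j)
        map_add' := fun c c' => by
          funext w; simp [add_mul, Finset.sum_add_distrib]
        map_smul' := fun r c => by
          funext w; simp [Finset.mul_sum, mul_assoc] }
    obtain ⟨c, hc, hc0⟩ := Submodule.exists_mem_ne_zero_of_ne_bot (p := LinearMap.ker V)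
        (fun hbot => by
      have := LinearMap.finrank_le_finrank_of_injective (LinearMap.ker_eq_bot.mp hbot)
      rw [Module.finrank_fintype_fun_eq_card, Module.finrank_fintype_fun_eq_card, Fintype.card_fin,
        Fintype.card_coe] at this
      omega)
    obtain ⟨φ, hφ⟩ := IsLocalFamily.exists_evalHom (K := K) u
    have hmem : ∀ i j, Algebra.traceMatrix K⟮x⟯ (b : Fin n → F) i j ∈ u.toValuationSubring :=
        fun i j => by
      rw [mem_iff_ordGE, Algebra.traceMatrix_apply, Algebra.traceForm_apply]
      exact ordGE_trace u fun w hw => ((hreg i w hw).mul (hreg j w hw)).mono (by simp)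
    let M : Matrix (Fin n) (Fin n) u.toValuationSubring := fun i j => ⟨_, hmem i j⟩
    have hdet : (φ.mapMatrix M).det = 0 := by
      refine Matrix.exists_mulVec_eq_zero_iff.mp ⟨c, hc0, ?_⟩
      funext i
      simp only [Matrix.mulVec, dotProduct, RingHom.mapMatrix_apply, Matrix.map_apply, hφ, M,
        Algebra.traceMatrix_apply, Algebra.traceForm_apply, Pi.zero_apply]
      rw [Finset.sum_congr rfl fun j _ => by
        rw [evalAt_trace u fun w hw => ((hreg i w hw).mul (hreg j w hw)).mono (by simp),
          Finset.sum_mul]]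
      rw [Finset.sum_comm]
      refine Finset.sum_eq_zero fun w hw => ?_
      have h0 : ∑ j, c j * evalAt w (b j) = 0 := congrFun (LinearMap.mem_ker.mp hc) ⟨w, hw⟩
      rw [Finset.sum_congr rfl fun j _ => by
        rw [evalAt_mul (hreg i w hw) (hreg j w hw)]]
      calc ∑ j, (w.ramificationIndex K⟮x⟯ : K) * (evalAt w (b i) * evalAt w (b j)) * c j
          = (w.ramificationIndex K⟮x⟯ : K) * evalAt w (b i) * ∑ j, c j * evalAt w (b j) := by
            rw [Finset.mul_sum]; exact Finset.sum_congr rfl fun j _ => by ring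
        _ = 0 := by rw [h0, mul_zero]
    rw [← RingHom.map_det, hφ] at hdet
    have hcoe : ((M.det : u.toValuationSubring) : K⟮x⟯) = d := by
      rw [show ((M.det : u.toValuationSubring) : K⟮x⟯) =
        u.toValuationSubring.subtype M.det from rfl, RingHom.map_det]
      rfl
    rw [hcoe] at hdet
    exact evalAt_ne_zero hd0 hv.1 hdet
  refine (hbad.biUnion fun u _ => Place.restrict_fiber_finite (F' := F) u).subset fun v hv => ?_
  simp only [Set.mem_iUnion, Set.mem_ofPred_eq] at hv ⊢
  refine ⟨v.restrict K⟮x⟯, ?_, rfl⟩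
  by_contra h
  exact hv (hgood v h)

/-- `dx` has order `0` where `x` is finite and unramified. -/
theorem ordDifferential_D_eq_zero_of_unramified {x : F} (v : Place K F) (hreg : 0 ≤ v.ord x)
    (hram : ramIndex x v = 1) : v.ordDifferential (KaehlerDifferential.D K F x) = 0 := by
  rw [ramIndex, if_pos hreg] at hram
  have h1 : v.ord (x - algebraMap K F (evalAt v x)) = 1 := by omega
  have := ordDifferential_D_eq v (f := x - algebraMap K F (evalAt v x)) (by rw [h1]; simp)
  rw [h1, map_sub, Derivation.map_algebraMap, sub_zero] at this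
  simpa using this

/-- The differential of a separating element is nonzero. -/
theorem D_ne_zero_of_separable {x : F} (hx : Transcendental K x)
    (hsep : Algebra.IsSeparable K⟮x⟯ F) : KaehlerDifferential.D K F x ≠ 0 := by
  obtain ⟨v, hv⟩ := Infinite.exists_notMem_finset
    ((finite_ramified hx hsep).union (finite_setOf_ord_ne_zero (K := K) x)).toFinset
  simp only [Set.Finite.mem_toFinset, Set.mem_union, Set.mem_ofPred_eq, not_or, not_not] at hv
  intro h0
  have h1 := hv.1
  rw [ramIndex, if_pos hv.2.ge] at h1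
  exact D_ne_zero_of_ord_eq_one v (t := x - algebraMap K F (evalAt v x)) (by omega)
    (by rw [map_sub, Derivation.map_algebraMap, sub_zero, h0])

/-- Every nonzero differential has a divisor. -/
instance (priority := 100) instHasCanonicalDivisor : HasCanonicalDivisor (K := K) (F := F) where
  exists_divisor ω hω := by
    classical
    obtain ⟨x, hx, -, hsep⟩ := IsFunctionField.exists_separating (K := K) (F := F)
    have hne := D_ne_zero_of_separable hx hsep
    have htop : Submodule.span F {KaehlerDifferential.D K F x} = ⊤ :=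
      (finrank_eq_one_iff_of_nonzero _ hne).mp finrank_kaehler_eq_one
    obtain ⟨c, hc⟩ := Submodule.mem_span_singleton.mp (htop ▸ Submodule.mem_top : ω ∈ _)
    have hc0 : c ≠ 0 := fun h => hω (by rw [← hc, h, zero_smul])
    have hfin : {v : Place K F | v.ordDifferential ω ≠ 0}.Finite := by
      refine ((finite_setOf_ord_ne_zero (K := K) c).union ((finite_ramified hx hsep).union
        (finite_setOf_ord_ne_zero (K := K) x))).subset fun v hv => ?_
      simp only [Set.mem_union, Set.mem_ofPred_eq] at hv ⊢
      by_contra h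
      push Not at h
      refine hv ?_
      rw [← hc, ordDifferential_smul v hc0 hne, h.1,
        ordDifferential_D_eq_zero_of_unramified v h.2.2.ge h.2.1, add_zero]
    exact ⟨Finsupp.onFinset hfin.toFinset (fun v => v.ordDifferential ω)
      (fun v hv => by simpa using hv), fun v => Finsupp.onFinset_apply⟩

end Fermat.FF

end
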