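import Fermat.Agent.FF.Reciprocity
import Mathlib.RingTheory.DedekindDomain.IntegralClosure

/-!
# The integral closure of `K[x]` and its points

Regular functions above the affine line are the integral elements; points of the affine curve
are exactly the places with `0 ≤ ord x`; the ring is free over `K[x]` of rank `[F : K(x)]`.
-/

set_option autoImplicit false

noncomputable section

open AlgebraicCurve
open scoped IntermediateField.algebraAdjoinAdjoin

namespace Fermat.FF

variable {K F : Type*} [Field K] [Field F] [Algebra K F]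

variable (K) in
/-- The integral closure of `K[x]`, as a `K`-subalgebra. -/
def intClosure (x : F) : Subalgebra K F :=
  (integralClosure (Algebra.adjoin K {x}) F).restrictScalars K

/-- Membership of `intClosure K x` is integrality over `K[x]`. -/
theorem mem_intClosure {x f : F} :
    f ∈ intClosure K x ↔ IsIntegral (Algebra.adjoin K {x}) f := Iff.rfl

/-- `x` lies in the integral closure of `K[x]`. -/
theorem self_mem_intClosure (x : F) : x ∈ intClosure K x :=
  mem_intClosure.mpr (isIntegral_algebraMap
    (x := (⟨x, Algebra.self_mem_adjoin_singleton K x⟩ : Algebra.adjoin K {x})))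

variable [IsAlgClosed K] [IsFunctionField K F]

/-- `f` is integral over `K[x]` iff it is regular at every place where `x` is. -/
theorem isIntegral_adjoin_iff {x f : F} :
    IsIntegral (Algebra.adjoin K {x}) f ↔ ∀ v : Place K F, OrdGE v x 0 → OrdGE v f 0 := by
  constructor
  -- the valuation ring at `v` is integrally closed
  · intro hf v hv
    have hle : ∀ a : Algebra.adjoin K {x}, (a : F) ∈ v.toValuationSubring := fun a => by
      obtain ⟨p, hp⟩ : ∃ p : Polynomial K, Polynomial.aeval x p = (a : F) :=
        (AlgHom.mem_range _).mp ((Algebra.adjoin_singleton_eq_range_aeval K x).le a.2)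
      rw [← hp, mem_iff_ordGE]
      exact ordGE_aeval hv p
    let φ : Algebra.adjoin K {x} →+* v.toValuationSubring :=
      (algebraMap (Algebra.adjoin K {x}) F).codRestrict v.toValuationSubring.toSubring hle
    let := φ.toAlgebra
    have : IsScalarTower (Algebra.adjoin K {x}) v.toValuationSubring F :=
      IsScalarTower.of_algebraMap_eq fun a => rfl
    obtain ⟨y, hy⟩ := IsIntegrallyClosed.isIntegral_iff.mp
      (hf.tower_top (A := v.toValuationSubring))
    exact (mem_iff_ordGE v).mp (hy ▸ y.2)
  -- otherwise a valuation ring over the integral closure misses `f`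
  · intro h
    by_contra hf
    have : IsIntegrallyClosedIn (intClosure K x).toSubring F :=
      (Subring.isIntegrallyClosedIn_iff).mpr fun {y} hy => by
        let : Algebra (integralClosure (Algebra.adjoin K {x}) F) F := inferInstance
        exact isIntegral_trans (R := Algebra.adjoin K {x})
          (A := integralClosure (Algebra.adjoin K {x}) F) y hy
    obtain ⟨V, hV, hfV⟩ := Subring.exists_le_valuationSubring_of_isIntegrallyClosedIn
      (R := (intClosure K x).toSubring) (x := f) (fun hm => hf hm)
    have hK : ∀ a : K, algebraMap K F a ∈ V := fun a => hV ((intClosure K x).algebraMap_mem a)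
    have hVtop : V ≠ ⊤ := fun htop => hfV (htop ▸ ValuationSubring.mem_top f)
    exact hfV ((mem_iff_ordGE (placeOfValuationSubring hK hVtop)).mpr
      (h _ ((mem_iff_ordGE _).mp (hV (self_mem_intClosure x)))))

/-- The integral closure of `K[x]` consists of the functions regular wherever `x` is. -/
theorem mem_intClosure_iff {x f : F} :
    f ∈ intClosure K x ↔ ∀ v : Place K F, OrdGE v x 0 → OrdGE v f 0 :=
  isIntegral_adjoin_iff

/-- A nonconstant function takes each value at finitely many places. -/
theorem finite_setOf_value {x : F} (hx : Transcendental K x) (a : K) :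
    {p : Place K F | OrdGE p x 0 ∧ evalAt p x = a}.Finite :=
  (finite_setOf_ord_ne_zero (K := K) (x - algebraMap K F a)).subset fun p hp => by
    have hne : x - algebraMap K F a ≠ 0 :=
      fun h => hx ((sub_eq_zero.mp h) ▸ isAlgebraic_algebraMap a)
    have h := hp.2 ▸ evalAt_spec hp.1
    have := h.le_ord hne
    simp only [Set.mem_ofPred_eq]
    omega

/-- Integral functions separate the finite places of `x`. -/
theorem exists_separating_integral {x : F} (hx : Transcendental K x) {v w : Place K F}
    (hv : OrdGE v x 0) (hw : OrdGE w x 0) (hne : v ≠ w) :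
    ∃ r ∈ intClosure K x, evalAt v r = 1 ∧ evalAt w r = 0 := by
  classical
  set T : Finset (Place K F) := ((finite_setOf_value hx (evalAt v x)).union
    (finite_setOf_value hx (evalAt w x))).toFinset with hT
  have hvT : v ∈ T := by simp [hT, hv]
  have hwT : w ∈ T := by simp [hT, hw]
  obtain ⟨g, hg⟩ := exists_approx T (fun u => if u = v then (1 : F) else 0) 1
  have hgT : ∀ u ∈ T, OrdGE u g 0 := fun u hu => by
    have h1 := (hg u hu).mono (zero_le_one : (0 : ℤ) ≤ 1)
    have h2 : OrdGE u (if u = v then (1 : F) else 0) 0 := by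
      split
      · exact ordGE_one u
      · exact ordGE_zero _ _
    simpa using h1.add h2
  set P : Finset (Place K F) :=
    (finite_setOf_ord_ne_zero (K := K) g).toFinset.filter fun p => OrdGE p x 0 ∧ p ∉ T with hP
  set N : ℕ := ∑ p ∈ P, (p.ord g).natAbs
  have hPval : ∀ p ∈ P, evalAt p x ≠ evalAt v x ∧ evalAt p x ≠ evalAt w x := fun p hp => by
    simp only [hP, Finset.mem_filter, Set.Finite.mem_toFinset, hT, Set.mem_union,
      Set.mem_ofPred_eq, not_or, not_and] at hp
    exact ⟨hp.2.2.1 hp.2.1, hp.2.2.2 hp.2.1⟩
  set c : Place K F → K := fun p => (evalAt v x - evalAt p x)⁻¹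
  set lin : Place K F → F := fun p => algebraMap K F (c p) * (x - algebraMap K F (evalAt p x))
  set q : F := ∏ p ∈ P, lin p ^ N
  have hlin : ∀ (p u : Place K F), OrdGE u x 0 → OrdGE u (lin p) 0 := fun p u hu =>
    ((ordGE_algebraMap u _).mul (hu.sub (ordGE_algebraMap u _))).mono (by simp)
  have hq : ∀ u : Place K F, OrdGE u x 0 → OrdGE u q 0 := fun u hu =>
    (evalAt_prod P _ fun p _ => ((hlin p u hu).pow N).mono (by simp)).1
  -- `g` separates; `q` clears its poles and is `1` at `v`
  refine ⟨g * q, mem_intClosure_iff.mpr fun u hu => ?_, ?_, ?_⟩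
  · by_cases huP : u ∈ P
    · have hN : (u.ord g).natAbs ≤ N :=
        Finset.single_le_sum (f := fun p : Place K F => (p.ord g).natAbs)
          (fun _ _ => Nat.zero_le _) huP
      have h1 : OrdGE u (lin u) 1 :=
        ((ordGE_algebraMap u _).mul (evalAt_spec hu)).mono (by simp)
      have h2 : OrdGE u q (N : ℤ) := by
        simp only [q, ← Finset.mul_prod_erase P _ huP]
        exact ((h1.pow N).mul ((evalAt_prod (P.erase u) _ fun p _ =>
          ((hlin p u hu).pow N).mono (by simp)).1)).mono (by simp)
      exact ((ordGE_ord u g).mul h2).mono (by omega)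
    · have hgu : OrdGE u g 0 := by
        by_cases huT : u ∈ T
        · exact hgT u huT
        · refine ordGE_iff.mpr (.inr ?_)
          by_contra h
          exact huP (Finset.mem_filter.mpr ⟨by simp; omega, hu, huT⟩)
      exact (hgu.mul (hq u hu)).mono (by simp)
  · rw [evalAt_mul (hgT v hvT) (hq v hv),
      (evalAt_prod P _ fun p _ => ((hlin p v hv).pow N).mono (by simp)).2]
    rw [evalAt_eq (f := g) (c := 1) (by simpa using hg v hvT), one_mul]
    refine Finset.prod_eq_one fun p hp => ?_
    rw [evalAt_pow (hlin p v hv), evalAt_mul (ordGE_algebraMap v _) (hv.sub (ordGE_algebraMap v _)),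
      evalAt_algebraMap, evalAt_eq (f := x - algebraMap K F (evalAt p x))
        (c := evalAt v x - evalAt p x)
          (by rw [map_sub, sub_sub_sub_cancel_right]; exact evalAt_spec hv),
      inv_mul_cancel₀ (sub_ne_zero.mpr (hPval p hp).1.symm), one_pow]
  · rw [evalAt_mul (hgT w hwT) (hq w hw),
      evalAt_eq (f := g) (c := 0) (by
        have := hg w hwT
        rw [if_neg hne.symm] at this
        simpa using this), zero_mul]

/-- Points of the affine curve are the finite places of `x`. -/
theorem existsUnique_place_of_algHom {x : F} (hx : Transcendental K x)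
    (φ : intClosure K x →ₐ[K] K) :
    ∃! v : Place K F, OrdGE v x 0 ∧ ∀ r : intClosure K x, evalAt v (r : F) = φ r := by
  set x' : intClosure K x := ⟨x, self_mem_intClosure x⟩
  set r₀ : intClosure K x := x' - algebraMap K _ (φ x')
  have hr₀ : r₀ ∈ RingHom.ker φ := by simp [r₀, RingHom.mem_ker]
  have hr₀0 : r₀ ≠ 0 := fun h => hx (by
    have h' : x = algebraMap K F (φ x') := congrArg Subtype.val (sub_eq_zero.mp h)
    rw [h']
    exact isAlgebraic_algebraMap (φ x'))
  obtain ⟨v, hreg, hI⟩ := exists_place_center (intClosure K x) (RingHom.ker φ)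
    (RingHom.ker_ne_top φ) hr₀ hr₀0
  refine ⟨v, ⟨hreg x', fun r => evalAt_eq ?_⟩, ?_⟩
  · have hmem : r - algebraMap K _ (φ r) ∈ RingHom.ker φ := by simp [RingHom.mem_ker]
    exact hI _ hmem
  · rintro w ⟨hw, hwφ⟩
    by_contra hne
    obtain ⟨r, hr, hr1, hr0⟩ := exists_separating_integral hx (hreg x') hw (Ne.symm hne)
    have h1 := hwφ ⟨r, hr⟩
    have h2 : evalAt v r = φ ⟨r, hr⟩ := evalAt_eq (by
      have hmem : (⟨r, hr⟩ : intClosure K x) - algebraMap K _ (φ ⟨r, hr⟩) ∈ RingHom.ker φ := by
        simp [RingHom.mem_ker]
      exact hI _ hmem)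
    simp only at h1
    rw [hr0] at h1
    rw [hr1, ← h1] at h2
    exact one_ne_zero h2

omit [IsAlgClosed K] [IsFunctionField K F] in
/-- `K[x]` is a principal ideal ring. -/
theorem isPrincipalIdealRing_adjoin (x : F) : IsPrincipalIdealRing (Algebra.adjoin K {x}) :=
  IsPrincipalIdealRing.of_surjective
    ((Polynomial.aeval (⟨x, Algebra.self_mem_adjoin_singleton K x⟩ : Algebra.adjoin K
      {x})).toRingHom)
    fun a => by
      obtain ⟨p, hp⟩ := (AlgHom.mem_range _).mp
        ((Algebra.adjoin_singleton_eq_range_aeval K x).le a.2)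
      exact ⟨p, Subtype.ext (by
        rw [← hp]
        exact (Polynomial.aeval_algHom_apply (Algebra.adjoin K {x}).val
          (⟨x, Algebra.self_mem_adjoin_singleton K x⟩ : Algebra.adjoin K {x}) p).symm)⟩

end Fermat.FF

end
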