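import Fermat.Agent.FF.Degree
import Fermat.Prelude.Def_AlgebraicCurve_Repartitions

/-!
# Riemann-Roch spaces and the Riemann-Roch theorem

The main results are `riemann_roch`, in terms of `h1`, and `riemann_inequality`.
-/

set_option autoImplicit false

noncomputable section

open AlgebraicCurve IntermediateField

namespace Fermat.FF

variable {K F : Type*} [Field K] [Field F] [Algebra K F]

/-- `h¹(D)`, the dimension of the quotient of the repartitions by those of `D` and the principal
ones. -/
def h1 (D : Divisor K F) : ℕ := Module.finrank K (H1 D)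

/-- `h¹(0)` is by definition the genus. -/
theorem h1_zero : h1 (0 : Divisor K F) = genusFF K F := rfl

variable [IsAlgClosed K] [IsFunctionField K F]

/-- An effective divisor has nonnegative degree. -/
theorem degree_nonneg {D : Divisor K F} (h : 0 ≤ D) : 0 ≤ Divisor.degree D := by
  rw [degree_eq_sum]
  exact Finset.sum_nonneg fun v _ => Finsupp.le_def.mp h v

/-- The degree is monotone. -/
theorem degree_mono {D E : Divisor K F} (h : D ≤ E) : Divisor.degree D ≤ Divisor.degree E := by
  have := degree_nonneg (sub_nonneg.mpr h)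
  rw [map_sub] at this
  omega

/-- An effective divisor of degree zero is zero. -/
theorem eq_zero_of_nonneg_of_degree {D : Divisor K F} (h : 0 ≤ D) (hd : Divisor.degree D = 0) :
    D = 0 := by
  rw [degree_eq_sum] at hd
  ext v
  by_contra hv
  exact hv ((Finset.sum_eq_zero_iff_of_nonneg fun w _ => Finsupp.le_def.mp h w).mp hd v
    (Finsupp.mem_support_iff.mpr hv))

/-- `D + (f)` is effective iff `f` is a section of `D`. -/
theorem nonneg_add_divOf_iff {D : Divisor K F} {f : F} (hf : f ≠ 0) :
    0 ≤ D + divOf K f ↔ f ∈ riemannRochSpace D := by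
  rw [Finsupp.le_def, mem_riemannRochSpace]
  simp only [Finsupp.coe_zero, Pi.zero_apply, Finsupp.add_apply, divOf_apply, ordGE_iff_of_ne hf]
  exact forall_congr' fun v => by omega

/-- If `ℓ(D) ≠ 0`, some `D + (f)` is effective. -/
theorem exists_effective_of_ell_ne_zero {D : Divisor K F} (h : ell D ≠ 0) :
    ∃ f : F, f ≠ 0 ∧ 0 ≤ D + divOf K f := by
  obtain ⟨f, hf⟩ : ∃ f : riemannRochSpace D, f ≠ 0 := by
    by_contra hall
    push Not at hall
    have : Subsingleton (riemannRochSpace D) := ⟨fun a b => by rw [hall a, hall b]⟩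
    exact h Module.finrank_zero_of_subsingleton
  exact ⟨f, by simpa using hf, (nonneg_add_divOf_iff (by simpa using hf)).mpr f.2⟩

/-- A divisor of negative degree has no nonzero section. -/
theorem ell_eq_zero_of_degree_neg {D : Divisor K F} (h : Divisor.degree D < 0) : ell D = 0 := by
  by_contra hne
  obtain ⟨f, -, hf⟩ := exists_effective_of_ell_ne_zero hne
  have := degree_nonneg hf
  rw [map_add, degree_divOf] at this
  omega

/-- `ℓ` is invariant under linear equivalence. -/
theorem ell_add_divOf (D : Divisor K F) {f : F} (hf : f ≠ 0) : ell (D + divOf K f) = ell D := by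
  have key : ∀ (D : Divisor K F) {f : F}, f ≠ 0 → ell (D + divOf K f) ≤ ell D := by
    intro D f hf
    let φ : riemannRochSpace (D + divOf K f) →ₗ[K] riemannRochSpace D :=
      ((LinearMap.mulRight K f).domRestrict _).codRestrict _ fun h => by
        rw [mem_riemannRochSpace]
        intro v
        refine ((mem_riemannRochSpace.mp h.2 v).mul (ordGE_ord v f)).mono ?_
        simp
    exact LinearMap.finrank_le_finrank_of_injective (f := φ) fun a b hab =>
      Subtype.ext (mul_right_cancel₀ hf (congrArg Subtype.val hab : _))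
  refine le_antisymm (key D hf) ?_
  have := key (D + divOf K f) (inv_ne_zero hf)
  rwa [divOf_inv, add_neg_cancel_right] at this

/-- `ℓ(D) ≤ deg D + 1` in nonnegative degree. -/
theorem ell_le_degree_add_one {D : Divisor K F} (h : 0 ≤ Divisor.degree D) :
    (ell D : ℤ) ≤ Divisor.degree D + 1 := by
  by_cases hne : ell D = 0
  · omega
  obtain ⟨f, hf0, hf⟩ := exists_effective_of_ell_ne_zero hne
  have := ell_le_of_nonneg hf
  rw [ell_add_divOf D hf0, map_add, degree_divOf, add_zero] at this
  exact this

/-- A divisor of degree zero with a nonzero section is principal. -/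
theorem ell_eq_one_of_degree_zero {D : Divisor K F} (h : Divisor.degree D = 0) (hl : ell D ≠ 0) :
    ∃ f : F, f ≠ 0 ∧ D = divOf K f := by
  obtain ⟨f, hf0, hf⟩ := exists_effective_of_ell_ne_zero hl
  refine ⟨f⁻¹, inv_ne_zero hf0, ?_⟩
  have := eq_zero_of_nonneg_of_degree hf (by rw [map_add, h, degree_divOf, add_zero])
  rw [divOf_inv]
  exact eq_neg_of_add_eq_zero_left this

/-- An effective divisor is a finite sum of points, repetitions allowed. -/
theorem exists_nat_single_sum (D : Divisor K F) (h : 0 ≤ D) :
    ∃ m : Multiset (Place K F), (m.map fun v => Finsupp.single v (1 : ℤ)).sum = D := by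
  obtain ⟨m, hm, hdeg⟩ := exists_multiset D
  refine ⟨m, sub_eq_zero.mp (eq_zero_of_nonneg_of_degree
    (sub_nonneg.mpr (Finsupp.le_def.mpr hm)) ?_)⟩
  rw [map_sub, ← hdeg h, map_multiset_sum, Multiset.map_map]
  simp

/-- Adding an effective `E` raises `ℓ` by at most `deg E`. -/
theorem ell_add_le (D : Divisor K F) {E : Divisor K F} (h : 0 ≤ E) :
    (ell (D + E) : ℤ) ≤ ell D + Divisor.degree E := by
  obtain ⟨m, rfl⟩ := exists_nat_single_sum E h
  clear h
  induction m using Multiset.induction with
  | empty => simp
  | cons a m ih =>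
    rw [Multiset.map_cons, Multiset.sum_cons, add_comm (Finsupp.single a 1), ← add_assoc]
    have h2 := (finrank_riemannRochSpace_add_single
      (D + (m.map fun v => Finsupp.single v (1 : ℤ)).sum) a).2
    rw [map_add, Divisor.degree_single, deg_eq_one]
    push_cast
    omega

/-- A repartition has finitely many poles. -/
theorem repartition_finite (α : ↥(repartitions K F)) :
    {v : Place K F | v.ord ((α : Place K F → F) v) < 0}.Finite := by
  obtain ⟨α, hα⟩ := α
  change {v : Place K F | v.ord (α v) < 0}.Finite
  -- sums and products only have poles at those of their arguments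
  induction hα using Algebra.adjoin_induction with
  | mem a ha =>
    exact ha.subset fun v hv => v.not_adicValuation_le_one_iff.mpr hv
  | algebraMap f =>
    exact (finite_setOf_ord_ne_zero (K := K) f).subset fun v hv => by
      simp only [Set.mem_ofPred_eq, Pi.algebraMap_apply, Algebra.algebraMap_self,
        RingHom.id_apply] at hv ⊢
      omega
  | add a b _ _ ha hb =>
    refine (ha.union hb).subset fun v hv => ?_
    by_contra h
    simp only [Set.mem_union, Set.mem_ofPred_eq, not_or, not_lt] at h
    have := (ordGE_iff.mpr (.inr h.1) : OrdGE v (a v) 0).add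
      (ordGE_iff.mpr (.inr h.2) : OrdGE v (b v) 0)
    simp only [Set.mem_ofPred_eq, Pi.add_apply] at hv
    rcases ordGE_iff.mp this with h0 | h0
    · simp [h0] at hv
    · omega
  | mul a b _ _ ha hb =>
    refine (ha.union hb).subset fun v hv => ?_
    by_contra h
    simp only [Set.mem_union, Set.mem_ofPred_eq, not_or, not_lt] at h
    have := (ordGE_iff.mpr (.inr h.1) : OrdGE v (a v) 0).mul
      (ordGE_iff.mpr (.inr h.2) : OrdGE v (b v) 0)
    simp only [Set.mem_ofPred_eq, Pi.mul_apply] at hv
    rcases ordGE_iff.mp this with h0 | h0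
    · simp [h0] at hv
    · omega

omit [IsAlgClosed K] [IsFunctionField K F] in
/-- `α` lies in the repartitions of `D` iff each component has order at least `-D v`. -/
theorem mem_repartitionsOf {D : Divisor K F} {α : ↥(repartitions K F)} :
    α ∈ repartitionsOf D ↔ ∀ v : Place K F, OrdGE v ((α : Place K F → F) v) (-D v) := by
  rw [mem_repartitionsOf_iff]
  simp only [ordGE_iff]

/-- The natural surjection `H¹(D) → H¹(E)` for `D ≤ E`. -/
def h1Map {D E : Divisor K F} (h : D ≤ E) : H1 D →ₗ[K] H1 E :=
  Submodule.factor (sup_le_sup_right (repartitionsOf_mono h) _)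

omit [IsAlgClosed K] [IsFunctionField K F] in
/-- `h1Map` sends the class of a repartition to its class. -/
theorem h1Map_mk {D E : Divisor K F} (h : D ≤ E) (α : ↥(repartitions K F)) :
    h1Map h (Submodule.Quotient.mk α) = Submodule.Quotient.mk α := rfl

omit [IsAlgClosed K] [IsFunctionField K F] in
/-- `h1Map` is surjective. -/
theorem h1Map_surjective {D E : Divisor K F} (h : D ≤ E) : Function.Surjective (h1Map h) := by
  intro x
  obtain ⟨α, rfl⟩ := Submodule.Quotient.mk_surjective _ x
  exact ⟨Submodule.Quotient.mk α, h1Map_mk h α⟩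

/-- A section of `D + v` is congruent at `v` to a multiple of a function of exact order. -/
private theorem exists_smul_congr {D : Divisor K F} {v : Place K F} {t : F} (ht0 : t ≠ 0)
    (ht : v.ord t = -(D + Finsupp.single v 1 : Divisor K F) v)
    {a : F} (ha : OrdGE v a (-(D + Finsupp.single v 1 : Divisor K F) v)) :
    ∃ c : K, OrdGE v (a - c • t) (-D v) := by
  classical
  set E := D + Finsupp.single v 1 with hE
  have hEv : E v = D v + 1 := by simp [hE]
  obtain ⟨c, hc⟩ := exists_value (v := v) (f := a / t) (by
    rw [div_eq_mul_inv]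
    exact (ha.mul (ordGE_ord v t⁻¹)).mono (by rw [v.ord_inv, ht]; omega))
  refine ⟨c, ?_⟩
  have := (hc.mul (ordGE_ord v t)).mono (m := -D v) (by rw [ht]; omega)
  rwa [sub_mul, div_mul_cancel₀ a ht0, ← Algebra.smul_def] at this

/-- The kernel of `H¹(D) → H¹(D + v)` is spanned by the class of a simple repartition at `v`. -/
private theorem ker_h1Map {D : Divisor K F} {v : Place K F} {t : F} (ht0 : t ≠ 0)
    (ht : v.ord t = -(D + Finsupp.single v 1 : Divisor K F) v)
    {β : ↥(repartitions K F)} (hβv : (β : Place K F → F) v = t)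
    (hβw : ∀ w ≠ v, (β : Place K F → F) w = 0)
    (hβE : β ∈ repartitionsOf (D + Finsupp.single v 1)) (hle : D ≤ D + Finsupp.single v 1) :
    LinearMap.ker (h1Map hle) = Submodule.span K {Submodule.Quotient.mk β} := by
  classical
  set E := D + Finsupp.single v 1 with hE
  have hEv : E v = D v + 1 := by simp [hE]
  have hEw : ∀ w ≠ v, E w = D w := fun w hw => by simp [hE, Finsupp.single_eq_of_ne hw]
  have hval := fun a => exists_smul_congr (a := a) ht0 ht
  set φ := h1Map hle with hφ
  -- up to a principal part, a kernel element is a multiple of `β`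
  refine le_antisymm (fun x hx => ?_) ?_
  · obtain ⟨α, rfl⟩ := Submodule.Quotient.mk_surjective _ x
    rw [LinearMap.mem_ker, hφ, h1Map_mk, Submodule.Quotient.mk_eq_zero, Submodule.mem_sup] at hx
    obtain ⟨a, ha, b, hb, hab⟩ := hx
    obtain ⟨c, hc⟩ := hval _ (mem_repartitionsOf.mp ha v)
    rw [Submodule.mem_span_singleton]
    refine ⟨c, ?_⟩
    rw [← Submodule.Quotient.mk_smul, Submodule.Quotient.eq]
    rw [show c • β - α = (c • β - a) + (-b) by rw [← hab]; abel]
    refine Submodule.add_mem_sup ?_ (neg_mem hb)
    rw [mem_repartitionsOf]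
    intro w
    change OrdGE w (c • (β : Place K F → F) w - (a : Place K F → F) w) _
    rcases eq_or_ne w v with rfl | hw
    · simp only [hβv]
      rw [← neg_sub]
      exact hc.neg
    · simp only [hβw w hw, smul_zero, zero_sub]
      exact ((mem_repartitionsOf.mp ha w).mono (by rw [hEw w hw])).neg
  · rw [Submodule.span_le, Set.singleton_subset_iff, SetLike.mem_coe, LinearMap.mem_ker, hφ,
      h1Map_mk, Submodule.Quotient.mk_eq_zero]
    exact Submodule.mem_sup_left hβE

/-- The class of a simple repartition at `v` vanishes when some section of `D + v` is not one of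
`D`. -/
private theorem mk_eq_zero_iff {D : Divisor K F} {v : Place K F} {t : F} (ht0 : t ≠ 0)
    (ht : v.ord t = -(D + Finsupp.single v 1 : Divisor K F) v)
    {β : ↥(repartitions K F)} (hβv : (β : Place K F → F) v = t)
    (hβw : ∀ w ≠ v, (β : Place K F → F) w = 0)
    (hβE : β ∈ repartitionsOf (D + Finsupp.single v 1)) :
    (Submodule.Quotient.mk β : H1 D) = 0 ↔
      ∃ f ∈ riemannRochSpace (D + Finsupp.single v 1), f ∉ riemannRochSpace D := by
  classical
  set E := D + Finsupp.single v 1 with hE
  have hEv : E v = D v + 1 := by simp [hE]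
  have hEw : ∀ w ≠ v, E w = D w := fun w hw => by simp [hE, Finsupp.single_eq_of_ne hw]
  have hval := fun a => exists_smul_congr (a := a) ht0 ht
  rw [Submodule.Quotient.mk_eq_zero, Submodule.mem_sup]
  -- a principal repartition congruent to `β` is such a section, and conversely after scaling
  constructor
  · rintro ⟨a, ha, b, hb, hab⟩
    obtain ⟨f, hf⟩ := mem_principalRepartitions_iff.mp hb
    have hab' : ∀ w, (a : Place K F → F) w + f = (β : Place K F → F) w := fun w => by
      have h := congrArg (fun z : ↥(repartitions K F) => (z : Place K F → F) w) hab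
      simp only [AddMemClass.coe_add, Pi.add_apply, congrFun hf w] at h
      exact h
    have haw := mem_repartitionsOf.mp ha
    refine ⟨f, mem_riemannRochSpace.mpr fun w => ?_, fun hfD => ?_⟩
    · rw [show f = (β : Place K F → F) w - (a : Place K F → F) w by rw [← hab']; ring]
      exact (mem_repartitionsOf.mp hβE w).sub ((haw w).mono (by
        rcases eq_or_ne w v with rfl | hw
        · omega
        · rw [hEw w hw]))
    · have h := (haw v).add (mem_riemannRochSpace.mp hfD v)
      rw [hab' v] at h
      simp only [hβv] at h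
      have := h.le_ord ht0
      omega
  · rintro ⟨f, hfE, hfD⟩
    obtain ⟨c, hc⟩ := hval f (mem_riemannRochSpace.mp hfE v)
    have hc0 : c ≠ 0 := fun h => hfD (mem_riemannRochSpace.mpr fun w => by
      rcases eq_or_ne w v with rfl | hw
      · simpa [h] using hc
      · exact (mem_riemannRochSpace.mp hfE w).mono (by rw [hEw w hw]))
    let b : ↥(repartitions K F) := algebraMap F ↥(repartitions K F) (c⁻¹ • f)
    refine ⟨β - b, ?_, b, mem_principalRepartitions_iff.mpr ⟨c⁻¹ • f, rfl⟩, sub_add_cancel _ _⟩
    rw [mem_repartitionsOf]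
    intro w
    change OrdGE w ((β : Place K F → F) w - c⁻¹ • f) _
    rcases eq_or_ne w v with rfl | hw
    · simp only [hβv]
      have := (hc.smul c⁻¹).neg
      rwa [smul_sub, smul_smul, inv_mul_cancel₀ hc0, one_smul, neg_sub] at this
    · simp only [hβw w hw, zero_sub]
      exact (((mem_riemannRochSpace.mp hfE w).mono (by rw [hEw w hw])).smul c⁻¹).neg

/-- Adding one point to `D` preserves finiteness of `H¹`, raises `ℓ - h¹` by one, and keeps `H¹`
when it raises `ℓ`. -/
theorem h1_step (D : Divisor K F) (v : Place K F) (hle : D ≤ D + Finsupp.single v 1) :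
    (FiniteDimensional K (H1 D) ↔ FiniteDimensional K (H1 (D + Finsupp.single v 1))) ∧
    (FiniteDimensional K (H1 D) → (ell (D + Finsupp.single v 1) : ℤ) - h1 (D + Finsupp.single v 1)
        = ell D - h1 D + 1) ∧
    (ell (D + Finsupp.single v 1) = ell D + 1 → Function.Injective (h1Map hle)) := by
  classical
  set E := D + Finsupp.single v 1 with hE
  have hEv : E v = D v + 1 := by simp [hE]
  have hEw : ∀ w ≠ v, E w = D w := fun w hw => by simp [hE, Finsupp.single_eq_of_ne hw]
  obtain ⟨t, ht0, ht⟩ := exists_ord_eq v (-E v)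
  let β₀ : Place K F → F := Pi.single v t
  have hβ₀ : β₀ ∈ repartitions K F := mem_repartitions_of_finite_ord <|
    (Set.finite_singleton v).subset fun w hw => by
      by_contra h
      simp only [Set.mem_ofPred_eq, β₀, Pi.single_eq_of_ne (show w ≠ v from h),
          Place.ord_zero] at hw
      omega
  let β : ↥(repartitions K F) := ⟨β₀, hβ₀⟩
  have hβE : β ∈ repartitionsOf E := by
    rw [mem_repartitionsOf]
    intro w
    rcases eq_or_ne w v with rfl | hw
    · change OrdGE w (β₀ w) _
      simp only [β₀, Pi.single_eq_same]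
      exact (ordGE_ord w t).mono ht.ge
    · change OrdGE w (β₀ w) _
      simp only [β₀, Pi.single_eq_of_ne hw]
      exact ordGE_zero _ _
  have hβv : (β : Place K F → F) v = t := by simp [β, β₀]
  have hβw : ∀ w ≠ v, (β : Place K F → F) w = 0 := fun w hw => by simp [β, β₀, hw]
  set φ := h1Map hle with hφ
  have hker : LinearMap.ker φ = Submodule.span K {Submodule.Quotient.mk β} :=
    ker_h1Map ht0 ht hβv hβw hβE hle
  have hzero := mk_eq_zero_iff ht0 ht hβv hβw hβE
  have hsurj := h1Map_surjective hle
  have hkfin : FiniteDimensional K (LinearMap.ker φ) := by rw [hker]; infer_instance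
  have hup := (finrank_riemannRochSpace_add_single D v).2
  have hlow := ell_mono (hle)
  refine ⟨⟨fun h => Module.Finite.of_surjective φ hsurj, fun h => ?_⟩, fun hfin => ?_,
    fun heq => ?_⟩
  · have : FiniteDimensional K (H1 D ⧸ LinearMap.ker φ) :=
      Module.Finite.equiv (φ.quotKerEquivOfSurjective hsurj).symm
    exact Module.Finite.of_submodule_quotient (LinearMap.ker φ)
  -- the kernel is zero or a line, according as `ℓ` grows or not
  · have hrn := φ.finrank_range_add_finrank_ker
    rw [LinearMap.range_eq_top.mpr hsurj, finrank_top, hker] at hrn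
    change h1 E + _ = h1 D at hrn
    by_cases h0 : (Submodule.Quotient.mk β : H1 D) = 0
    · rw [h0, Submodule.span_zero_singleton, finrank_bot] at hrn
      obtain ⟨f, hfE, hfD⟩ := hzero.mp h0
      have hlt : ell D < ell E := Submodule.finrank_lt_finrank_of_lt
        (lt_of_le_of_ne (riemannRochSpace_mono hle) fun h => hfD (h ▸ hfE))
      simp only [hE] at *
      omega
    · rw [finrank_span_singleton h0] at hrn
      have heq : riemannRochSpace E = riemannRochSpace D :=
        le_antisymm (fun f hf => by_contra fun hfD => h0 (hzero.mpr ⟨f, hf, hfD⟩))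
          (riemannRochSpace_mono hle)
      have : ell E = ell D := (LinearEquiv.ofEq _ _ heq).finrank_eq
      simp only [hE] at *
      omega
  · rw [← LinearMap.ker_eq_bot, hker, Submodule.span_singleton_eq_bot, hzero]
    by_contra hne
    push Not at hne
    have : ell E ≤ ell D := Submodule.finrank_mono hne
    simp only [hE] at *
    omega

/-- `deg D - ℓ(D)` is bounded above. -/
theorem exists_bound (K F : Type*) [Field K] [Field F] [Algebra K F] [IsAlgClosed K]
    [IsFunctionField K F] : ∃ b : ℤ, ∀ D : Divisor K F, Divisor.degree D - ell D ≤ b := by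
  obtain ⟨x, hx, -, -⟩ := IsFunctionField.exists_separating (K := K) (F := F)
  set A := zeroDiv K x with hA
  obtain ⟨C, hC0, hC⟩ := exists_ell_ge hx (A := A) (fun v => by simp [hA])
  have := finiteDimensional_adjoin hx
  set n := Module.finrank K⟮x⟯ F with hn
  have hnpos : 0 < n := Module.finrank_pos
  refine ⟨Divisor.degree C - n, fun D => ?_⟩
  classical
  let P : Divisor K F := D.mapRange (fun n => max n 0) (by simp)
  have hP0 : 0 ≤ P := Finsupp.le_def.mpr fun v => by simp [P]
  have hDP : D ≤ P := Finsupp.le_def.mpr fun v => by simp [P]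
  -- a multiple of the zero divisor of `x` plus `C` has a section vanishing on the positive part `P`
  set k := (Divisor.degree P).toNat with hk
  set M := k • A + C with hM
  have hMdeg : Divisor.degree M = k * n + Divisor.degree C := by
    rw [hM, map_add, map_nsmul, hA, degree_zeroDiv hx, nsmul_eq_mul, hn]
  have hnk : n * (k + 1) ≤ ell M := hC k
  have hkn : (k : ℤ) + 1 ≤ ((n * (k + 1) : ℕ) : ℤ) := by
    have : 1 * (k + 1) ≤ n * (k + 1) := Nat.mul_le_mul_right _ hnpos
    omega
  have hne : ell (M - P) ≠ 0 := by
    intro h0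
    have := ell_add_le (M - P) hP0
    rw [sub_add_cancel, h0] at this
    have := degree_nonneg hP0
    omega
  obtain ⟨f, hf0, hf⟩ := exists_effective_of_ell_ne_zero hne
  set D' := D + divOf K f⁻¹ with hD'
  have hle : D' ≤ M := by
    refine Finsupp.le_def.mpr fun v => ?_
    have h1 := Finsupp.le_def.mp hf v
    have h2 := Finsupp.le_def.mp hDP v
    simp only [hD', Finsupp.coe_zero, Pi.zero_apply, Finsupp.add_apply, Finsupp.sub_apply,
      divOf_apply, Place.ord_inv] at h1 ⊢
    omega
  have h1 := ell_add_le D' (sub_nonneg.mpr hle)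
  rw [add_sub_cancel, map_sub, hD', ell_add_divOf D (inv_ne_zero hf0), map_add Divisor.degree D,
    degree_divOf] at h1
  have h2 : ((n * (k + 1) : ℕ) : ℤ) = k * n + n := by push_cast; ring
  omega

/-- Some divisor has vanishing `H¹`: any one maximising `deg D - ℓ(D)`. -/
theorem exists_h1_eq_zero (K F : Type*) [Field K] [Field F] [Algebra K F] [IsAlgClosed K]
    [IsFunctionField K F] : ∃ D : Divisor K F, Subsingleton (H1 D) := by
  classical
  obtain ⟨b, hb⟩ := exists_bound K F
  obtain ⟨m, ⟨D₀, rfl⟩, hmax⟩ := Int.exists_greatest_of_bdd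
    (P := fun z => ∃ D : Divisor K F, Divisor.degree D - ell D = z)
    ⟨b, fun z ⟨D, hD⟩ => hD ▸ hb D⟩ ⟨_, 0, rfl⟩
  refine ⟨D₀, subsingleton_of_forall_eq 0 fun x => ?_⟩
  obtain ⟨α, rfl⟩ := Submodule.Quotient.mk_surjective _ x
  let E : Divisor K F := Finsupp.onFinset (D₀.support ∪ (repartition_finite α).toFinset)
    (fun v => max (D₀ v) (-v.ord ((α : Place K F → F) v))) (fun v hv => by
      simp only [Finset.mem_union, Finsupp.mem_support_iff, Set.Finite.mem_toFinset,
        Set.mem_ofPred_eq]
      omega)
  have hDE : D₀ ≤ E := Finsupp.le_def.mpr fun v => by simp [E]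
  have hαE : α ∈ repartitionsOf E := mem_repartitionsOf.mpr fun v =>
    (ordGE_ord v _).mono (by simp only [E, Finsupp.onFinset_apply]; omega)
  obtain ⟨m, hm⟩ := exists_nat_single_sum (E - D₀) (sub_nonneg.mpr hDE)
  -- add the points of `E - D₀` one at a time, each step raising `ℓ` by maximality
  suffices key : ∀ m : Multiset (Place K F), ∀ γ : ↥(repartitions K F),
      γ ∈ repartitionsOf (D₀ + (m.map fun v => Finsupp.single v (1 : ℤ)).sum) →
      (Submodule.Quotient.mk γ : H1 D₀) = 0 from
    key m α (by rwa [hm, add_sub_cancel])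
  clear hαE hDE hm
  intro m
  induction m using Multiset.induction with
  | empty =>
    intro γ hγ
    rw [Submodule.Quotient.mk_eq_zero]
    simp only [Multiset.map_zero, Multiset.sum_zero, add_zero] at hγ
    exact Submodule.mem_sup_left hγ
  | cons a m ih =>
    intro γ hγ
    let S : Divisor K F := (m.map fun v => Finsupp.single v (1 : ℤ)).sum
    have hS0 : (0 : Divisor K F) ≤ S := Multiset.sum_nonneg fun z hz => by
      obtain ⟨w, -, rfl⟩ := Multiset.mem_map.mp hz; simp
    have hle : D₀ + S ≤ D₀ + S + Finsupp.single a 1 := le_add_of_nonneg_right (by simp)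
    have hγ' : γ ∈ repartitionsOf (D₀ + S + Finsupp.single a 1) := by
      rw [Multiset.map_cons, Multiset.sum_cons, add_comm (Finsupp.single a 1), ← add_assoc] at hγ
      exact hγ
    have hup := (finrank_riemannRochSpace_add_single (D₀ + S) a).2
    have h1 : (ell (D₀ + S) : ℤ) ≤ ell D₀ + Divisor.degree S := ell_add_le D₀ hS0
    have h2 := hmax _ ⟨D₀ + S + Finsupp.single a 1, rfl⟩
    rw [map_add, Divisor.degree_single, deg_eq_one, map_add] at h2
    push_cast at h2
    have hinj := (h1_step (D₀ + S) a hle).2.2 (by omega)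
    have hmk : (Submodule.Quotient.mk γ : H1 (D₀ + S)) = 0 := hinj (by
      rw [h1Map_mk, map_zero, Submodule.Quotient.mk_eq_zero]
      exact Submodule.mem_sup_left hγ')
    rw [Submodule.Quotient.mk_eq_zero, Submodule.mem_sup] at hmk
    obtain ⟨u, hu, w, hw, huw⟩ := hmk
    have hu0 := ih u hu
    rw [Submodule.Quotient.mk_eq_zero] at hu0 ⊢
    rw [← huw]
    exact add_mem hu0 (Submodule.mem_sup_right hw)

/-- Riemann–Roch: `ℓ - h¹ - deg` is `1 - g` for every divisor. -/
theorem invariant (D : Divisor K F) :
    FiniteDimensional K (H1 D) ∧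
      (ell D : ℤ) - h1 D - Divisor.degree D = 1 - genusFF K F := by
  classical
  let c : Divisor K F → ℤ := fun D => (ell D : ℤ) - h1 D - Divisor.degree D
  let I : ℤ → Divisor K F → Prop := fun k D => FiniteDimensional K (H1 D) ∧ c D = k
  have step : ∀ k D v, I k D ↔ I k (D + Finsupp.single v 1) := fun k D v => by
    obtain ⟨h1, h2, -⟩ := h1_step D v (le_add_of_nonneg_right (by simp))
    have hd : Divisor.degree (D + Finsupp.single v 1) = Divisor.degree D + 1 := by
      rw [map_add, Divisor.degree_single, deg_eq_one]; simp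
    constructor
    · rintro ⟨hf, hc⟩
      refine ⟨h1.mp hf, ?_⟩
      have := h2 hf
      simp only [c] at hc ⊢
      omega
    · rintro ⟨hf, hc⟩
      refine ⟨h1.mpr hf, ?_⟩
      have := h2 (h1.mpr hf)
      simp only [c] at hc ⊢
      omega
  have transl : ∀ k E D, I k D ↔ I k (D + E) := by
    intro k E
    induction E using Finsupp.induction with
    | zero => simp
    | single_add a n E _ hn ih =>
      intro D
      rw [← add_assoc, ← ih]
      clear ih hn
      induction n using Int.induction_on generalizing D with
      | zero => simp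
      | succ i ih => rw [Finsupp.single_add, ← add_assoc, ← step, ← ih]
      | pred i ih =>
        rw [ih, step k (D + Finsupp.single a (-(i : ℤ) - 1)) a, add_assoc, ← Finsupp.single_add,
          sub_add_cancel]
  -- `ℓ - h¹ - deg` is unchanged by adding a point, so it is the same at `D` as at `0`
  obtain ⟨D₀, hD₀⟩ := exists_h1_eq_zero K F
  have hI : I (c D₀) D₀ := ⟨Module.Finite.of_finite, rfl⟩
  have hI0 := (transl (c D₀) (-D₀) D₀).mp hI
  rw [add_neg_cancel] at hI0
  have hID := (transl (c D₀) D 0).mp hI0
  rw [zero_add] at hID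
  have h0 := hI0.2
  have hD := hID.2
  simp only [c, ell_zero, h1_zero, map_zero] at h0 hD
  exact ⟨hID.1, by omega⟩

/-- `H¹(D)` is finite-dimensional. -/
instance instFiniteH1 (D : Divisor K F) : FiniteDimensional K (H1 D) := (invariant D).1

/-- Riemann-Roch, first form. -/
theorem riemann_roch (D : Divisor K F) :
    (ell D : ℤ) - h1 D = Divisor.degree D + 1 - genusFF K F := by
  have := (invariant D).2; omega

/-- Riemann's inequality `ℓ(D) ≥ deg D + 1 - g`. -/
theorem riemann_inequality (D : Divisor K F) :
    Divisor.degree D + 1 - genusFF K F ≤ ell D := by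
  have := riemann_roch D; omega

end Fermat.FF

end
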