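import Fermat.Agent.FF.LinearSystem
import Fermat.Agent.FF.Reciprocity
import Fermat.Agent.FF.Constructions
import Fermat.Agent.FF.IntegralClosure

/-!
# General theory of one-variable function fields: umbrella module

The differential side (`FF/Genus`) is imported separately by the files that use it, to keep the
parallel build short.
-/
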