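import Fermat.Agent.FF.Degree
import Fermat.Prelude.Def_AlgebraicCurve_Correspondence

/-!
# Finite maps of function fields: fundamental identity, trace and norm formulas

Embeddings are finite (`finiteAlong`); the formulas are `ord_norm` and `normFormulaAlong`.
-/

set_option autoImplicit false

noncomputable section

open AlgebraicCurve IntermediateField

namespace Fermat.FF

variable {K F F' : Type*} [Field K] [Field F] [Field F'] [Algebra K F] [Algebra K F']
  [IsAlgClosed K] [IsFunctionField K F] [IsFunctionField K F']

section Tower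

variable [Algebra F F'] [IsScalarTower K F F']

omit [IsAlgClosed K] [IsFunctionField K F] [IsFunctionField K F'] in
/-- The image of a transcendental element in a larger field is transcendental. -/
theorem transcendental_algebraMap_fieldHom {y : F} (hy : Transcendental K y) :
    Transcendental K (algebraMap F F' y) := fun h => hy <|
  (isAlgebraic_algebraMap_iff (algebraMap F F').injective).mp h

omit [IsAlgClosed K] [IsFunctionField K F] in
/-- For transcendental `y` the larger field is finite over `K(y)`, with the same degree as over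
its image. -/
theorem tower_data {y : F} (hy : Transcendental K y) :
    FiniteDimensional K⟮y⟯ F' ∧
      Module.finrank K⟮y⟯ F' = Module.finrank K⟮algebraMap F F' y⟯ F' := by
  have := finiteDimensional_adjoin (transcendental_algebraMap_fieldHom (F' := F') hy)
  let φ := IsScalarTower.toAlgHom K F F'
  have he : K⟮y⟯.map φ = K⟮algebraMap F F' y⟯ := by
    rw [adjoin_map, Set.image_singleton]; rfl
  let e : K⟮y⟯ ≃ₐ[K] K⟮algebraMap F F' y⟯ :=
    (K⟮y⟯.equivMap φ).trans (IntermediateField.equivOfEq he)
  have hcomm : ∀ c : K⟮y⟯, algebraMap K⟮algebraMap F F' y⟯ F' (e c) = algebraMap K⟮y⟯ F' c :=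
    fun c => rfl
  refine ⟨Module.Finite.of_equiv_equiv e.symm.toRingEquiv (RingEquiv.refl F') ?_,
    Algebra.finrank_eq_of_equiv_equiv e.toRingEquiv (RingEquiv.refl F') ?_⟩
  · ext c
    have := hcomm (e.symm c)
    rw [e.apply_symm_apply] at this
    simpa using this.symm
  · ext c
    simpa using hcomm c

omit [IsAlgClosed K] in
variable (K F F') in
include K in
/-- An extension of function fields over `K` is finite. -/
theorem finite_of_tower : Module.Finite F F' := by
  obtain ⟨x, hx, -, -⟩ := IsFunctionField.exists_separating (K := K) (F := F)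
  have := (tower_data (F' := F') hx).1
  exact Module.Finite.right K⟮x⟯ F F'

variable [Algebra.IsIntegral F F']

/-- Over an algebraically closed field all residue degrees are `1`. -/
theorem inertiaDeg_eq_one (w : Place K F') : w.inertiaDeg F = 1 := by
  have h := w.deg_restrict_mul_inertiaDeg (F := F)
  simpa using h

variable [FiniteDimensional F F']

/-- The fundamental identity: the ramification indices over a place sum to the degree. -/
theorem sum_ramificationIndex (v : Place K F) :
    ∑ w ∈ v.fiber F', w.ramificationIndex F = Module.finrank F F' := by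
  classical
  obtain ⟨y, hy0, hy⟩ := exists_ord_eq_one v
  have hyt : Transcendental K y := transcendental_of_ord_ne_zero (v := v) (by omega)
  have hy't := transcendental_algebraMap_fieldHom (F' := F') hyt
  set d := Module.finrank F F' with hd
  have hmaps : ∀ w ∈ (finite_setOf_ord_pos hy't).toFinset,
      w.restrict F ∈ (finite_setOf_ord_pos hyt).toFinset := by
    intro w hw
    simp only [Set.Finite.mem_toFinset, Set.mem_ofPred_eq] at hw ⊢
    rw [w.ord_restrict] at hw
    by_contra hle
    have : (0 : ℤ) ≤ w.ramificationIndex F := Int.natCast_nonneg _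
    nlinarith
  have hfib : ∀ u ∈ (finite_setOf_ord_pos hyt).toFinset,
      ∑ w ∈ (finite_setOf_ord_pos hy't).toFinset with w.restrict F = u, w.ord (algebraMap F F' y)
        = (∑ w ∈ u.fiber F', (w.ramificationIndex F : ℤ)) * u.ord y := by
    intro u hu
    simp only [Set.Finite.mem_toFinset, Set.mem_ofPred_eq] at hu
    rw [Finset.sum_mul]
    refine Finset.sum_congr ?_ fun w hw => by rw [w.ord_restrict, Place.mem_fiber.mp hw]
    ext w
    simp only [Finset.mem_filter, Set.Finite.mem_toFinset, Set.mem_ofPred_eq, Place.mem_fiber]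
    refine ⟨fun h => h.2, fun h => ⟨?_, h⟩⟩
    rw [w.ord_restrict, h]
    exact mul_pos (Int.natCast_pos.mpr w.ramificationIndex_pos) hu
  -- count the zeros of `y` upstairs and downstairs
  have htot := sum_zeros_eq hy't
  rw [← (tower_data hyt).2, ← Finset.sum_fiberwise_of_maps_to hmaps,
    Finset.sum_congr rfl hfib] at htot
  have := finiteDimensional_adjoin hyt
  have hN : (Module.finrank K⟮y⟯ F' : ℤ) = (Module.finrank K⟮y⟯ F : ℤ) * d := by
    rw [hd]; exact_mod_cast (Module.finrank_mul_finrank K⟮y⟯ F F').symm
  rw [hN, ← sum_zeros_eq hyt, Finset.sum_mul] at htot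
  -- each fibre sum is at most the degree, and the weighted sum is the degree
  have hle : ∀ u : Place K F, ∑ w ∈ u.fiber F', (w.ramificationIndex F : ℤ) ≤ d := fun u => by
    obtain ⟨z, hz⟩ := exists_localFamily (F := F) (u.fiber F')
    exact_mod_cast hz.sum_le_finrank (v := u) fun w hw => Place.mem_fiber.mp hw
  have hzero : ∑ u ∈ (finite_setOf_ord_pos hyt).toFinset,
      ((d : ℤ) - ∑ w ∈ u.fiber F', (w.ramificationIndex F : ℤ)) * u.ord y = 0 := by
    simp_rw [sub_mul]
    rw [Finset.sum_sub_distrib, htot, sub_eq_zero]
    exact Finset.sum_congr rfl fun u _ => mul_comm _ _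
  have hv : v ∈ (finite_setOf_ord_pos hyt).toFinset := by simp [hy]
  have hterm := (Finset.sum_eq_zero_iff_of_nonneg fun u hu => by
    simp only [Set.Finite.mem_toFinset, Set.mem_ofPred_eq] at hu
    exact mul_nonneg (sub_nonneg.mpr (hle u)) hu.le).mp hzero v hv
  rw [hy, mul_one, sub_eq_zero] at hterm
  exact_mod_cast hterm.symm

/-- Every place extends to the larger field. -/
theorem exists_restrict_eq (v : Place K F) : ∃ w : Place K F', w.restrict F = v := by
  by_contra h
  push Not at h
  have hs := sum_ramificationIndex (F' := F') v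
  rw [Finset.sum_eq_zero fun w hw => absurd (Place.mem_fiber.mp hw) (h w)] at hs
  exact (Module.finrank_pos (R := F) (M := F')).ne' hs.symm

/-- Ramification indices times inertia degrees, over each place, sum to the degree. -/
instance (priority := 100) instSumRamificationInertia : SumRamificationInertia K F F' where
  sum_ramificationIndex_mul_inertiaDeg v := by
    simp only [inertiaDeg_eq_one, Nat.cast_one, mul_one]
    exact_mod_cast sum_ramificationIndex v

/-- The trace of a function regular over `v` is regular at `v`, with value the sum of the values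
at the places above, weighted by ramification. -/
theorem trace_spec (v : Place K F) {z : F'} (hz : ∀ w ∈ v.fiber F', OrdGE w z 0) :
    OrdGE v (Algebra.trace F F' z) 0 ∧
      evalAt v (Algebra.trace F F' z) =
        ∑ w ∈ v.fiber F', (w.ramificationIndex F : K) * evalAt w z := by
  obtain ⟨b, hb⟩ := exists_localFamily (F := F) (v.fiber F')
  exact hb.ordGE_trace_and_eval (fun w hw => Place.mem_fiber.mp hw) (sum_ramificationIndex v) hz

/-- The norm of a function regular over `v` is regular at `v`, with value the product of the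
values at the places above, to the ramification powers. -/
theorem norm_spec (v : Place K F) {z : F'} (hz : ∀ w ∈ v.fiber F', OrdGE w z 0) :
    OrdGE v (Algebra.norm F z) 0 ∧
      evalAt v (Algebra.norm F z) =
        ∏ w ∈ v.fiber F', evalAt w z ^ w.ramificationIndex F := by
  obtain ⟨b, hb⟩ := exists_localFamily (F := F) (v.fiber F')
  exact hb.ordGE_norm_and_eval (fun w hw => Place.mem_fiber.mp hw) (sum_ramificationIndex v) hz

/-- Traces of functions regular over `v` are regular at `v`. -/
theorem ordGE_trace (v : Place K F) {z : F'} (hz : ∀ w ∈ v.fiber F', OrdGE w z 0) :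
    OrdGE v (Algebra.trace F F' z) 0 := (trace_spec v hz).1

/-- The value of a trace. -/
theorem evalAt_trace (v : Place K F) {z : F'} (hz : ∀ w ∈ v.fiber F', OrdGE w z 0) :
    evalAt v (Algebra.trace F F' z) =
      ∑ w ∈ v.fiber F', (w.ramificationIndex F : K) * evalAt w z := (trace_spec v hz).2

/-- Norms of functions regular over `v` are regular at `v`. -/
theorem ordGE_norm (v : Place K F) {z : F'} (hz : ∀ w ∈ v.fiber F', OrdGE w z 0) :
    OrdGE v (Algebra.norm F z) 0 := (norm_spec v hz).1

/-- The value of a norm. -/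
theorem evalAt_norm (v : Place K F) {z : F'} (hz : ∀ w ∈ v.fiber F', OrdGE w z 0) :
    evalAt v (Algebra.norm F z) =
      ∏ w ∈ v.fiber F', evalAt w z ^ w.ramificationIndex F := (norm_spec v hz).2

/-- The order of a norm is the sum of the orders over the place. -/
theorem ord_norm (v : Place K F) {z : F'} (hz : z ≠ 0) :
    v.ord (Algebra.norm F z) = ∑ w ∈ v.fiber F', w.ord z := by
  classical
  set T := v.fiber F' with hT
  have hN0 : ∀ {f : F'}, f ≠ 0 → Algebra.norm F f ≠ 0 := fun h => Algebra.norm_ne_zero_iff.mpr h
  -- units above `v`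
  have hunit : ∀ f : F', f ≠ 0 → (∀ w ∈ T, w.ord f = 0) → v.ord (Algebra.norm F f) = 0 := by
    intro f hf hord
    have hreg : ∀ w ∈ T, OrdGE w f 0 := fun w hw => ordGE_iff.mpr (.inr (hord w hw).ge)
    refine le_antisymm ?_ ((ordGE_norm v hreg).le_ord (hN0 hf))
    by_contra hlt
    have h0 : evalAt v (Algebra.norm F f) = 0 :=
      (evalAt_eq_zero_iff (ordGE_norm v hreg)).mpr (ordGE_iff.mpr (.inr (by omega)))
    rw [evalAt_norm v hreg, Finset.prod_eq_zero_iff] at h0
    obtain ⟨w, hw, hw0⟩ := h0
    have h1 := (evalAt_eq_zero_iff (hreg w hw)).mp (pow_eq_zero_iff'.mp hw0).1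
    have := h1.le_ord hf
    rw [hord w hw] at this
    omega
  choose π hπ0 hπ using fun u : Place K F' =>
    exists_ord_eq_on T (fun w => if w = u then (1 : ℤ) else 0)
  -- orders of products of powers of the `π`
  have hprod : ∀ (a : Place K F' → ℕ), ∀ w ∈ T, w.ord (∏ u ∈ T, π u ^ a u) = a w := by
    intro a w hw
    rw [ord_prod w T _ fun u _ => pow_ne_zero _ (hπ0 u)]
    simp only [ord_pow, hπ _ w hw, mul_ite, mul_one, mul_zero, Finset.sum_ite_eq, hw, if_true]
  have hprod0 : ∀ a : Place K F' → ℕ, ∏ u ∈ T, π u ^ a u ≠ 0 := fun a =>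
    Finset.prod_ne_zero_iff.mpr fun u _ => pow_ne_zero _ (hπ0 u)
  have hNprod : ∀ a : Place K F' → ℕ,
      v.ord (Algebra.norm F (∏ u ∈ T, π u ^ a u)) = ∑ u ∈ T,
      (a u : ℤ) * v.ord (Algebra.norm F (π u)) := by
    intro a
    rw [map_prod, ord_prod v T _ fun u _ => hN0 (pow_ne_zero _ (hπ0 u))]
    exact Finset.sum_congr rfl fun u _ => by rw [map_pow, ord_pow]
  have hone : ∀ u ∈ T, v.ord (Algebra.norm F (π u)) = 1 := by
    have hge : ∀ u ∈ T, 1 ≤ v.ord (Algebra.norm F (π u)) := by
      intro u hu
      have hreg : ∀ w ∈ T, OrdGE w (π u) 0 := fun w hw => ordGE_iff.mpr (.inr (by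
        rw [hπ u w hw]; split <;> norm_num))
      refine ((evalAt_eq_zero_iff (ordGE_norm v hreg)).mp ?_).le_ord (hN0 (hπ0 u))
      rw [evalAt_norm v hreg]
      refine Finset.prod_eq_zero hu ?_
      rw [(evalAt_eq_zero_iff (hreg u hu)).mpr
        (ordGE_iff.mpr (.inr (by rw [hπ u u hu, if_pos rfl]))),
        zero_pow u.ramificationIndex_pos.ne']
    obtain ⟨t, ht0, ht⟩ := exists_ord_eq_one v
    set P := ∏ u ∈ T, π u ^ u.ramificationIndex F with hP
    have ht' : algebraMap F F' t ≠ 0 := by simpa using ht0
    have hu := hunit (algebraMap F F' t / P) (div_ne_zero ht' (hprod0 _)) fun w hw => by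
      rw [ord_div w ht' (hprod0 _), hprod _ w hw, w.ord_restrict, Place.mem_fiber.mp hw, ht,
        mul_one, sub_self]
    have h1 : v.ord (Algebra.norm F (algebraMap F F' t)) = (Module.finrank F F' : ℤ) := by
      rw [Algebra.norm_algebraMap, ord_pow, ht, mul_one]
    rw [← div_mul_cancel₀ (algebraMap F F' t) (hprod0 fun u => u.ramificationIndex F), map_mul,
      v.ord_mul (hN0 (div_ne_zero ht' (hprod0 _))) (hN0 (hprod0 _)), hu, zero_add, hNprod,
      ← sum_ramificationIndex (F' := F') v, ← hT] at h1
    push_cast at h1
    have h2 : ∑ u ∈ T, (u.ramificationIndex F : ℤ) * (v.ord (Algebra.norm F (π u)) - 1) = 0 := by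
      simp_rw [mul_sub, mul_one]
      rw [Finset.sum_sub_distrib, h1, sub_self]
    intro u hu'
    have h3 := (Finset.sum_eq_zero_iff_of_nonneg fun w hw =>
      mul_nonneg (Int.natCast_nonneg _) (sub_nonneg.mpr (hge w hw))).mp h2 u hu'
    rcases mul_eq_zero.mp h3 with h4 | h4
    · exact absurd (Int.natCast_eq_zero.mp h4) u.ramificationIndex_pos.ne'
    · omega
  set a : Place K F' → ℕ := fun u => (-u.ord z).toNat
  set b : Place K F' → ℕ := fun u => (u.ord z).toNat
  have hza : z * ∏ u ∈ T, π u ^ a u ≠ 0 := mul_ne_zero hz (hprod0 a)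
  have hu := hunit ((z * ∏ u ∈ T, π u ^ a u) / ∏ u ∈ T, π u ^ b u)
    (div_ne_zero hza (hprod0 b)) fun w hw => by
      rw [ord_div w hza (hprod0 b), w.ord_mul hz (hprod0 a), hprod a w hw, hprod b w hw]
      simp only [a, b]; omega
  have h1 : v.ord (Algebra.norm F (z * ∏ u ∈ T, π u ^ a u)) = ∑ u ∈ T, (b u : ℤ) := by
    rw [← div_mul_cancel₀ (z * ∏ u ∈ T, π u ^ a u) (hprod0 b), map_mul,
      v.ord_mul (hN0 (div_ne_zero hza (hprod0 b))) (hN0 (hprod0 b)), hu, zero_add, hNprod]
    exact Finset.sum_congr rfl fun u hu => by rw [hone u hu, mul_one]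
  rw [map_mul, v.ord_mul (hN0 hz) (hN0 (hprod0 a)), hNprod] at h1
  rw [Finset.sum_congr rfl fun u hu => by rw [hone u hu, mul_one]] at h1
  have h2 : ∑ u ∈ T, u.ord z = ∑ u ∈ T, (b u : ℤ) - ∑ u ∈ T, (a u : ℤ) := by
    rw [← Finset.sum_sub_distrib]
    exact Finset.sum_congr rfl fun u _ => by simp only [a, b]; omega
  omega

/-- The push-forward of a principal divisor is the divisor of the norm. -/
theorem pushforwardNormFormula : Divisor.PushforwardNormFormula K F F' := by
  classical
  intro f hf D hD v
  rw [Divisor.pushforward_apply, ord_norm v hf]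
  simp only [inertiaDeg_eq_one, Nat.cast_one, mul_one, hD]
  rw [← Finset.sum_filter]
  refine Finset.sum_subset_zero_on_sdiff (fun w hw => ?_) (fun w hw => ?_) (fun w _ => rfl)
  · simpa using (Finset.mem_filter.mp hw).2
  · simp only [Finset.mem_sdiff, Place.mem_fiber, Finset.mem_filter, Finsupp.mem_support_iff, hD,
      not_and] at hw
    by_contra h
    exact hw.2 h hw.1

end Tower

omit [IsAlgClosed K] in
/-- Every `K`-embedding of function fields is finite. -/
theorem finiteAlong (φ : F →ₐ[K] F') : FiniteAlong K φ := by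
  let := algebraAlong φ
  have := isScalarTower_along φ
  exact finite_of_tower K F F'

omit [IsAlgClosed K] in
/-- Every `K`-embedding of function fields is integral. -/
theorem isIntegral_toRingHom (φ : F →ₐ[K] F') : φ.toRingHom.IsIntegral := by
  let := algebraAlong φ
  have : Module.Finite F F' := finiteAlong φ
  exact (Algebra.IsIntegral.of_finite F F').isIntegral

/-- The fundamental identity along any `K`-embedding. -/
theorem fundamentalIdentityAlong (φ : F →ₐ[K] F') (hφ : φ.toRingHom.IsIntegral) :
    FundamentalIdentityAlong K φ hφ := by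
  let := algebraAlong φ
  have := isScalarTower_along φ
  have := isIntegral_along φ hφ
  have : Module.Finite F F' := finiteAlong φ
  have : SumRamificationInertia K F F' := instSumRamificationInertia
  exact instFundamentalIdentityOfSumRamificationInertia

/-- The norm formula along any `K`-embedding. -/
theorem normFormulaAlong (φ : F →ₐ[K] F') (hfin : FiniteAlong K φ) :
    NormFormulaAlong K φ hfin := by
  let := algebraAlong φ
  have := isScalarTower_along φ
  have : Module.Finite F F' := hfin
  have : Algebra.IsIntegral F F' := Algebra.IsIntegral.of_finite F F'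
  exact pushforwardNormFormula (K := K) (F := F) (F' := F')

/-- Residue degrees along a `K`-embedding are `1`. -/
theorem inertiaDegAlong_eq_one (φ : F →ₐ[K] F') (hφ : φ.toRingHom.IsIntegral) (w : Place K F') :
    w.inertiaDegAlong φ hφ = 1 := by
  let := algebraAlong φ
  have := isScalarTower_along φ
  have := isIntegral_along φ hφ
  exact inertiaDeg_eq_one w

end Fermat.FF

end
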