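import Fermat.Agent.FF.Places

/-!
# Weak approximation for finitely many places

The main results are `exists_approx` and `exists_ord_eq_on`, which prescribes the orders.
-/

set_option autoImplicit false

noncomputable section

open AlgebraicCurve

namespace Fermat.FF

variable {K F : Type*} [Field K] [Field F] [Algebra K F]

/-- A function with a zero at `v` and poles at all places of a finite set not containing `v`. -/
theorem exists_pos_forall_neg (v : Place K F) (S : Finset (Place K F)) (hv : v ∉ S) :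
    ∃ z : F, z ≠ 0 ∧ 0 < v.ord z ∧ ∀ w ∈ S, w.ord z < 0 := by
  classical
  induction S using Finset.induction_on with
  | empty =>
    obtain ⟨t, ht, h⟩ := exists_ord_eq_one v
    exact ⟨t, ht, by omega, by simp⟩
  | insert a S ha ih =>
    rw [Finset.mem_insert, not_or] at hv
    obtain ⟨z, hz, hzv, hzS⟩ := ih hv.2
    obtain ⟨y, hy, hyv, hya⟩ := exists_pos_neg hv.1
    obtain ⟨r, hr⟩ : ∃ r : ℕ, r ∉ insert 0
        ((insert a S).image fun w => (w.ord z / w.ord y).toNat) :=
      Infinite.exists_notMem_finset _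
    rw [Finset.mem_insert, not_or] at hr
    have hne : ∀ w ∈ insert a S, w.ord z ≠ (r : ℤ) * w.ord y := by
      intro w hw h
      rcases eq_or_ne (w.ord y) 0 with h0 | h0
      · rcases Finset.mem_insert.mp hw with rfl | hw'
        · omega
        · have := hzS w hw'
          rw [h0, mul_zero] at h
          omega
      · refine hr.2 (Finset.mem_image.mpr ⟨w, hw, ?_⟩)
        rw [h, Int.mul_ediv_cancel _ h0, Int.toNat_natCast]
    -- `z + y ^ r` has the smaller order at each place
    have hcomb : ∀ w ∈ insert a S,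
        w.ord (z + y ^ r) = min (w.ord z) ((r : ℤ) * w.ord y) ∧ z + y ^ r ≠ 0 := by
      intro w hw
      rcases lt_or_gt_of_ne (hne w hw) with h | h
      · rw [min_eq_left h.le]
        exact ord_add_of_lt w hz (by rwa [ord_pow])
      · rw [min_eq_right h.le, add_comm]
        have := ord_add_of_lt w (f := y ^ r) (g := z) (pow_ne_zero _ hy) (by rwa [ord_pow])
        rwa [ord_pow] at this
    have hne0 := (hcomb a (Finset.mem_insert_self a S)).2
    refine ⟨z + y ^ r, hne0, ?_, fun w hw => ?_⟩
    · have hr1 : (1 : ℤ) ≤ r := by have := hr.1; omega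
      have h1 : OrdGE v (z + y ^ r) 1 := by
        refine OrdGE.add ((ordGE_iff_of_ne hz).mpr hzv)
          ((ordGE_iff_of_ne (pow_ne_zero _ hy)).mpr ?_)
        rw [ord_pow]
        nlinarith
      have := h1.le_ord hne0
      omega
    · rw [(hcomb w hw).1]
      rcases Finset.mem_insert.mp hw with rfl | hw'
      · refine lt_of_le_of_lt (min_le_right _ _) ?_
        have hr1 : (1 : ℤ) ≤ r := by have := hr.1; omega
        nlinarith
      · exact lt_of_le_of_lt (min_le_left _ _) (hzS w hw')

/-- An approximate characteristic function of `v` on `insert v S`. -/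
theorem exists_indicator (v : Place K F) (S : Finset (Place K F)) (hv : v ∉ S) (N : ℕ) :
    ∃ u : F, OrdGE v (u - 1) N ∧ ∀ w ∈ S, OrdGE w u N := by
  obtain ⟨z, hz, hzv, hzS⟩ := exists_pos_forall_neg v S hv
  set r := N + 1 with hr
  have hzr : z ^ r ≠ 0 := pow_ne_zero _ hz
  have h1 : (1 : F) ≠ 0 := one_ne_zero
  have hr0 : (1 : ℤ) ≤ (r : ℤ) * v.ord z := by
    have : (1 : ℤ) ≤ r := by omega
    nlinarith
  obtain ⟨hord, hne⟩ := ord_add_of_lt v (f := (1 : F)) (g := z ^ r) h1 (by
    rw [Place.ord_one, ord_pow]; omega)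
  refine ⟨(1 + z ^ r)⁻¹, ?_, fun w hw => ?_⟩
  · have : (1 + z ^ r)⁻¹ - 1 = -(z ^ r / (1 + z ^ r)) := by field_simp; ring
    rw [this, ordGE_iff]
    right
    rw [ord_neg, ord_div v hzr hne, hord, ord_pow, Place.ord_one]
    have : (r : ℤ) = N + 1 := by omega
    nlinarith
  · have hw' := hzS w hw
    have hlt : (r : ℤ) * w.ord z ≤ -(r : ℤ) := by nlinarith
    have hordw := (ord_add_of_lt w (f := z ^ r) (g := (1 : F)) hzr (by
      rw [Place.ord_one, ord_pow]; omega)).1
    rw [add_comm] at hordw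
    rw [ordGE_iff, w.ord_inv, hordw, ord_pow]
    right
    omega

/-- Weak approximation. -/
theorem exists_approx (S : Finset (Place K F)) (f : Place K F → F) (N : ℤ) :
    ∃ g : F, ∀ v ∈ S, OrdGE v (g - f v) N := by
  classical
  set M : ℕ := N.toNat + ∑ v ∈ S, ∑ w ∈ S, (-w.ord (f v)).toNat with hM
  have hbound : ∀ v ∈ S, ∀ w ∈ S, ∀ u : F, OrdGE w u M → OrdGE w (f v * u) N := by
    intro v hv w hw u hu
    refine ((ordGE_ord w (f v)).mul hu).mono ?_
    have h1 : (-w.ord (f v)).toNat ≤ ∑ w ∈ S, (-w.ord (f v)).toNat :=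
      Finset.single_le_sum (f := fun w : Place K F => (-w.ord (f v)).toNat)
        (fun _ _ => Nat.zero_le _) hw
    have h2 : ∑ w ∈ S, (-w.ord (f v)).toNat ≤ ∑ v ∈ S, ∑ w ∈ S, (-w.ord (f v)).toNat :=
      Finset.single_le_sum (f := fun v : Place K F => ∑ w ∈ S, (-w.ord (f v)).toNat)
        (fun _ _ => Nat.zero_le _) hv
    omega
  choose u hu1 hu2 using fun v : Place K F => exists_indicator v (S.erase v)
    (Finset.notMem_erase v S) M
  refine ⟨∑ v ∈ S, f v * u v, fun w hw => ?_⟩
  rw [← Finset.add_sum_erase S _ hw, add_sub_right_comm, ← mul_sub_one]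
  exact (hbound w hw w hw _ (hu1 w)).add <| OrdGE.sum fun v hv =>
    hbound v (Finset.mem_of_mem_erase hv) w hw _
      (hu2 v w (Finset.mem_erase.mpr ⟨(Finset.ne_of_mem_erase hv).symm, hw⟩))

/-- Prescribed orders at finitely many places. -/
theorem exists_ord_eq_on (S : Finset (Place K F)) (n : Place K F → ℤ) :
    ∃ g : F, g ≠ 0 ∧ ∀ v ∈ S, v.ord g = n v := by
  classical
  rcases S.eq_empty_or_nonempty with rfl | hS
  · exact ⟨1, one_ne_zero, by simp⟩
  choose t ht hord using fun v : Place K F => exists_ord_eq v (n v)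
  set N : ℤ := ((∑ v ∈ S, (n v).natAbs : ℕ) : ℤ) + 1 with hN
  obtain ⟨g, hg⟩ := exists_approx S t N
  have key : ∀ v ∈ S, v.ord g = n v ∧ g ≠ 0 := by
    intro v hv
    have hle : ((n v).natAbs : ℤ) ≤ ((∑ v ∈ S, (n v).natAbs : ℕ) : ℤ) :=
      Int.ofNat_le.mpr (Finset.single_le_sum (f := fun v : Place K F => (n v).natAbs)
        (fun _ _ => Nat.zero_le _) hv)
    have h := ord_eq_of_ordGE_lt v (f := t v) (g := g - t v) (ht v)
      ((hg v hv).mono (by rw [hord]; omega))
    rwa [add_sub_cancel, hord] at h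
  exact ⟨g, (key _ hS.choose_spec).2, fun v hv => (key v hv).1⟩

end Fermat.FF

end
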