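import Mathlib.FieldTheory.IntermediateField.Adjoin.Basic
import Mathlib.FieldTheory.Separable
import Mathlib.RingTheory.Algebraic.Defs

/-!
# Function fields in one variable

The class `IsFunctionField` asks for a separating transcendental element.
-/

set_option autoImplicit false

open IntermediateField

namespace Fermat.FF

/-- `F` is a function field in one variable over `K` with a separating transcendental element. -/
class IsFunctionField (K F : Type*) [Field K] [Field F] [Algebra K F] : Prop where
  /-- Some transcendental `x` makes `F` a finite separable extension of `K⟮x⟯`. -/
  exists_separating : ∃ x : F, Transcendental K x ∧ FiniteDimensional K⟮x⟯ F ∧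
    Algebra.IsSeparable K⟮x⟯ F

end Fermat.FF
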