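import Fermat.Prelude.Def_AlgebraicCurve_DivisorClassGroup
import Fermat.Prelude.Def_AlgebraicCurve_DivisorPushPull
import Fermat.Prelude.Def_AlgebraicCurve_Repartitions
import Mathlib.Algebra.Polynomial.AlgebraMap

/-!
# Elementary API for places: order of vanishing, `OrdGE`, membership.

No hypotheses on `K` or `F` here.
-/

set_option autoImplicit false

noncomputable section

open WithZero AlgebraicCurve

namespace Fermat.FF

variable {K F : Type*} [Field K] [Field F] [Algebra K F]

/-- `OrdGE v f n`: `f` vanishes at `v` to order at least `n` (true for `f = 0`). -/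
def OrdGE (v : Place K F) (f : F) (n : ℤ) : Prop := v.adicValuation f ≤ exp (-n)

variable {v w : Place K F}

/-- `OrdGE` in terms of `ord`, allowing `f = 0`. -/
theorem ordGE_iff {f : F} {n : ℤ} : OrdGE v f n ↔ f = 0 ∨ n ≤ v.ord f := by
  rw [OrdGE, v.adicValuation_le_exp_iff, neg_neg]

/-- For `f ≠ 0`, `OrdGE v f n` means `n ≤ ord_v f`. -/
theorem ordGE_iff_of_ne {f : F} {n : ℤ} (hf : f ≠ 0) : OrdGE v f n ↔ n ≤ v.ord f := by
  simp [ordGE_iff, hf]

/-- A nonzero function with `OrdGE v f n` has order at least `n`. -/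
theorem OrdGE.le_ord {f : F} {n : ℤ} (h : OrdGE v f n) (hf : f ≠ 0) : n ≤ v.ord f :=
  (ordGE_iff_of_ne hf).mp h

/-- Zero satisfies every lower bound. -/
theorem ordGE_zero (v : Place K F) (n : ℤ) : OrdGE v (0 : F) n := ordGE_iff.mpr (.inl rfl)

/-- An element is bounded below by its order. -/
theorem ordGE_ord (v : Place K F) (f : F) : OrdGE v f (v.ord f) := ordGE_iff.mpr (.inr le_rfl)

/-- The bound in `OrdGE` can be lowered. -/
theorem OrdGE.mono {f : F} {m n : ℤ} (h : OrdGE v f n) (hmn : m ≤ n) : OrdGE v f m := by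
  rw [OrdGE] at *
  exact h.trans (exp_le_exp.mpr (by omega))

/-- A sum satisfies every lower bound of both summands. -/
theorem OrdGE.add {f g : F} {n : ℤ} (hf : OrdGE v f n) (hg : OrdGE v g n) :
    OrdGE v (f + g) n :=
  (Valuation.map_add _ _ _).trans (max_le hf hg)

/-- Negation preserves lower bounds. -/
theorem OrdGE.neg {f : F} {n : ℤ} (hf : OrdGE v f n) : OrdGE v (-f) n := by
  rw [OrdGE, Valuation.map_neg]; exact hf

/-- Differences preserve lower bounds. -/
theorem OrdGE.sub {f g : F} {n : ℤ} (hf : OrdGE v f n) (hg : OrdGE v g n) :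
    OrdGE v (f - g) n := by
  simpa [sub_eq_add_neg] using hf.add hg.neg

/-- Lower bounds on orders add up on products. -/
theorem OrdGE.mul {f g : F} {m n : ℤ} (hf : OrdGE v f m) (hg : OrdGE v g n) :
    OrdGE v (f * g) (m + n) := by
  rw [OrdGE] at *
  rw [map_mul, neg_add, exp_add]
  exact mul_le_mul' hf hg

/-- The bound in `OrdGE` passes to finite sums. -/
theorem OrdGE.sum {ι : Type*} {s : Finset ι} {f : ι → F} {n : ℤ}
    (h : ∀ i ∈ s, OrdGE v (f i) n) : OrdGE v (∑ i ∈ s, f i) n := by
  classical
  induction s using Finset.induction_on with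
  | empty => simpa using ordGE_zero v n
  | insert a s ha ih =>
    rw [Finset.sum_insert ha]
    exact (h a (Finset.mem_insert_self a s)).add (ih fun i hi => h i (Finset.mem_insert_of_mem hi))

/-- Constants are regular everywhere. -/
theorem ordGE_algebraMap (v : Place K F) (c : K) : OrdGE v (algebraMap K F c) 0 := by
  simpa [OrdGE] using v.adicValuation_algebraMap_le_one c

/-- `1` is integral at every place. -/
theorem ordGE_one (v : Place K F) : OrdGE v (1 : F) 0 := by simp [OrdGE]

/-- Scalars preserve `OrdGE`. -/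
theorem OrdGE.smul {f : F} {n : ℤ} (hf : OrdGE v f n) (c : K) : OrdGE v (c • f) n := by
  simpa [Algebra.smul_def] using (ordGE_algebraMap v c).mul hf

/-- The order of a power is at least the multiple of the bound. -/
theorem OrdGE.pow {f : F} {n : ℤ} (hf : OrdGE v f n) (k : ℕ) : OrdGE v (f ^ k) (k * n) := by
  induction k with
  | zero => simpa using ordGE_one v
  | succ k ih =>
    rw [pow_succ]
    exact (ih.mul hf).mono (by push_cast; nlinarith)

/-- Membership in the valuation ring is nonnegativity of the order. -/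
theorem mem_iff_ordGE (v : Place K F) {f : F} : f ∈ v.toValuationSubring ↔ OrdGE v f 0 := by
  refine ⟨fun h => by simpa [OrdGE] using v.adicValuation_le_one_of_mem h, fun h => ?_⟩
  rcases eq_or_ne f 0 with rfl | hf
  · exact zero_mem _
  obtain ⟨π, hπ⟩ := IsDiscreteValuationRing.exists_irreducible v.toValuationSubring
  obtain ⟨u, hu⟩ := v.exists_unit_mul_zpow hf hπ
  rw [hu, ← Int.toNat_of_nonneg ((ordGE_iff_of_ne hf).mp h), zpow_natCast]
  exact mul_mem (u : v.toValuationSubring).2 (pow_mem (π : v.toValuationSubring).2 _)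

/-- The valuation ring consists of `0` and the functions without a pole at `v`. -/
theorem mem_iff (v : Place K F) {f : F} :
    f ∈ v.toValuationSubring ↔ f = 0 ∨ 0 ≤ v.ord f := by
  rw [mem_iff_ordGE, ordGE_iff]

/-- A function is outside the valuation ring iff it has a pole at `v`. -/
theorem not_mem_iff (v : Place K F) {f : F} : f ∉ v.toValuationSubring ↔ v.ord f < 0 := by
  rw [mem_iff, not_or, not_le]
  exact ⟨fun h => h.2, fun h => ⟨fun h0 => by simp [h0] at h, h⟩⟩

/-- The order of a quotient is the difference of the orders. -/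
theorem ord_div (v : Place K F) {f g : F} (hf : f ≠ 0) (hg : g ≠ 0) :
    v.ord (f / g) = v.ord f - v.ord g := by
  rw [div_eq_mul_inv, v.ord_mul hf (inv_ne_zero hg), v.ord_inv]; ring

/-- Negation preserves the order. -/
theorem ord_neg (v : Place K F) (f : F) : v.ord (-f) = v.ord f := by
  simp [Place.ord, Valuation.map_neg]

/-- The order of a power. -/
theorem ord_pow (v : Place K F) (f : F) (n : ℕ) : v.ord (f ^ n) = n * v.ord f := by
  simpa using v.ord_zpow f (n : ℤ)

/-- The order of a finite product of nonzero functions. -/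
theorem ord_prod {ι : Type*} (v : Place K F) (s : Finset ι) (f : ι → F)
    (h : ∀ i ∈ s, f i ≠ 0) : v.ord (∏ i ∈ s, f i) = ∑ i ∈ s, v.ord (f i) := by
  classical
  induction s using Finset.induction_on with
  | empty => simp
  | insert a s ha ih =>
    rw [Finset.prod_insert ha, Finset.sum_insert ha, v.ord_mul (h a (Finset.mem_insert_self a s))
      (Finset.prod_ne_zero_iff.mpr fun i hi => h i (Finset.mem_insert_of_mem hi)),
      ih fun i hi => h i (Finset.mem_insert_of_mem hi)]

/-- Constants have order `0`. -/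
theorem ord_algebraMap (v : Place K F) (c : K) : v.ord (algebraMap K F c) = 0 := by
  rcases eq_or_ne c 0 with rfl | hc
  · simp
  have h1 := (ordGE_algebraMap v c).le_ord (by simpa using hc)
  have h2 := (ordGE_algebraMap v c⁻¹).le_ord (by simpa using hc)
  rw [map_inv₀, v.ord_inv] at h2
  omega

/-- Adding a term of higher order does not change the order. -/
theorem ord_eq_of_ordGE_lt {f g : F} (v : Place K F) (hf : f ≠ 0)
    (hg : OrdGE v g (v.ord f + 1)) : v.ord (f + g) = v.ord f ∧ f + g ≠ 0 := by
  have hlt : v.adicValuation g < v.adicValuation f := by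
    refine lt_of_le_of_lt hg ?_
    rw [v.adicValuation_eq_exp_neg_ord hf, exp_lt_exp]
    omega
  have h : v.adicValuation (f + g) = v.adicValuation f := Valuation.map_add_eq_of_lt_left _ hlt
  refine ⟨by simp [Place.ord, h], fun h0 => ?_⟩
  rw [h0, map_zero] at h
  exact v.adicValuation_ne_zero hf h.symm

/-- The sum of functions of distinct orders has the smaller order. -/
theorem ord_add_of_lt {f g : F} (v : Place K F) (hf : f ≠ 0) (h : v.ord f < v.ord g) :
    v.ord (f + g) = v.ord f ∧ f + g ≠ 0 :=
  ord_eq_of_ordGE_lt v hf ((ordGE_ord v g).mono (by omega))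

/-- A family with a unique term of minimal order does not sum to zero. -/
theorem ord_sum_eq {ι : Type*} {s : Finset ι} {f : ι → F} {j : ι} (v : Place K F) (hj : j ∈ s)
    (hf : f j ≠ 0) (h : ∀ i ∈ s, i ≠ j → OrdGE v (f i) (v.ord (f j) + 1)) :
    v.ord (∑ i ∈ s, f i) = v.ord (f j) ∧ ∑ i ∈ s, f i ≠ 0 := by
  classical
  rw [← Finset.add_sum_erase s f hj]
  exact ord_eq_of_ordGE_lt v hf <| OrdGE.sum fun i hi =>
    h i (Finset.mem_of_mem_erase hi) (Finset.ne_of_mem_erase hi)

/-- Every place has a uniformiser. -/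
theorem exists_ord_eq_one (v : Place K F) : ∃ t : F, t ≠ 0 ∧ v.ord t = 1 := by
  obtain ⟨π, hπ⟩ := IsDiscreteValuationRing.exists_irreducible v.toValuationSubring
  exact ⟨π, by simpa using hπ.ne_zero, v.ord_coe_irreducible hπ⟩

/-- Every integer is the order of a function. -/
theorem exists_ord_eq (v : Place K F) (n : ℤ) : ∃ t : F, t ≠ 0 ∧ v.ord t = n := by
  obtain ⟨t, ht, h⟩ := exists_ord_eq_one v
  exact ⟨t ^ n, zpow_ne_zero n ht, by rw [v.ord_zpow, h, mul_one]⟩

/-- Places are incomparable. -/
theorem place_eq_of_le (h : v.toValuationSubring ≤ w.toValuationSubring) : v = w := by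
  by_contra hne
  obtain ⟨f, hfw, hfv⟩ : ∃ f, f ∈ w.toValuationSubring ∧ f ∉ v.toValuationSubring :=
    SetLike.exists_of_lt (lt_of_le_of_ne h fun e => hne (Place.ext e))
  apply w.ne_top'
  refine SetLike.ext fun g => ⟨fun _ => ValuationSubring.mem_top g, fun _ => ?_⟩
  rcases eq_or_ne g 0 with rfl | hg
  · exact zero_mem _
  rw [not_mem_iff] at hfv
  have hf : f ≠ 0 := fun h0 => by simp [h0] at hfv
  set N : ℕ := (-v.ord g).toNat
  have : g * f⁻¹ ^ N ∈ v.toValuationSubring := by
    rw [mem_iff, v.ord_mul hg (pow_ne_zero _ (inv_ne_zero hf)), ord_pow, v.ord_inv]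
    right
    rcases le_or_gt 0 (v.ord g) with h' | h'
    · nlinarith
    · have hN : (N : ℤ) = -v.ord g := Int.toNat_of_nonneg (by omega)
      rw [hN]; nlinarith
  have := mul_mem (h this) (pow_mem hfw N)
  rwa [mul_assoc, inv_pow, inv_mul_cancel₀ (pow_ne_zero _ hf), mul_one] at this

/-- Distinct places are separated by a function. -/
theorem exists_pos_neg (h : v ≠ w) : ∃ z : F, z ≠ 0 ∧ 0 < v.ord z ∧ w.ord z < 0 := by
  obtain ⟨a, hav, haw⟩ : ∃ a, a ∈ v.toValuationSubring ∧ a ∉ w.toValuationSubring :=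
    SetLike.not_le_iff_exists.mp fun hle => h (place_eq_of_le hle)
  obtain ⟨b, hbw, hbv⟩ : ∃ b, b ∈ w.toValuationSubring ∧ b ∉ v.toValuationSubring :=
    SetLike.not_le_iff_exists.mp fun hle => h (place_eq_of_le hle).symm
  rw [not_mem_iff] at haw hbv
  have ha : a ≠ 0 := fun h0 => by simp [h0] at haw
  have hb : b ≠ 0 := fun h0 => by simp [h0] at hbv
  rw [mem_iff, or_iff_right ha] at hav
  rw [mem_iff, or_iff_right hb] at hbw
  exact ⟨a / b, div_ne_zero ha hb, by rw [ord_div v ha hb]; omega, by rw [ord_div w ha hb]; omega⟩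

/-- Polynomials in a regular function are regular. -/
theorem ordGE_aeval {x : F} (hx : OrdGE v x 0) (p : Polynomial K) :
    OrdGE v (Polynomial.aeval x p) 0 := by
  rw [Polynomial.aeval_eq_sum_range]
  refine OrdGE.sum fun i _ => OrdGE.smul ?_ _
  simpa using hx.pow i

end Fermat.FF

end
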