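import Fermat.Agent.FF.Defs
import Fermat.Agent.FF.Places
import Fermat.Prelude.Def_AlgebraicCurve_IsCurveOver
import Mathlib.RingTheory.Valuation.LocalSubring
import Mathlib.FieldTheory.IsAlgClosed.Basic
import Mathlib.RingTheory.AlgebraicIndependent.TranscendenceBasis
import Mathlib.FieldTheory.IntermediateField.Adjoin.Algebra
import Mathlib.RingTheory.DiscreteValuationRing.Basic

/-!
# Existence of places of a function field over an algebraically closed field, degree one.

Every valuation subring of `F` containing `K`, other than `F` itself, is a place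
(the proof counts linearly independent elements over `K(y)`), and all residue fields are `K`.
-/

set_option autoImplicit false

noncomputable section

open AlgebraicCurve IntermediateField Polynomial

namespace Fermat.FF

variable {K F : Type*} [Field K] [Field F] [Algebra K F]

/-- Linear independence over `K(y)` is tested on polynomial relations. -/
theorem linearIndependent_adjoin_of_poly {ι : Type*} [Fintype ι] {y : F} {z : ι → F}
    (h : ∀ p : ι → K[X], ∑ i, aeval y (p i) * z i = 0 → ∀ i, aeval y (p i) = 0) :
    LinearIndependent K⟮y⟯ z := by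
  classical
  rw [Fintype.linearIndependent_iff]
  intro c hc
  have hex : ∀ i, ∃ r s : K[X], (c i : F) = aeval y r / aeval y s ∧ aeval y s ≠ 0 := fun i => by
    obtain ⟨r, s, hrs⟩ := (mem_adjoin_simple_iff K _).mp (c i).2
    by_cases hs : aeval y s = 0
    · exact ⟨0, 1, by simp [hrs, hs], by simp⟩
    · exact ⟨r, s, hrs, hs⟩
  choose r s hrs hs using hex
  have hcF : ∑ i, (c i : F) * z i = 0 := by
    simpa [IntermediateField.smul_def, smul_eq_mul] using hc
  have key := h (fun i => r i * ∏ j ∈ Finset.univ.erase i, s j) ?_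
  · intro i
    apply Subtype.ext
    have hi := key i
    simp only [map_mul, map_prod, mul_eq_zero] at hi
    rcases hi with h' | h'
    · simp [hrs i, h']
    · exact absurd h' (Finset.prod_ne_zero_iff.mpr fun j _ => hs j)
  · calc ∑ i, aeval y (r i * ∏ j ∈ Finset.univ.erase i, s j) * z i
        = ∑ i, (∏ j, aeval y (s j)) * ((c i : F) * z i) := by
          refine Finset.sum_congr rfl fun i _ => ?_
          rw [map_mul, map_prod, ← Finset.mul_prod_erase Finset.univ (fun j => aeval y (s j))
            (Finset.mem_univ i), hrs i]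
          field_simp [hs i]
      _ = 0 := by rw [← Finset.mul_sum, hcF, mul_zero]

/-- A transcendental `x` over whose `K(x)` the field is algebraic is a transcendence basis. -/
theorem isTranscendenceBasis_singleton {x : F} (hx : Transcendental K x)
    (halg : Algebra.IsAlgebraic K⟮x⟯ F) : IsTranscendenceBasis K (fun _ : Fin 1 => x) := by
  have hxi : AlgebraicIndependent K (fun _ : Fin 1 => x) :=
    algebraicIndependent_unique_type_iff.mpr hx
  rw [hxi.isTranscendenceBasis_iff_isAlgebraic,
    show Set.range (fun _ : Fin 1 => x) = {x} from Set.range_const]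
  let : Algebra (Algebra.adjoin K {x}) K⟮x⟯ :=
    (Subalgebra.inclusion (algebra_adjoin_le_adjoin K {x})).toRingHom.toAlgebra
  have : IsScalarTower (Algebra.adjoin K {x}) K⟮x⟯ F :=
    IsScalarTower.of_algebraMap_eq (congrFun rfl)
  have : Algebra.IsAlgebraic (Algebra.adjoin K {x}) K⟮x⟯ := by
    open scoped algebraAdjoinAdjoin in
    exact inferInstanceAs (Algebra.IsAlgebraic (Algebra.adjoin K {x}) K⟮x⟯)
  exact Algebra.IsAlgebraic.trans (Algebra.adjoin K {x}) K⟮x⟯ F

section

variable [IsFunctionField K F]

/-- A function field is essentially of finite type over `K`. -/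
instance (priority := 100) instEssFiniteType : Algebra.EssFiniteType K F := by
  obtain ⟨x, -, hfin, -⟩ := IsFunctionField.exists_separating (K := K) (F := F)
  have : Algebra.EssFiniteType K K⟮x⟯ :=
    essFiniteType_iff.mpr (fg_adjoin_of_finite (Set.finite_singleton x))
  exact Algebra.EssFiniteType.comp K K⟮x⟯ F

/-- `F` is finite over `K(y)` for every transcendental `y`. -/
theorem finiteDimensional_adjoin {y : F} (hy : Transcendental K y) :
    FiniteDimensional K⟮y⟯ F := by
  obtain ⟨x, hx, hfin, -⟩ := IsFunctionField.exists_separating (K := K) (F := F)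
  have hyi : AlgebraicIndependent K (fun _ : Fin 1 => y) :=
    algebraicIndependent_unique_type_iff.mpr hy
  have hxb := isTranscendenceBasis_singleton hx inferInstance
  have hyb : IsTranscendenceBasis K (fun _ : Fin 1 => y) :=
    hyi.isTranscendenceBasis_of_lift_trdeg_le_of_finite (by
      rw [← hxb.lift_cardinalMk_eq_trdeg])
  have halg := hyb.isAlgebraic_field
  rw [show Set.range (fun _ : Fin 1 => y) = {y} from Set.range_const] at halg
  have : Algebra.EssFiniteType K⟮y⟯ F := Algebra.EssFiniteType.of_comp K K⟮y⟯ F
  exact Algebra.finite_of_essFiniteType_of_isAlgebraic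

end

variable [IsAlgClosed K]

/-- An element of `F` which is not a constant is transcendental over `K`. -/
theorem transcendental_of_not_mem {y : F} (hy : y ∉ Set.range (algebraMap K F)) :
    Transcendental K y := by
  intro halg
  refine hy (minpoly.mem_range_of_degree_eq_one K y ?_)
  exact IsAlgClosed.degree_eq_one_of_irreducible K (minpoly.irreducible halg.isIntegral)

/-- An element with a zero or a pole is transcendental over `K`. -/
theorem transcendental_of_ord_ne_zero {v : Place K F} {y : F} (hy : v.ord y ≠ 0) :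
    Transcendental K y :=
  transcendental_of_not_mem fun ⟨c, hc⟩ => hy (hc ▸ ord_algebraMap v c)

section Valuation

variable {V : ValuationSubring F} (hK : ∀ a : K, algebraMap K F a ∈ V)
include hK

omit [IsAlgClosed K] in
/-- A valuation ring containing `K` gives nonzero constants valuation `1`. -/
private theorem valuation_algebraMap {a : K} (ha : a ≠ 0) :
    V.valuation (algebraMap K F a) = 1 := by
  refine le_antisymm ((V.valuation_le_one_iff _).mpr (hK a)) ?_
  have h := (V.valuation_le_one_iff _).mpr (hK a⁻¹)
  rw [map_inv₀, map_inv₀] at h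
  have hpos : 0 < V.valuation (algebraMap K F a) :=
    zero_lt_iff.mpr ((V.valuation.ne_zero_iff).mpr (by simpa using ha))
  exact (inv_le_one₀ hpos).mp h

omit [IsAlgClosed K] in
/-- If `y` is in the maximal ideal, `p(y)` has the valuation of `y ^ m`, `X ^ m` being the lowest
monomial of `p`. -/
private theorem valuation_aeval {y : F} (hy : V.valuation y < 1) {p : K[X]} (hp : p ≠ 0) :
    ∃ m : ℕ, V.valuation (aeval y p) = V.valuation y ^ m ∧ m = p.natTrailingDegree := by
  refine ⟨_, ?_, rfl⟩
  obtain ⟨q, hq, hpq⟩ : ∃ q : K[X], q.coeff 0 ≠ 0 ∧ p = X ^ p.natTrailingDegree * q := by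
    obtain ⟨q, hq⟩ := Polynomial.X_pow_dvd_iff.mpr
      fun d (hd : d < p.natTrailingDegree) => coeff_eq_zero_of_lt_natTrailingDegree hd
    refine ⟨q, ?_, hq⟩
    have := Polynomial.trailingCoeff_nonzero_iff_nonzero.mpr hp
    rw [trailingCoeff] at this
    conv at this => lhs; arg 1; rw [hq]
    rwa [coeff_X_pow_mul', if_pos le_rfl, Nat.sub_self] at this
  conv_lhs => rw [hpq, map_mul, map_pow, aeval_X, map_mul, map_pow]
  suffices h : V.valuation (aeval y q) = 1 by rw [h, mul_one]
  conv_lhs => rw [← Polynomial.X_mul_divX_add q, map_add, map_mul, aeval_X, aeval_C]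
  have hmem : aeval y q.divX ∈ V := by
    rw [aeval_eq_sum_range]
    refine sum_mem fun i _ => ?_
    rw [Algebra.smul_def]
    exact mul_mem (hK _) (pow_mem ((V.valuation_le_one_iff y).mp hy.le) i)
  rw [Valuation.map_add_eq_of_lt_right, valuation_algebraMap hK hq]
  rw [valuation_algebraMap hK hq, map_mul]
  calc V.valuation y * V.valuation (aeval y q.divX) ≤ V.valuation y * 1 :=
        mul_le_mul' le_rfl ((V.valuation_le_one_iff _).mpr hmem)
    _ < 1 := by rwa [mul_one]

omit [IsAlgClosed K] in
/-- Elements `z i` such that all `γ ^ m * val (z i)` are distinct are independent over `K(y)`. -/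
private theorem linearIndependent_of_val {ι : Type*} [Fintype ι] {y : F} {z : ι → F}
    (hy : V.valuation y < 1) (hz : ∀ i, z i ≠ 0)
    (hinj : ∀ i j (m k : ℕ),
      V.valuation y ^ m * V.valuation (z i) = V.valuation y ^ k * V.valuation (z j) → i = j) :
    LinearIndependent K⟮y⟯ z := by
  classical
  refine linearIndependent_adjoin_of_poly fun p hp => ?_
  by_contra hne
  push Not at hne
  obtain ⟨i₁, hi₁⟩ := hne
  obtain ⟨i₀, -, hmax⟩ := Finset.exists_max_image (Finset.univ : Finset ι)
    (fun i => V.valuation (aeval y (p i) * z i)) ⟨i₁, Finset.mem_univ _⟩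
  have hne0 : ∀ i, aeval y (p i) * z i ≠ 0 →
      ∃ m : ℕ, V.valuation (aeval y (p i) * z i) = V.valuation y ^ m * V.valuation (z i) := by
    intro i hi
    have hpi : p i ≠ 0 := fun h => hi (by simp [h])
    obtain ⟨m, hm, -⟩ := valuation_aeval hK hy hpi
    exact ⟨m, by rw [map_mul, hm]⟩
  have hi₀ : aeval y (p i₀) * z i₀ ≠ 0 := by
    intro h0
    have := hmax i₁ (Finset.mem_univ _)
    simp only [h0, map_zero, le_zero_iff, map_eq_zero] at this
    exact mul_ne_zero hi₁ (hz i₁) this
  -- the term of largest value is unique, so the sum cannot vanish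
  have := V.valuation.map_sum_eq_of_lt (f := fun i => aeval y (p i) * z i) (Finset.mem_univ i₀)
    fun i hi => lt_of_le_of_ne (hmax i (Finset.mem_univ _)) fun he => by
      simp only [Finset.mem_sdiff, Finset.mem_singleton] at hi
      by_cases h0 : aeval y (p i) * z i = 0
      · rw [h0, map_zero] at he
        exact hi₀ ((map_eq_zero _).mp he.symm)
      obtain ⟨m, hm⟩ := hne0 i h0
      obtain ⟨k, hk⟩ := hne0 i₀ hi₀
      exact hi.2 (hinj i i₀ m k (hm.symm.trans (he.trans hk)))
  simp only [hp, map_zero] at this
  exact hi₀ ((map_eq_zero _).mp this.symm)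

variable [IsFunctionField K F] (hV : V ≠ ⊤)

omit [IsAlgClosed K] in
/-- Only finitely many values lie in `(val y, 1]`. -/
private theorem finite_values {y : F} (hy : V.valuation y < 1) (hy0 : y ≠ 0)
    (hyK : Transcendental K y) :
    {δ : V.ValueGroup | V.valuation y < δ ∧ δ ≤ 1}.Finite := by
  classical
  have := finiteDimensional_adjoin hyK
  set n := Module.finrank K⟮y⟯ F
  set γ := V.valuation y with hγ
  have hγ0 : 0 < γ := zero_lt_iff.mpr (V.valuation.ne_zero_iff.mpr hy0)
  by_contra hinf
  obtain ⟨S, hS, hcard⟩ := Set.Infinite.exists_subset_card_eq hinf (n + 1)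
  choose z hz using fun δ : S => V.valuation_surjective (δ : V.ValueGroup)
  have hz0 : ∀ δ, z δ ≠ 0 := fun δ h0 => by
    have h := (hS δ.2).1
    rw [← hz δ, h0, map_zero] at h
    exact not_lt_zero h
  -- `n + 1` such values give too many independent elements over `K(y)`
  have hli : LinearIndependent K⟮y⟯ z := by
    refine linearIndependent_of_val hK hy hz0 fun i j m k h => ?_
    rw [hz, hz, ← hγ] at h
    have key : ∀ (i j : S) (m k : ℕ), m < k → γ ^ m * (i : V.ValueGroup) ≠ γ ^ k * j := by
      intro i j m k hmk
      refine ne_of_gt ?_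
      calc γ ^ k * (j : V.ValueGroup) ≤ γ ^ (m + 1) * 1 :=
            mul_le_mul' (pow_le_pow_right_of_le_one' hy.le hmk) (hS j.2).2
        _ = γ ^ m * γ := by rw [mul_one, pow_succ]
        _ < γ ^ m * i := mul_lt_mul_of_pos_left (hS i.2).1 (pow_pos hγ0 m)
    rcases lt_trichotomy m k with hmk | rfl | hmk
    · exact absurd h (key i j m k hmk)
    · exact Subtype.ext (mul_left_cancel₀ (pow_ne_zero _ hγ0.ne') h)
    · exact absurd h.symm (key j i k m hmk)
  have := hli.fintype_card_le_finrank
  rw [Fintype.card_coe, hcard] at this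
  omega

omit [IsAlgClosed K] in
/-- The powers of the value of `y` go below every value. -/
private theorem exists_pow_lt_valuation {y : F} (hy : V.valuation y < 1) (hy0 : y ≠ 0)
    (hyK : Transcendental K y) {g : F} (hg : g ≠ 0) :
    ∃ M : ℕ, V.valuation y ^ M < V.valuation g := by
  classical
  have := finiteDimensional_adjoin hyK
  set n := Module.finrank K⟮y⟯ F
  set γ := V.valuation y with hγ
  have hγ0 : 0 < γ := zero_lt_iff.mpr (V.valuation.ne_zero_iff.mpr hy0)
  by_contra h
  push Not at h
  have hg1 : V.valuation g < 1 := (h 1).trans_lt (by rwa [pow_one])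
  have hg0 : 0 < V.valuation g := zero_lt_iff.mpr (V.valuation.ne_zero_iff.mpr hg)
  -- otherwise `1, g, …, gⁿ` are independent over `K(y)`
  have hli : LinearIndependent K⟮y⟯ (fun j : Fin (n + 1) => g ^ (j : ℕ)) := by
    refine linearIndependent_of_val hK hy (fun j => pow_ne_zero _ hg) fun i j m k he => ?_
    rw [map_pow, map_pow, ← hγ] at he
    have key : ∀ (i j : Fin (n + 1)) (m k : ℕ), i < j →
        γ ^ m * V.valuation g ^ (i : ℕ) ≠ γ ^ k * V.valuation g ^ (j : ℕ) := by
      intro i j m k hij
      refine ne_of_gt ?_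
      calc γ ^ k * V.valuation g ^ (j : ℕ) ≤ 1 * V.valuation g ^ ((i : ℕ) + 1) :=
            mul_le_mul' (pow_le_one' hy.le k) (pow_le_pow_right_of_le_one' hg1.le hij)
        _ = V.valuation g * V.valuation g ^ (i : ℕ) := by rw [one_mul, pow_succ']
        _ ≤ γ ^ (m + 1) * V.valuation g ^ (i : ℕ) := mul_le_mul' (h _) le_rfl
        _ < γ ^ m * V.valuation g ^ (i : ℕ) :=
            mul_lt_mul_of_pos_right (pow_lt_pow_right_of_lt_one₀ hγ0 hy (Nat.lt_succ_self m))
              (pow_pos hg0 _)
    rcases lt_trichotomy i j with hij | hij | hij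
    · exact absurd he (key i j m k hij)
    · exact hij
    · exact absurd he.symm (key j i k m hij)
  have := hli.fintype_card_le_finrank
  rw [Fintype.card_fin] at this
  omega

omit [IsAlgClosed K] in
/-- There is a largest value below `1`, and a power of it is at most `val y`. -/
private theorem exists_max_value {y : F} (hy : V.valuation y < 1) (hy0 : y ≠ 0)
    (hyK : Transcendental K y) :
    ∃ (π : F) (N : ℕ), π ≠ 0 ∧ V.valuation π < 1 ∧ V.valuation π ^ N ≤ V.valuation y ∧
      ∀ g : F, V.valuation g < 1 → V.valuation g ≤ V.valuation π := by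
  set γ := V.valuation y with hγ
  have hγ0 : 0 < γ := zero_lt_iff.mpr (V.valuation.ne_zero_iff.mpr hy0)
  have hfin := finite_values hK hy hy0 hyK
  obtain ⟨δ₀, ⟨hδγ, hδ1⟩, hδmax⟩ : ∃ δ₀, (γ ≤ δ₀ ∧ δ₀ < 1) ∧ ∀ δ, γ ≤ δ → δ < 1 → δ ≤ δ₀ := by
    obtain ⟨δ₀, hδ₀, hmax⟩ := Set.exists_max_image {δ : V.ValueGroup | γ ≤ δ ∧ δ < 1} id
      ((hfin.insert γ).subset fun δ hδ => by
        rcases eq_or_lt_of_le hδ.1 with h | h
        · exact Set.mem_insert_iff.mpr (.inl h.symm)
        · exact Set.mem_insert_of_mem _ ⟨h, hδ.2.le⟩) ⟨γ, le_rfl, hy⟩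
    exact ⟨δ₀, hδ₀, fun δ h1 h2 => hmax δ ⟨h1, h2⟩⟩
  obtain ⟨π, hπ⟩ := V.valuation_surjective δ₀
  have hlow : ∀ g : F, V.valuation g < 1 → V.valuation g ≤ δ₀ := fun g hg => by
    rcases le_total γ (V.valuation g) with h | h
    · exact hδmax _ h hg
    · exact h.trans hδγ
  -- some power of `δ₀` is below `γ`
  obtain ⟨N, hN⟩ : ∃ N : ℕ, δ₀ ^ N ≤ γ := by
    by_contra h
    push Not at h
    refine (Set.infinite_range_of_injective (f := fun k : ℕ => δ₀ ^ k) ?_) (hfin.subset ?_)
    · exact (pow_right_strictAnti₀ (hγ0.trans_le hδγ) hδ1).injective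
    · rintro _ ⟨k, rfl⟩
      exact ⟨h k, pow_le_one' hδ1.le k⟩
  refine ⟨π, N, fun h => ?_, hπ ▸ hδ1, hπ ▸ hN, fun g hg => hπ ▸ hlow g hg⟩
  rw [h, map_zero] at hπ
  exact (hγ0.trans_le hδγ).ne hπ

include hV

/-- A valuation subring of a function field, containing `K`, is principal. -/
theorem isPrincipalIdealRing_of_algebraMap_mem : IsPrincipalIdealRing V := by
  classical
  obtain ⟨f, hf⟩ : ∃ f : F, f ∉ V := by
    by_contra h
    push Not at h
    exact hV (SetLike.ext fun x => ⟨fun _ => ValuationSubring.mem_top x, fun _ => h x⟩)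
  set y := f⁻¹ with hydef
  have hf0 : f ≠ 0 := fun h => hf (h ▸ zero_mem _)
  have hy0 : y ≠ 0 := inv_ne_zero hf0
  have hy : V.valuation y < 1 := V.mem_nonunits_iff.mp (V.inv_mem_nonunits_iff.mpr (.inr hf))
  have hyK : Transcendental K y := transcendental_of_not_mem fun ⟨c, hc⟩ => by
    rcases eq_or_ne c 0 with rfl | hc0
    · exact hy0 (by simpa using hc.symm)
    · rw [← hc, valuation_algebraMap hK hc0] at hy
      exact lt_irrefl _ hy
  set γ := V.valuation y with hγ
  obtain ⟨π, N, hπ0, hπ1, hN, hlow⟩ := exists_max_value hK hy hy0 hyK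
  set δ₀ := V.valuation π with hπ
  have harch : ∀ g : F, g ≠ 0 → ∃ M : ℕ, γ ^ M < V.valuation g := fun g hg =>
    exists_pow_lt_valuation hK hy hy0 hyK hg
  have hδ0 : 0 < δ₀ := zero_lt_iff.mpr (V.valuation.ne_zero_iff.mpr hπ0)
  have hπmem : π ∈ V := (V.valuation_le_one_iff π).mp hπ1.le
  let p : V := ⟨π, hπmem⟩
  have hpu : ¬IsUnit p := fun h => hπ1.ne ((V.valuation_eq_one_iff p).mp h)
  -- every nonzero element is a unit times a power of `π`: divide by `π` until the value is `1`
  have hfac : ∀ g : V, g ≠ 0 → ∃ k : ℕ, Associated (p ^ k) g := by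
    intro g hg
    have hgF : (g : F) ≠ 0 := by simpa using hg
    obtain ⟨M, hM⟩ := harch g hgF
    suffices h : ∀ k : ℕ, ∀ g : V, δ₀ ^ k < V.valuation (g : F) → ∃ j, Associated (p ^ j) g by
      refine h (N * M) g (lt_of_le_of_lt ?_ hM)
      rw [pow_mul]
      exact pow_le_pow_left₀ zero_le hN M
    intro k
    induction k with
    | zero => intro g hg; exact absurd hg (not_lt.mpr (by simp))
    | succ k ih =>
      intro g hg
      rcases V.valuation_lt_one_or_eq_one g with h1 | h1
      · obtain ⟨a, ha⟩ := (V.valuation_le_iff (g : F) π).mp (hlow _ h1)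
        have hga : g = a * p := Subtype.ext ha.symm
        obtain ⟨j, hj⟩ := ih a (by
          rw [hga] at hg
          push_cast at hg
          rw [map_mul, pow_succ] at hg
          exact lt_of_mul_lt_mul_right' hg)
        exact ⟨j + 1, by rw [hga, pow_succ]; exact hj.mul_right p⟩
      · exact ⟨0, by
          simpa using (associated_one_iff_isUnit.mpr ((V.valuation_eq_one_iff g).mpr h1)).symm⟩
  -- `π` is irreducible, its value being the largest below `1`
  have hirr : Irreducible p := by
    refine ⟨hpu, fun a b hab => ?_⟩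
    by_contra hcon
    push Not at hcon
    have ha := (V.valuation_lt_one_or_eq_one a).resolve_right
      fun h => hcon.1 ((V.valuation_eq_one_iff a).mpr h)
    have hb := (V.valuation_lt_one_or_eq_one b).resolve_right
      fun h => hcon.2 ((V.valuation_eq_one_iff b).mpr h)
    have : δ₀ ≤ δ₀ * δ₀ := by
      calc δ₀ = V.valuation (p : F) := rfl
        _ = V.valuation (a : F) * V.valuation (b : F) := by rw [hab]; push_cast; rw [map_mul]
        _ ≤ δ₀ * δ₀ := mul_le_mul' (hlow _ ha) (hlow _ hb)
    exact not_lt.mpr this (mul_lt_of_lt_one_left hδ0 hπ1)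
  have : IsDiscreteValuationRing V :=
    IsDiscreteValuationRing.ofHasUnitMulPowIrreducibleFactorization ⟨p, hirr, fun hg => hfac _ hg⟩
  infer_instance

/-- The place given by a valuation subring. -/
def placeOfValuationSubring : Place K F :=
  ⟨V, hK, hV, isPrincipalIdealRing_of_algebraMap_mem hK hV⟩

/-- The place given by `V` has valuation ring `V`. -/
@[simp] theorem placeOfValuationSubring_toValuationSubring :
    (placeOfValuationSubring hK hV).toValuationSubring = V := rfl

end Valuation

variable [IsFunctionField K F]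

/-- Chevalley: a proper ideal of a subalgebra, with a nonzero element, has a centre. -/
theorem exists_place_center (R : Subalgebra K F) (I : Ideal R) (hI : I ≠ ⊤) {r₀ : R}
    (hr₀ : r₀ ∈ I) (hr₀0 : r₀ ≠ 0) :
    ∃ v : Place K F, (∀ r : R, OrdGE v (r : F) 0) ∧ ∀ r ∈ I, OrdGE v (r : F) 1 := by
  obtain ⟨V, hRV, hIV⟩ := Ideal.image_subset_nonunits_valuationSubring (A := R.toSubring) I hI
  have hK : ∀ a : K, algebraMap K F a ∈ V := fun a => hRV (R.algebraMap_mem a)
  have hV : V ≠ ⊤ := by
    intro h
    have := V.mem_nonunits_iff_or.mp (hIV ⟨r₀, hr₀, rfl⟩)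
    rcases this with h0 | h0
    · exact hr₀0 (Subtype.ext h0)
    · exact h0 (h ▸ ValuationSubring.mem_top _)
  refine ⟨placeOfValuationSubring hK hV, fun r => ?_, fun r hr => ?_⟩
  · exact (mem_iff_ordGE _).mp (hRV r.2)
  · rcases eq_or_ne (r : F) 0 with h0 | h0
    · rw [h0]; exact ordGE_zero _ _
    · have hn : (r : F) ∈ V.nonunits := hIV ⟨r, hr, rfl⟩
      rw [ValuationSubring.mem_nonunits_iff_or, or_iff_right h0] at hn
      have hlt := (not_mem_iff (placeOfValuationSubring hK hV)).mp hn
      rw [Place.ord_inv] at hlt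
      exact (ordGE_iff_of_ne h0).mpr (by omega)

/-- A transcendental element has a zero. -/
theorem exists_place_ord_pos {y : F} (hy : Transcendental K y) :
    ∃ v : Place K F, 0 < v.ord y := by
  let R := Algebra.adjoin K {y}
  let y' : R := ⟨y, Algebra.self_mem_adjoin_singleton K y⟩
  have hy0 : y ≠ 0 := fun h => hy (h ▸ isAlgebraic_zero)
  have hI : Ideal.span {y'} ≠ ⊤ := by
    rw [ne_eq, Ideal.span_singleton_eq_top]
    intro hu
    obtain ⟨⟨b, hb⟩, hyb⟩ := isUnit_iff_exists_inv.mp hu
    obtain ⟨p, rfl⟩ : ∃ p : K[X], aeval y p = b := by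
      simpa [R, Algebra.adjoin_singleton_eq_range_aeval] using hb
    have h1 : aeval y (X * p - 1) = 0 := by
      have := congrArg Subtype.val hyb
      simpa [y', sub_eq_zero] using this
    have h2 : (X * p - 1 : K[X]) ≠ 0 := fun h => by simpa using congrArg (eval 0) h
    exact hy ⟨_, h2, h1⟩
  obtain ⟨v, -, hv⟩ := exists_place_center R _ hI (Ideal.mem_span_singleton_self y')
    (fun h => hy0 congr(($h : F)))
  refine ⟨v, ?_⟩
  have := (hv y' (Ideal.mem_span_singleton_self y')).le_ord hy0
  simp only [y'] at this
  omega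

/-- A function regular everywhere is constant. -/
theorem mem_range_of_forall_ordGE {f : F} (h : ∀ v : Place K F, OrdGE v f 0) :
    f ∈ Set.range (algebraMap K F) := by
  by_contra hf
  have hf' : f⁻¹ ∉ Set.range (algebraMap K F) := fun ⟨c, hc⟩ => hf ⟨c⁻¹, by simp [hc]⟩
  obtain ⟨v, hv⟩ := exists_place_ord_pos (transcendental_of_not_mem hf')
  rw [v.ord_inv] at hv
  have hf0 : f ≠ 0 := fun h0 => hf ⟨0, by simp [h0]⟩
  have := (h v).le_ord hf0
  omega

/-- A function field over an algebraically closed field has a place. -/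
theorem nonempty_place (K F : Type*) [Field K] [Field F] [Algebra K F] [IsAlgClosed K]
    [IsFunctionField K F] : Nonempty (Place K F) := by
  obtain ⟨x, hx, -, -⟩ := IsFunctionField.exists_separating (K := K) (F := F)
  exact ⟨(exists_place_ord_pos hx).choose⟩

/-- Every regular function has a value at a place: residue fields are `K`. -/
theorem exists_value {v : Place K F} {f : F} (hf : OrdGE v f 0) :
    ∃ c : K, OrdGE v (f - algebraMap K F c) 1 := by
  classical
  by_contra h
  push Not at h
  -- otherwise every nonzero polynomial in `f` is a unit at `v`, and the powers of `f` are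
  -- independent over `K(y)` for a uniformiser `y`, contradicting `[F : K(y)] < ∞`
  have hlin : ∀ c : K, f - algebraMap K F c ≠ 0 ∧ v.ord (f - algebraMap K F c) = 0 := fun c => by
    have hne : f - algebraMap K F c ≠ 0 := fun h0 => h c (h0 ▸ ordGE_zero v 1)
    refine ⟨hne, le_antisymm ?_ ((hf.sub (ordGE_algebraMap v c)).le_ord hne)⟩
    by_contra hlt
    exact h c ((ordGE_iff_of_ne hne).mpr (by omega))
  have hroots : ∀ s : Multiset K,
      (s.map fun c => f - algebraMap K F c).prod ≠ 0 ∧
      v.ord (s.map fun c => f - algebraMap K F c).prod = 0 := fun s => by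
    induction s using Multiset.induction with
    | empty => simp
    | cons a s ih =>
      rw [Multiset.map_cons, Multiset.prod_cons]
      exact ⟨mul_ne_zero (hlin a).1 ih.1, by rw [v.ord_mul (hlin a).1 ih.1, (hlin a).2, ih.2]; rfl⟩
  have hpoly : ∀ q : K[X], q ≠ 0 → aeval f q ≠ 0 ∧ v.ord (aeval f q) = 0 := fun q hq => by
    rw [(IsAlgClosed.splits q).eq_prod_roots]
    simp only [map_mul, aeval_C, map_multiset_prod, Multiset.map_map, Function.comp_def, map_sub,
      aeval_X]
    have hl : algebraMap K F q.leadingCoeff ≠ 0 := by simpa using hq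
    exact ⟨mul_ne_zero hl (hroots _).1,
      by rw [v.ord_mul hl (hroots _).1, ord_algebraMap, (hroots _).2]; rfl⟩
  obtain ⟨y, hy0, hy⟩ := exists_ord_eq_one v
  have := finiteDimensional_adjoin (transcendental_of_ord_ne_zero (v := v) (y := y) (by omega))
  set n := Module.finrank K⟮y⟯ F
  have hyge : OrdGE v y 1 := (ordGE_iff_of_ne hy0).mpr hy.ge
  have hli : LinearIndependent K⟮y⟯ (fun j : Fin (n + 1) => f ^ (j : ℕ)) := by
    refine linearIndependent_adjoin_of_poly fun p hp => ?_
    suffices H : ∀ d : ℕ, ∀ p : Fin (n + 1) → K[X], (∀ i, (p i).natDegree < d) →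
        ∑ i, aeval y (p i) * f ^ (i : ℕ) = 0 → ∀ i, p i = 0 by
      intro i
      rw [H (Finset.univ.sup (fun i => (p i).natDegree) + 1) p
        (fun i => Nat.lt_succ_of_le (Finset.le_sup (f := fun i => (p i).natDegree)
          (Finset.mem_univ i))) hp i, map_zero]
    intro d
    induction d with
    | zero => intro p hd; exact absurd (hd 0) (Nat.not_lt_zero _)
    | succ d ih =>
      intro p hd hp
      have hsplit : ∑ i, aeval y (p i) * f ^ (i : ℕ) =
          y * (∑ i, aeval y (p i).divX * f ^ (i : ℕ)) +
            aeval f (∑ i, C ((p i).coeff 0) * X ^ (i : ℕ)) := by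
        rw [Finset.mul_sum, map_sum, ← Finset.sum_add_distrib]
        refine Finset.sum_congr rfl fun i _ => ?_
        nth_rewrite 1 [← X_mul_divX_add (p i)]
        simp only [map_add, map_mul, aeval_X, aeval_C, aeval_X_pow]
        ring
      have hc : (∑ i, C ((p i).coeff 0) * X ^ (i : ℕ)) = 0 := by
        by_contra hq
        obtain ⟨hne, hord⟩ := hpoly _ hq
        have h1 : OrdGE v (y * (∑ i, aeval y (p i).divX * f ^ (i : ℕ))) (1 + 0) :=
          hyge.mul <| OrdGE.sum fun i _ =>
            ((ordGE_aeval (hyge.mono (by norm_num)) _).mul (hf.pow i)).mono (by simp)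
        rw [hsplit, add_comm] at hp
        exact (ord_eq_of_ordGE_lt v hne (h1.mono (by rw [hord]; simp))).2 hp
      have hci : ∀ i, (p i).coeff 0 = 0 := fun i => by
        have := congrArg (fun q => coeff q (i : ℕ)) hc
        simpa [finsetSum_coeff, coeff_C_mul, coeff_X_pow, Fin.val_inj] using this
      rw [hsplit, hc, map_zero, add_zero, mul_eq_zero, or_iff_right hy0] at hp
      intro i
      rw [← X_mul_divX_add (p i), hci i, map_zero, add_zero]
      rcases Nat.eq_zero_or_pos d with rfl | hdpos
      · have : (p i).divX = 0 := by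
          rw [divX_eq_zero_iff]; exact eq_C_of_natDegree_eq_zero (by have := hd i; omega)
        simp [this]
      · rw [ih (fun i => (p i).divX) (fun i => by
          rw [natDegree_divX_eq_natDegree_tsub_one]; have := hd i; omega) hp i, mul_zero]
  have := hli.fintype_card_le_finrank
  rw [Fintype.card_fin] at this
  omega

open Classical in
/-- The value of a function at a place (junk value `0` at a pole). -/
def evalAt (v : Place K F) (f : F) : K :=
  if h : OrdGE v f 0 then (exists_value h).choose else 0

/-- A function regular at `v` is congruent to its value modulo the maximal ideal. -/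
theorem evalAt_spec {v : Place K F} {f : F} (hf : OrdGE v f 0) :
    OrdGE v (f - algebraMap K F (evalAt v f)) 1 := by
  rw [evalAt, dif_pos hf]; exact (exists_value hf).choose_spec

omit [IsAlgClosed K] [IsFunctionField K F] in
/-- A constant vanishing at a place is zero. -/
theorem eq_zero_of_ordGE_one {v : Place K F} {c : K} (h : OrdGE v (algebraMap K F c) 1) :
    c = 0 := by
  by_contra hc
  have := h.le_ord (by simpa using hc)
  rw [ord_algebraMap] at this
  omega

/-- The value is the only constant congruent to `f` at `v`. -/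
theorem evalAt_eq {v : Place K F} {f : F} {c : K} (h : OrdGE v (f - algebraMap K F c) 1) :
    evalAt v f = c := by
  have hf : OrdGE v f 0 := by simpa using (h.mono zero_le_one).add (ordGE_algebraMap v c)
  have := h.sub (evalAt_spec hf)
  rw [sub_sub_sub_cancel_left, ← map_sub] at this
  exact sub_eq_zero.mp (eq_zero_of_ordGE_one this)

/-- The value of a constant is that constant. -/
@[simp] theorem evalAt_algebraMap (v : Place K F) (c : K) : evalAt v (algebraMap K F c) = c :=
  evalAt_eq (by simpa using ordGE_zero v 1)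

/-- The value of `1` is `1`. -/
@[simp] theorem evalAt_one (v : Place K F) : evalAt v (1 : F) = 1 := by
  simpa using evalAt_algebraMap v (1 : K)

/-- The value is additive on functions regular at `v`. -/
theorem evalAt_add {v : Place K F} {f g : F} (hf : OrdGE v f 0) (hg : OrdGE v g 0) :
    evalAt v (f + g) = evalAt v f + evalAt v g :=
  evalAt_eq (by rw [map_add, add_sub_add_comm]; exact (evalAt_spec hf).add (evalAt_spec hg))

/-- The value of a finite sum of regular functions is the sum of the values. -/
theorem evalAt_sum {α : Type*} {P : Place K F} (s : Finset α) (f : α → F)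
    (hf : ∀ a ∈ s, OrdGE P (f a) 0) :
    evalAt P (∑ a ∈ s, f a) = ∑ a ∈ s, evalAt P (f a) := by
  classical
  induction s using Finset.induction_on with
  | empty => simpa using evalAt_algebraMap P (0 : K)
  | insert a s ha ih =>
    have h := fun b hb => hf b (Finset.mem_insert_of_mem hb)
    rw [Finset.sum_insert ha, Finset.sum_insert ha,
      evalAt_add (hf a (Finset.mem_insert_self a s)) (OrdGE.sum h), ih h]

/-- The value is multiplicative on functions regular at `v`. -/
theorem evalAt_mul {v : Place K F} {f g : F} (hf : OrdGE v f 0) (hg : OrdGE v g 0) :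
    evalAt v (f * g) = evalAt v f * evalAt v g := by
  refine evalAt_eq ?_
  have : f * g - algebraMap K F (evalAt v f * evalAt v g) =
      (f - algebraMap K F (evalAt v f)) * g +
        algebraMap K F (evalAt v f) * (g - algebraMap K F (evalAt v g)) := by rw [map_mul]; ring
  rw [this]
  exact (((evalAt_spec hf).mul hg).mono (by norm_num)).add
    (((ordGE_algebraMap v _).mul (evalAt_spec hg)).mono (by norm_num))

/-- The value respects differences of functions regular at `v`. -/
theorem evalAt_sub {v : Place K F} {f g : F} (hf : OrdGE v f 0) (hg : OrdGE v g 0) :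
    evalAt v (f - g) = evalAt v f - evalAt v g := by
  have h := evalAt_add (hf.sub hg) hg
  rw [sub_add_cancel] at h
  rw [h, add_sub_cancel_right]

/-- The value is linear in scalars on functions regular at `v`. -/
theorem evalAt_const_smul {v : Place K F} {f : F} (c : K) (hf : OrdGE v f 0) :
    evalAt v (c • f) = c * evalAt v f := by
  rw [Algebra.smul_def, evalAt_mul (ordGE_algebraMap v c) hf, evalAt_algebraMap]

/-- The value of a regular function is zero iff the function vanishes at `v`. -/
theorem evalAt_eq_zero_iff {v : Place K F} {f : F} (hf : OrdGE v f 0) :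
    evalAt v f = 0 ↔ OrdGE v f 1 := by
  refine ⟨fun h => by simpa [h] using evalAt_spec hf, fun h => evalAt_eq (by simpa using h)⟩

/-- Every place has residue field `K`. -/
theorem algebraMap_residueField_surjective (v : Place K F) :
    Function.Surjective (algebraMap K v.ResidueField) := by
  intro r
  obtain ⟨⟨f, hf⟩, rfl⟩ := IsLocalRing.residue_surjective r
  obtain ⟨c, hc⟩ := exists_value ((mem_iff_ordGE v).mp hf)
  refine ⟨c, ?_⟩
  change IsLocalRing.residue _ (algebraMap K v.toValuationSubring c) = _
  rw [← sub_eq_zero, ← map_sub, IsLocalRing.residue_eq_zero_iff, IsLocalRing.mem_maximalIdeal,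
    mem_nonunits_iff]
  intro hu
  have h0 := v.ord_coe_unit hu.unit
  rw [IsUnit.unit_spec] at h0
  simp only [AddSubgroupClass.coe_sub, Place.coe_algebraMap] at h0
  rw [← neg_sub, ord_neg] at h0
  have hne : f - algebraMap K F c ≠ 0 := fun h => hu.ne_zero (Subtype.ext (by
    simp only [AddSubgroupClass.coe_sub, Place.coe_algebraMap, ZeroMemClass.coe_zero]
    rw [← neg_sub, h, neg_zero]))
  have := hc.le_ord hne
  omega

/-- Residue fields are finite over `K`, being equal to `K`. -/
instance (priority := 100) instFiniteResidue (v : Place K F) : Module.Finite K v.ResidueField :=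
  Module.Finite.of_surjective (Algebra.linearMap K v.ResidueField)
    (algebraMap_residueField_surjective v)

/-- Every place has degree one. -/
@[simp] theorem deg_eq_one (v : Place K F) : v.deg = 1 :=
  v.deg_eq_one_of_isAlgClosed_of_finite

/-- The degree of a divisor is the sum of its coefficients. -/
theorem degree_eq_sum (D : Divisor K F) : Divisor.degree D = D.sum fun _ n => n := by
  simp [Divisor.degree, Finsupp.liftAddHom_apply]

end Fermat.FF

end
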