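import Fermat.Agent.FF.Existence
import Fermat.Prelude.Def_AlgebraicCurve_BaseChangeGalois
import Fermat.Prelude.Def_AlgebraicCurve_Repartitions

/-!
# The spaces `L(D)` are finite dimensional

The dimension is `ell`, and `mem_riemannRochSpace` is the membership criterion.
-/

set_option autoImplicit false

noncomputable section

open AlgebraicCurve

namespace Fermat.FF

variable {K F : Type*} [Field K] [Field F] [Algebra K F]

/-- `ℓ(D)`. -/
def ell (D : Divisor K F) : ℕ := Module.finrank K (riemannRochSpace D)

/-- `f ∈ L(D)` iff `ord_v f ≥ -D(v)` everywhere. -/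
theorem mem_riemannRochSpace {D : Divisor K F} {f : F} :
    f ∈ riemannRochSpace D ↔ ∀ v : Place K F, OrdGE v f (-D v) := by
  change (∀ v : Place K F, v.adicValuation f ≤ WithZero.exp (D v)) ↔ _
  simp [OrdGE]

/-- `L` is monotone in the divisor. -/
theorem riemannRochSpace_mono {D D' : Divisor K F} (h : D ≤ D') :
    riemannRochSpace D ≤ riemannRochSpace D' := fun f hf => by
  rw [mem_riemannRochSpace] at hf ⊢
  exact fun v => (hf v).mono (by have := Finsupp.le_def.mp h v; omega)

variable [IsAlgClosed K] [IsFunctionField K F]

/-- `L(0)` consists of the constants. -/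
theorem riemannRochSpace_zero :
    riemannRochSpace (0 : Divisor K F) = LinearMap.range (Algebra.linearMap K F) := by
  refine le_antisymm (fun f hf => ?_) ?_
  · rw [mem_riemannRochSpace] at hf
    exact mem_range_of_forall_ordGE fun v => by simpa using hf v
  · rintro _ ⟨c, rfl⟩
    rw [mem_riemannRochSpace]
    intro v
    simpa using ordGE_algebraMap v c

/-- Adding a place to a divisor raises the dimension by at most one. -/
theorem finrank_riemannRochSpace_add_single (D : Divisor K F) (v : Place K F)
    [FiniteDimensional K (riemannRochSpace D)] :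
    FiniteDimensional K (riemannRochSpace (D + Finsupp.single v 1)) ∧
      ell (D + Finsupp.single v 1) ≤ ell D + 1 := by
  classical
  set E := D + Finsupp.single v 1 with hE
  have hEv : E v = D v + 1 := by simp [hE]
  have hEw : ∀ w ≠ v, E w = D w := fun w hw => by simp [hE, Finsupp.single_eq_of_ne hw]
  obtain ⟨t, ht0, ht⟩ := exists_ord_eq v (E v)
  have hts : ∀ f : riemannRochSpace E, OrdGE v (t * f) 0 := fun f =>
    ((ordGE_ord v t).mul (mem_riemannRochSpace.mp f.2 v)).mono (by rw [ht]; omega)
  -- the leading coefficient at `v`, with kernel `L(D)`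
  let φ : riemannRochSpace E →ₗ[K] K :=
    { toFun := fun f => evalAt v (t * f)
      map_add' := fun f g => by
        push_cast
        rw [mul_add]
        exact evalAt_add (hts f) (hts g)
      map_smul' := fun c f => by
        push_cast
        rw [mul_smul_comm, Algebra.smul_def,
          evalAt_mul (ordGE_algebraMap v c) (hts f), evalAt_algebraMap]
        rfl }
  have hmem : ∀ f : riemannRochSpace E, φ f = 0 ↔ (f : F) ∈ riemannRochSpace D := fun f => by
    change evalAt v (t * f) = 0 ↔ _
    rw [evalAt_eq_zero_iff (hts f), mem_riemannRochSpace]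
    constructor
    · intro h w
      rcases eq_or_ne w v with rfl | hw
      · have := ((ordGE_ord w t⁻¹).mul h).mono (m := -D w) (by rw [w.ord_inv, ht]; omega)
        rwa [inv_mul_cancel_left₀ ht0] at this
      · exact (mem_riemannRochSpace.mp f.2 w).mono (by rw [hEw w hw])
    · intro h
      exact ((ordGE_ord v t).mul (h v)).mono (by rw [ht]; omega)
  let ι : LinearMap.ker φ →ₗ[K] riemannRochSpace D :=
    { toFun := fun f => ⟨((f : riemannRochSpace E) : F), (hmem f).mp f.2⟩
      map_add' := fun _ _ => rfl
      map_smul' := fun _ _ => rfl }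
  have hι : Function.Injective ι := fun f g h =>
    Subtype.ext (Subtype.ext (congrArg Subtype.val h : _))
  have : FiniteDimensional K (LinearMap.ker φ) := Module.Finite.of_injective ι hι
  have : FiniteDimensional K (riemannRochSpace E ⧸ LinearMap.ker φ) :=
    Module.Finite.equiv φ.quotKerEquivRange.symm
  have hfin : FiniteDimensional K (riemannRochSpace E) :=
    Module.Finite.of_submodule_quotient (LinearMap.ker φ)
  refine ⟨hfin, ?_⟩
  have h1 := φ.finrank_range_add_finrank_ker
  have h2 : Module.finrank K (LinearMap.range φ) ≤ 1 :=
    (Submodule.finrank_le _).trans (by rw [Module.finrank_self])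
  have h3 : Module.finrank K (LinearMap.ker φ) ≤ ell D :=
    LinearMap.finrank_le_finrank_of_injective hι
  change Module.finrank K (riemannRochSpace E) ≤ ell D + 1
  omega

/-- An effective divisor of degree `m` has a space of dimension at most `m + 1`. -/
theorem ell_sum_single_le (m : Multiset (Place K F)) :
    FiniteDimensional K (riemannRochSpace (m.map fun v => Finsupp.single v (1 : ℤ)).sum) ∧
      ell (m.map fun v => Finsupp.single v (1 : ℤ)).sum ≤ Multiset.card m + 1 := by
  induction m using Multiset.induction with
  | empty =>
    rw [Multiset.map_zero, Multiset.sum_zero, Multiset.card_zero]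
    let e := LinearEquiv.ofEq _ _ (riemannRochSpace_zero (K := K) (F := F))
    refine ⟨Module.Finite.equiv e.symm, ?_⟩
    rw [ell, e.finrank_eq]
    exact (LinearMap.finrank_range_le _).trans (by rw [Module.finrank_self])
  | cons a m ih =>
    rw [Multiset.map_cons, Multiset.sum_cons, add_comm, Multiset.card_cons]
    have := ih.1
    obtain ⟨h1, h2⟩ := finrank_riemannRochSpace_add_single
      (m.map fun v => Finsupp.single v (1 : ℤ)).sum a
    exact ⟨h1, h2.trans (by have := ih.2; omega)⟩

/-- A multiset of places dominating `D`, of size `deg D` when `D` is effective. -/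
theorem exists_multiset (D : Divisor K F) :
    ∃ m : Multiset (Place K F), (∀ v, D v ≤ (m.map fun v => Finsupp.single v (1 : ℤ)).sum v) ∧
      ((0 ≤ D) → (Multiset.card m : ℤ) = Divisor.degree D) := by
  classical
  induction D using Finsupp.induction with
  | zero => exact ⟨0, by simp, by simp⟩
  | single_add a n D ha hn ih =>
    obtain ⟨m, hm, hdeg⟩ := ih
    refine ⟨Multiset.replicate n.toNat a + m, fun v => ?_, fun h0 => ?_⟩
    · rw [Multiset.map_add, Multiset.sum_add, Multiset.map_replicate, Multiset.sum_replicate,
        Finsupp.add_apply, Finsupp.add_apply, Finsupp.smul_apply]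
      rcases eq_or_ne v a with rfl | hv
      · have := hm v
        simp only [Finsupp.single_eq_same, nsmul_eq_mul, mul_one]
        omega
      · simp only [Finsupp.single_eq_of_ne hv, smul_zero, zero_add]
        exact hm v
    -- the degree adds up
    · have hn0 : 0 ≤ n := by
        have := Finsupp.le_def.mp h0 a
        simp only [Finsupp.coe_zero, Pi.zero_apply, Finsupp.add_apply, Finsupp.single_eq_same,
          Finsupp.notMem_support_iff.mp ha, add_zero] at this
        exact this
      have hD0 : 0 ≤ D := Finsupp.le_def.mpr fun v => by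
        rcases eq_or_ne v a with rfl | hv
        · simp [Finsupp.notMem_support_iff.mp ha]
        · have := Finsupp.le_def.mp h0 v
          simpa [Finsupp.single_eq_of_ne hv] using this
      rw [map_add, Divisor.degree_single, deg_eq_one, Multiset.card_add, Multiset.card_replicate]
      push_cast
      rw [← hdeg hD0]
      omega

/-- Riemann-Roch spaces are finite dimensional. -/
instance instFiniteRiemannRochSpace (D : Divisor K F) :
    FiniteDimensional K (riemannRochSpace D) := by
  obtain ⟨m, hm, -⟩ := exists_multiset D
  have := (ell_sum_single_le m).1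
  exact Submodule.finiteDimensional_of_le (riemannRochSpace_mono (Finsupp.le_def.mpr hm))

/-- `ℓ` is monotone. -/
theorem ell_mono {D D' : Divisor K F} (h : D ≤ D') : ell D ≤ ell D' :=
  Submodule.finrank_mono (riemannRochSpace_mono h)

/-- `ℓ(D) ≤ deg D + 1` for effective `D`. -/
theorem ell_le_of_nonneg {D : Divisor K F} (h : 0 ≤ D) :
    (ell D : ℤ) ≤ Divisor.degree D + 1 := by
  obtain ⟨m, hm, hdeg⟩ := exists_multiset D
  rw [← hdeg h]
  have h1 := (ell_sum_single_le m).2
  have h2 := ell_mono (Finsupp.le_def.mpr hm)
  omega

/-- `ℓ(0) = 1`. -/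
theorem ell_zero : ell (0 : Divisor K F) = 1 := by
  rw [ell, (LinearEquiv.ofEq _ _ (riemannRochSpace_zero (K := K) (F := F))).finrank_eq,
    LinearMap.finrank_range_of_inj (FaithfulSMul.algebraMap_injective K F), Module.finrank_self]

omit [IsAlgClosed K] [IsFunctionField K F] in
/-- A semilinear automorphism moves the spaces `L(D)` along. -/
theorem smul_mem_riemannRochSpace (σ : SemilinearAut K F) {D : Divisor K F} {f : F}
    (hf : f ∈ riemannRochSpace D) : σ • f ∈ riemannRochSpace (σ • D) := by
  rw [mem_riemannRochSpace] at *
  intro v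
  rcases eq_or_ne f 0 with rfl | hf0
  · rw [smul_zero]; exact ordGE_zero _ _
  have h := (hf (σ⁻¹ • v)).le_ord hf0
  rw [← SemilinearAut.ord_smul σ (σ⁻¹ • v) f, smul_inv_smul] at h
  refine (ordGE_iff_of_ne ((smul_ne_zero_iff_ne σ).mpr hf0)).mpr ?_
  rwa [SemilinearAut.divisor_smul_apply]

omit [IsAlgClosed K] [IsFunctionField K F] in
/-- Semilinear automorphisms are determined by their action on the field and on the constants. -/
theorem semilinearAut_ext {g g' : SemilinearAut K F} (hf : ∀ f : F, g • f = g' • f)
    (hb : SemilinearAut.baseAut g = SemilinearAut.baseAut g') : g = g' :=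
  Subtype.ext (Prod.ext (RingEquiv.ext hf) hb)

end Fermat.FF

end
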