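import Fermat.Agent.FF.Approx
import Fermat.Agent.FF.Existence
import Mathlib.LinearAlgebra.Matrix.Block
import Mathlib.RingTheory.Trace.Defs
import Mathlib.RingTheory.Norm.Defs

/-!
# An integral basis above one place

For a finite extension `F'/F` of function fields, a place `v` of `F` and finitely many places `w`
above it, functions `z (w, j)`, `j < e_w`, of order `j` at `w` and `≥ e_{w'}` at the other `w'` are
independent over `F`. If their number is `[F' : F]` they form a basis which is integral above `v`,
and multiplication by a regular function is triangular modulo `v` with diagonal its values.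
-/

set_option autoImplicit false

noncomputable section

open AlgebraicCurve

namespace Fermat.FF

variable {K F F' : Type*} [Field K] [Field F] [Field F'] [Algebra K F] [Algebra K F']
  [Algebra F F'] [IsScalarTower K F F'] [Algebra.IsIntegral F F']

/-- Orders upstairs are at least `e` times those downstairs. -/
theorem ordGE_algebraMap_of_restrict {v : Place K F} {w : Place K F'} (hw : w.restrict F = v)
    {c : F} {k : ℤ} (hc : OrdGE v c k) :
    OrdGE w (algebraMap F F' c) (w.ramificationIndex F * k) := by
  rcases eq_or_ne c 0 with rfl | hc0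
  · simpa using ordGE_zero w _
  · rw [ordGE_iff_of_ne (by simpa using hc0), w.ord_restrict c, hw]
    exact mul_le_mul_of_nonneg_left (hc.le_ord hc0) (Int.natCast_nonneg _)

variable (F) in
/-- Indices of a local family. -/
abbrev LocalIdx (S : Finset (Place K F')) : Type _ :=
  Σ w : S, Fin ((w : Place K F').ramificationIndex F)

variable {S : Finset (Place K F')}

open Classical in
/-- `z (w, j)` has order `j` at `w` and order `e` at the other places of `S`. -/
def IsLocalFamily (z : LocalIdx F S → F') : Prop :=
  ∀ i : LocalIdx F S, z i ≠ 0 ∧ ∀ w ∈ S,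
    w.ord (z i) = if w = (i.1 : Place K F') then (i.2 : ℤ) else w.ramificationIndex F

omit [IsScalarTower K F F'] [Algebra.IsIntegral F F'] [Algebra K F] in
/-- Local families exist. -/
theorem exists_localFamily (S : Finset (Place K F')) :
    ∃ z : LocalIdx F S → F', IsLocalFamily z := by
  classical
  choose z hz0 hz using fun i : LocalIdx F S =>
    exists_ord_eq_on S (fun w => if w = (i.1 : Place K F') then (i.2 : ℤ) else
      w.ramificationIndex F)
  refine ⟨z, fun i => ⟨hz0 i, fun w hw => ?_⟩⟩
  convert hz i w hw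

omit [Algebra K F] [IsScalarTower K F F'] [Algebra.IsIntegral F F'] in
/-- A local family has `∑ e_w` members. -/
theorem card_localIdx (S : Finset (Place K F')) :
    Fintype.card (LocalIdx F S) = ∑ w ∈ S, w.ramificationIndex F := by
  rw [Fintype.card_sigma]
  simp only [Fintype.card_fin]
  exact Finset.sum_coe_sort S fun w => w.ramificationIndex F

namespace IsLocalFamily

variable {z : LocalIdx F S → F'} (hz : IsLocalFamily z)
include hz

omit [Algebra K F] [IsScalarTower K F F'] [Algebra.IsIntegral F F'] in
/-- `z (w, j)` has order `j` at `w`. -/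
theorem ord_self (i : LocalIdx F S) : (i.1 : Place K F').ord (z i) = i.2 := by
  rw [(hz i).2 _ i.1.2, if_pos rfl]

omit [Algebra K F] [IsScalarTower K F F'] [Algebra.IsIntegral F F'] in
/-- `z (w, j)` has order `e_{w'}` at the other places `w'`. -/
theorem ord_other (i : LocalIdx F S) {w : Place K F'} (hw : w ∈ S) (hne : w ≠ (i.1 : Place K F')) :
    w.ord (z i) = w.ramificationIndex F := by
  rw [(hz i).2 w hw, if_neg hne]

omit [Algebra K F] [IsScalarTower K F F'] [Algebra.IsIntegral F F'] in
/-- The members are regular on `S`. -/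
theorem ordGE_member_zero (i : LocalIdx F S) {w : Place K F'} (hw : w ∈ S) : OrdGE w (z i) 0 := by
  classical
  rw [ordGE_iff, (hz i).2 w hw]
  right
  split <;> exact Int.natCast_nonneg _

variable {v : Place K F} (hS : ∀ w ∈ S, w.restrict F = v)
include hS

variable [IsAlgClosed K] [IsFunctionField K F]

/-- If an integral combination has order at least `m` at `w`, then its coefficients `(w, j)` with
`j < m` vanish at `v`. -/
theorem evalAt_eq_zero {c : LocalIdx F S → F} (hc : ∀ i, OrdGE v (c i) 0) (w : S) {m : ℤ}
    (hm : m ≤ (w : Place K F').ramificationIndex F)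
    (hZ : OrdGE (w : Place K F') (∑ i, c i • z i) m)
    (j : Fin ((w : Place K F').ramificationIndex F)) (hj : (j : ℤ) < m) :
    evalAt v (c ⟨w, j⟩) = 0 := by
  classical
  obtain ⟨j, hjlt⟩ := j
  induction j using Nat.strong_induction_on with
  | _ j ih =>
    by_contra hne
    have hr := hS w w.2
    have hcne : c ⟨w, ⟨j, hjlt⟩⟩ ≠ 0 := fun h => hne (by
      rw [h, evalAt_eq_zero_iff (ordGE_zero _ _)]; exact ordGE_zero _ _)
    have hcord : v.ord (c ⟨w, ⟨j, hjlt⟩⟩) = 0 := by
      refine le_antisymm ?_ ((hc _).le_ord hcne)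
      by_contra h
      exact hne ((evalAt_eq_zero_iff (hc _)).mpr ((ordGE_iff_of_ne hcne).mpr (by omega)))
    have hterm : (w : Place K F').ord (c ⟨w, ⟨j, hjlt⟩⟩ • z ⟨w, ⟨j, hjlt⟩⟩) = j := by
      rw [Algebra.smul_def, (w : Place K F').ord_mul (by simpa using hcne)
          (hz (⟨w, ⟨j, hjlt⟩⟩ : LocalIdx F S)).1,
        (w : Place K F').ord_restrict, hr, hcord, mul_zero, zero_add]
      exact hz.ord_self (⟨w, ⟨j, hjlt⟩⟩ : LocalIdx F S)
    have htne : c ⟨w, ⟨j, hjlt⟩⟩ • z ⟨w, ⟨j, hjlt⟩⟩ ≠ 0 :=
      smul_ne_zero hcne (hz (⟨w, ⟨j, hjlt⟩⟩ : LocalIdx F S)).1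
    -- otherwise this term alone has the least order `j`
    obtain ⟨hsum, hsne⟩ := ord_sum_eq (w : Place K F') (f := fun i => c i • z i)
      (Finset.mem_univ (⟨w, ⟨j, hjlt⟩⟩ : LocalIdx F S)) htne (by
        rintro ⟨w', ⟨k, hk⟩⟩ - hik
        rw [hterm, Algebra.smul_def]
        rcases eq_or_ne w' w with rfl | hww
        · rcases lt_trichotomy k j with hkj | rfl | hkj
          · have h0 := (evalAt_eq_zero_iff (hc ⟨w', ⟨k, hk⟩⟩)).mp (ih k hkj hk (by
              simp only at hj ⊢; omega))
            refine ((ordGE_algebraMap_of_restrict hr h0).mul (ordGE_ord _ _)).mono ?_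
            rw [hz.ord_self (⟨w', ⟨k, hk⟩⟩ : LocalIdx F S)]
            simp only
            omega
          · exact absurd rfl hik
          · refine ((ordGE_algebraMap_of_restrict hr (hc _)).mul (ordGE_ord _ _)).mono ?_
            rw [hz.ord_self (⟨w', ⟨k, hk⟩⟩ : LocalIdx F S)]
            simp only
            omega
        · refine ((ordGE_algebraMap_of_restrict hr (hc _)).mul (ordGE_ord _ _)).mono ?_
          rw [hz.ord_other ⟨w', ⟨k, hk⟩⟩ w.2 (fun h => hww (Subtype.ext h.symm))]
          omega)
    have := hZ.le_ord hsne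
    rw [hsum, hterm] at this
    simp only at hj
    omega

/-- The functions of a local basis are independent over `F`. -/
theorem linearIndependent : LinearIndependent F z := by
  rw [Fintype.linearIndependent_iff]
  intro c hc
  by_contra! hne
  obtain ⟨i₁, hi₁⟩ := hne
  classical
  obtain ⟨i₀, hi₀, hmin⟩ := Finset.exists_min_image
    (Finset.univ.filter fun i => c i ≠ 0) (fun i => v.ord (c i)) ⟨i₁, by simp [hi₁]⟩
  rw [Finset.mem_filter] at hi₀
  have hscale : ∀ i, OrdGE v ((c i₀)⁻¹ * c i) 0 := fun i => by
    rw [ordGE_iff]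
    by_cases hi : c i = 0
    · exact .inl (by simp [hi])
    · right
      rw [v.ord_mul (inv_ne_zero hi₀.2) hi, v.ord_inv]
      have := hmin i (by simp [hi])
      omega
  have hsum : ∑ i, ((c i₀)⁻¹ * c i) • z i = 0 := by
    simp_rw [mul_smul, ← Finset.smul_sum, hc, smul_zero]
  obtain ⟨w, j⟩ := i₀
  have := evalAt_eq_zero hz hS hscale w (m := ((w : Place K F').ramificationIndex F : ℤ)) le_rfl
    (by rw [hsum]; exact ordGE_zero _ _) j (by exact_mod_cast j.2)
  rw [inv_mul_cancel₀ hi₀.2, evalAt_one] at this
  exact one_ne_zero this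

/-- `∑ e_w ≤ [F' : F]`. -/
theorem sum_le_finrank [FiniteDimensional F F'] :
    ∑ w ∈ S, w.ramificationIndex F ≤ Module.finrank F F' := by
  rw [← card_localIdx (F := F) S]
  exact (linearIndependent hz hS).fintype_card_le_finrank

variable [FiniteDimensional F F']
  (hcard : ∑ w ∈ S, w.ramificationIndex F = Module.finrank F F')
include hcard

/-- The basis given by a complete local family. -/
def basis : Module.Basis (LocalIdx F S) F F' :=
  basisOfLinearIndependentOfCardEqFinrank' z (linearIndependent hz hS)
    (by rw [card_localIdx]; exact hcard)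

/-- The basis consists of the local family. -/
theorem basis_apply (i : LocalIdx F S) : basis hz hS hcard i = z i :=
  congrFun (coe_basisOfLinearIndependentOfCardEqFinrank' _ _ _) i

/-- Expansion in the local basis. -/
theorem sum_repr_smul (f : F') : ∑ i, (basis hz hS hcard).repr f i • z i = f := by
  conv_rhs => rw [← (basis hz hS hcard).sum_repr f]
  simp only [basis_apply]

/-- Functions regular above `v` have integral coordinates. -/
theorem ordGE_repr {f : F'} (hf : ∀ w ∈ S, OrdGE w f 0) (i : LocalIdx F S) :
    OrdGE v ((basis hz hS hcard).repr f i) 0 := by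
  classical
  set c := fun i => (basis hz hS hcard).repr f i with hcdef
  by_contra hi
  obtain ⟨i₀, hi₀, hmin⟩ := Finset.exists_min_image
    (Finset.univ.filter fun i => c i ≠ 0) (fun i => v.ord (c i))
    ⟨i, by
      simp only [Finset.mem_filter, Finset.mem_univ, true_and]
      intro h
      simp only [c] at h
      exact hi (h ▸ ordGE_zero _ _)⟩
  rw [Finset.mem_filter] at hi₀
  have hci : c i ≠ 0 := fun h => hi (by simp only [c] at h; rw [h]; exact ordGE_zero _ _)
  have hneg : v.ord (c i₀) < 0 := by
    have h1 := hmin i (by simp [hci])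
    have h2 : v.ord (c i) < 0 := by
      by_contra h
      exact hi (ordGE_iff.mpr (.inr (not_lt.mp h)))
    omega
  -- scale the coordinate of least order to `1`
  have hscale : ∀ i, OrdGE v ((c i₀)⁻¹ * c i) 0 := fun i => by
    rw [ordGE_iff]
    by_cases hi : c i = 0
    · exact .inl (by simp [hi])
    · right
      rw [v.ord_mul (inv_ne_zero hi₀.2) hi, v.ord_inv]
      have := hmin i (by simp [hi])
      omega
  have hsum : ∑ i, ((c i₀)⁻¹ * c i) • z i = (c i₀)⁻¹ • f := by
    simp_rw [mul_smul, ← Finset.smul_sum]
    rw [show ∑ i, c i • z i = f from sum_repr_smul hz hS hcard f]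
  obtain ⟨w, j⟩ := i₀
  have hZ : OrdGE (w : Place K F') ((c ⟨w, j⟩)⁻¹ • f)
      ((w : Place K F').ramificationIndex F) := by
    rw [Algebra.smul_def]
    have h1 : OrdGE v (c ⟨w, j⟩)⁻¹ 1 :=
      (ordGE_iff_of_ne (inv_ne_zero hi₀.2)).mpr (by rw [v.ord_inv]; omega)
    exact ((ordGE_algebraMap_of_restrict (hS w w.2) h1).mul (hf w w.2)).mono (by simp)
  -- then its value would have to vanish
  have := evalAt_eq_zero hz hS hscale w (m := ((w : Place K F').ramificationIndex F : ℤ)) le_rfl
    (by rw [hsum]; exact hZ) j (by exact_mod_cast j.2)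
  rw [inv_mul_cancel₀ hi₀.2, evalAt_one] at this
  exact one_ne_zero this

variable [IsFunctionField K F']

/-- Modulo `v`, multiplication by a regular function is lower triangular with its values on the
diagonal. -/
theorem evalAt_repr_mul [DecidableEq (LocalIdx F S)] {f : F'} (hf : ∀ w ∈ S, OrdGE w f 0)
    (l i : LocalIdx F S) (h : (l.1 : Place K F') ≠ (i.1 : Place K F') ∨ (l.2 : ℕ) ≤ (i.2 : ℕ)) :
    evalAt v ((basis hz hS hcard).repr (f * z i) l) =
      if l = i then evalAt (i.1 : Place K F') f else 0 := by
  classical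
  have hreg : ∀ w ∈ S, OrdGE w (f * z i) 0 := fun w hw =>
    ((hf w hw).mul (hz.ordGE_member_zero i hw)).mono (by simp)
  set c := fun k => (basis hz hS hcard).repr (f * z i) k with hc
  have hcint : ∀ k, OrdGE v (c k) 0 := ordGE_repr hz hS hcard hreg
  obtain ⟨lw, lj⟩ := l
  obtain ⟨iw, ij⟩ := i
  change evalAt v (c ⟨lw, lj⟩) = _
  rcases eq_or_ne lw iw with rfl | hne
  · have hle : (lj : ℕ) ≤ (ij : ℕ) := by simpa using h
    set a := evalAt (lw : Place K F') f with ha
    -- subtract the diagonal term
    let d : LocalIdx F S → F := fun k => c k - if k = ⟨lw, ij⟩ then algebraMap K F a else 0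
    have hd : ∀ k, OrdGE v (d k) 0 := fun k => by
      refine (hcint k).sub ?_
      split
      · exact ordGE_algebraMap v a
      · exact ordGE_zero _ _
    have hsum : ∑ k, d k • z k = (f - algebraMap K F' a) * z ⟨lw, ij⟩ := by
      simp only [d, sub_smul, Finset.sum_sub_distrib, ite_smul, zero_smul, Finset.sum_ite_eq',
        Finset.mem_univ, if_true]
      rw [show ∑ k, c k • z k = f * z ⟨lw, ij⟩ from sum_repr_smul hz hS hcard _, sub_mul,
        Algebra.smul_def, ← IsScalarTower.algebraMap_apply]
    have hZ : OrdGE (lw : Place K F') (∑ k, d k • z k) ((ij : ℕ) + 1 : ℤ) := by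
      rw [hsum]
      refine ((evalAt_spec (hf lw lw.2)).mul (ordGE_ord _ _)).mono ?_
      rw [hz.ord_self (⟨lw, ij⟩ : LocalIdx F S)]
      simp only
      omega
    have := evalAt_eq_zero hz hS hd lw (m := ((ij : ℕ) + 1 : ℤ)) (by omega) hZ lj (by omega)
    simp only [d] at this
    split at this
    · next heq =>
      rw [if_pos heq]
      rw [sub_eq_add_neg, ← map_neg, evalAt_add (hcint _) (ordGE_algebraMap v _),
        evalAt_algebraMap, ← sub_eq_add_neg, sub_eq_zero] at this
      exact this
    · next heq =>
      rw [if_neg heq]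
      rwa [sub_zero] at this
  · rw [if_neg (fun heq => hne (congrArg Sigma.fst heq))]
    refine evalAt_eq_zero hz hS hcint lw
      (m := ((lw : Place K F').ramificationIndex F : ℤ)) le_rfl ?_ lj (by exact_mod_cast lj.2)
    rw [show ∑ k, c k • z k = f * z ⟨iw, ij⟩ from sum_repr_smul hz hS hcard _]
    refine ((hf lw lw.2).mul (ordGE_ord _ _)).mono ?_
    rw [hz.ord_other ⟨iw, ij⟩ lw.2 (fun heq => hne (Subtype.ext heq))]
    simp

omit [IsFunctionField K F'] in
/-- The matrix of multiplication by a regular function is integral at `v`. -/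
theorem ordGE_leftMulMatrix [DecidableEq (LocalIdx F S)] {f : F'} (hf : ∀ w ∈ S, OrdGE w f 0)
    (l i : LocalIdx F S) :
    OrdGE v (Algebra.leftMulMatrix (basis hz hS hcard) f l i) 0 := by
  classical
  rw [Algebra.leftMulMatrix_eq_repr_mul, basis_apply]
  exact ordGE_repr hz hS hcard (fun w hw => ((hf w hw).mul (hz.ordGE_member_zero i hw)).mono
    (by simp)) l

omit hz hS hcard [IsFunctionField K F'] [FiniteDimensional F F'] in
/-- Evaluation at `v` as a ring homomorphism on the valuation ring. -/
theorem exists_evalHom (v : Place K F) :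
    ∃ φ : v.toValuationSubring →+* K, ∀ a : v.toValuationSubring, φ a = evalAt v (a : F) :=
  ⟨{ toFun := fun a => evalAt v (a : F)
     map_one' := by simp
     map_mul' := fun a b => by
       push_cast
       exact evalAt_mul ((mem_iff_ordGE v).mp a.2) ((mem_iff_ordGE v).mp b.2)
     map_zero' := evalAt_eq (by simpa using ordGE_zero v 1)
     map_add' := fun a b => by
       push_cast
       exact evalAt_add ((mem_iff_ordGE v).mp a.2) ((mem_iff_ordGE v).mp b.2) }, fun _ => rfl⟩

/-- The trace of a function regular above `v` is regular at `v`, with value the weighted sum of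
the values. -/
theorem ordGE_trace_and_eval {f : F'} (hf : ∀ w ∈ S, OrdGE w f 0) :
    OrdGE v (Algebra.trace F F' f) 0 ∧
      evalAt v (Algebra.trace F F' f) =
        ∑ w ∈ S, (w.ramificationIndex F : K) * evalAt w f := by
  classical
  obtain ⟨φ, hφ⟩ := exists_evalHom v
  let M : Matrix (LocalIdx F S) (LocalIdx F S) v.toValuationSubring := fun l i =>
    ⟨Algebra.leftMulMatrix (basis hz hS hcard) f l i,
      (mem_iff_ordGE v).mpr (ordGE_leftMulMatrix hz hS hcard hf l i)⟩
  have htr : Algebra.trace F F' f = (M.trace : F) := by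
    rw [Algebra.trace_eq_matrix_trace (basis hz hS hcard) f]
    simp [Matrix.trace, M]
  refine ⟨by rw [htr]; exact (mem_iff_ordGE v).mp M.trace.2, ?_⟩
  rw [htr, ← hφ, Matrix.trace, map_sum]
  have hdiag : ∀ i : LocalIdx F S, φ (M.diag i) = evalAt (i.1 : Place K F') f := fun i => by
    rw [hφ]
    simp only [Matrix.diag, M, Algebra.leftMulMatrix_eq_repr_mul, basis_apply]
    rw [evalAt_repr_mul hz hS hcard hf i i (.inr le_rfl), if_pos rfl]
  rw [Finset.sum_congr rfl fun i _ => hdiag i, Fintype.sum_sigma]
  simp only [Finset.sum_const, Finset.card_univ, Fintype.card_fin, nsmul_eq_mul]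
  exact Finset.sum_coe_sort S fun w => (w.ramificationIndex F : K) * evalAt w f

/-- The norm of a function regular above `v` is regular at `v`, with value the weighted product
of the values. -/
theorem ordGE_norm_and_eval {f : F'} (hf : ∀ w ∈ S, OrdGE w f 0) :
    OrdGE v (Algebra.norm F f) 0 ∧
      evalAt v (Algebra.norm F f) = ∏ w ∈ S, evalAt w f ^ w.ramificationIndex F := by
  classical
  obtain ⟨φ, hφ⟩ := exists_evalHom v
  let M : Matrix (LocalIdx F S) (LocalIdx F S) v.toValuationSubring := fun l i =>
    ⟨Algebra.leftMulMatrix (basis hz hS hcard) f l i,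
      (mem_iff_ordGE v).mpr (ordGE_leftMulMatrix hz hS hcard hf l i)⟩
  have hdet : Algebra.norm F f = (M.det : F) := by
    rw [Algebra.norm_eq_matrix_det (basis hz hS hcard) f,
      show ((M.det : v.toValuationSubring) : F) = v.toValuationSubring.subtype M.det from rfl,
      RingHom.map_det]
    rfl
  refine ⟨by rw [hdet]; exact (mem_iff_ordGE v).mp M.det.2, ?_⟩
  rw [hdet, ← hφ, RingHom.map_det]
  -- a linear order for which the matrix is lower triangular
  let N : ℕ := ∑ w ∈ S, w.ramificationIndex F + 1
  have hN : ∀ i : LocalIdx F S, (i.2 : ℕ) < N := fun i => by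
    have h1 := i.2.2
    have h2 : (i.1 : Place K F').ramificationIndex F ≤ ∑ w ∈ S, w.ramificationIndex F :=
      Finset.single_le_sum (f := fun w : Place K F' => w.ramificationIndex F)
        (fun _ _ => Nat.zero_le _) i.1.2
    simp only [N]; omega
  let e := S.equivFin
  let b : LocalIdx F S → ℕ := fun i => (e i.1 : ℕ) * N + i.2
  have hb : Function.Injective b := by
    intro i k hik
    have h1 := congrArg (· / N) hik
    have h2 := congrArg (· % N) hik
    simp only [b, Nat.mul_add_mod', Nat.mod_eq_of_lt (hN i), Nat.mod_eq_of_lt (hN k)] at h2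
    have hNpos : 0 < N := by simp [N]
    simp only [b, mul_comm _ N, Nat.mul_add_div hNpos, Nat.div_eq_of_lt (hN i),
      Nat.div_eq_of_lt (hN k), add_zero] at h1
    obtain ⟨iw, ij⟩ := i
    obtain ⟨kw, kj⟩ := k
    obtain rfl : iw = kw := e.injective (Fin.ext h1)
    exact congrArg _ (Fin.ext h2)
  let : LinearOrder (LocalIdx F S) := LinearOrder.lift' b hb
  have hlt : ∀ l i : LocalIdx F S, l < i →
      (l.1 : Place K F') ≠ (i.1 : Place K F') ∨ (l.2 : ℕ) ≤ (i.2 : ℕ) := by
    intro l i h
    by_cases hli : l.1 = i.1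
    · right
      have h' : b l < b i := h
      simp only [b, hli] at h'
      omega
    · exact .inl fun h' => hli (Subtype.ext h')
  rw [Matrix.det_of_isLowerTriangular (φ.mapMatrix M)]
  · have hdiag : ∀ i : LocalIdx F S, φ.mapMatrix M i i = evalAt (i.1 : Place K F') f := fun i => by
      rw [RingHom.mapMatrix_apply, Matrix.map_apply, hφ]
      simp only [M, Algebra.leftMulMatrix_eq_repr_mul, basis_apply]
      rw [evalAt_repr_mul hz hS hcard hf i i (.inr le_rfl), if_pos rfl]
    rw [Finset.prod_congr rfl fun i _ => hdiag i, Fintype.prod_sigma]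
    simp only [Finset.prod_const, Finset.card_univ, Fintype.card_fin]
    exact Finset.prod_coe_sort S fun w => evalAt w f ^ w.ramificationIndex F
  · intro l i h
    have hli : l < i := OrderDual.toDual_lt_toDual.mp h
    rw [RingHom.mapMatrix_apply, Matrix.map_apply, hφ]
    simp only [M, Algebra.leftMulMatrix_eq_repr_mul, basis_apply]
    rw [evalAt_repr_mul hz hS hcard hf l i (hlt l i hli), if_neg hli.ne]

end IsLocalFamily

end Fermat.FF

end
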