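import Fermat.Agent.FF.Approx
import Fermat.Agent.FF.Existence
import Fermat.Agent.FF.LSpace
import Fermat.Agent.FF.LocalBasis

/-!
# Degree of principal divisors

The divisor of a function is `divOf`, of degree zero by `degree_divOf`.
-/

set_option autoImplicit false

noncomputable section

open AlgebraicCurve IntermediateField

namespace Fermat.FF

variable {K F : Type*} [Field K] [Field F] [Algebra K F] [IsAlgClosed K] [IsFunctionField K F]

omit [IsAlgClosed K] in
/-- At a zero of `y` a polynomial in `y` has order its trailing degree times that of `y`. -/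
theorem ord_aeval {L : Type*} [Field L] [Algebra K L] {v : Place K L} {y : L}
    (hy : 0 < v.ord y) {p : Polynomial K} (hp : p ≠ 0) :
    v.ord (Polynomial.aeval y p) = p.natTrailingDegree * v.ord y := by
  have hy0 : y ≠ 0 := fun h => by simp [h] at hy
  obtain ⟨q, hpq⟩ := Polynomial.X_pow_dvd_iff.mpr fun d (hd : d < p.natTrailingDegree) =>
    Polynomial.coeff_eq_zero_of_lt_natTrailingDegree hd
  have hq : q.coeff 0 ≠ 0 := by
    have := Polynomial.trailingCoeff_nonzero_iff_nonzero.mpr hp
    rw [Polynomial.trailingCoeff] at this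
    conv at this => lhs; arg 1; rw [hpq]
    rwa [Polynomial.coeff_X_pow_mul', if_pos le_rfl, Nat.sub_self] at this
  have hsplit : Polynomial.aeval y q
      = algebraMap K L (q.coeff 0) + y * Polynomial.aeval y q.divX := by
    conv_lhs => rw [← Polynomial.X_mul_divX_add q]
    rw [map_add, map_mul, Polynomial.aeval_X, Polynomial.aeval_C, add_comm]
  have hc : algebraMap K L (q.coeff 0) ≠ 0 := by simpa using hq
  have hge : OrdGE v (y * Polynomial.aeval y q.divX) 1 :=
    (((ordGE_iff_of_ne hy0).mpr (show (1 : ℤ) ≤ v.ord y by omega)).mul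
      (ordGE_aeval ((ordGE_iff_of_ne hy0).mpr hy.le) _)).mono (by simp)
  obtain ⟨hord, hne⟩ := ord_eq_of_ordGE_lt v (g := y * Polynomial.aeval y q.divX) hc
    (hge.mono (by rw [ord_algebraMap]; simp))
  rw [← hsplit] at hord hne
  have haev : Polynomial.aeval y p = y ^ p.natTrailingDegree * Polynomial.aeval y q := by
    nth_rewrite 1 [hpq]
    rw [map_mul, map_pow, Polynomial.aeval_X]
  rw [haev, v.ord_mul (pow_ne_zero _ hy0) hne, hord, ord_algebraMap, ord_pow, add_zero]

omit [IsAlgClosed K] [IsFunctionField K F] in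
/-- `K(y)` is a function field for transcendental `y`. -/
theorem isFunctionField_adjoin {y : F} (hy : Transcendental K y) : IsFunctionField K K⟮y⟯ := by
  refine ⟨AdjoinSimple.gen K y, ?_, ?_⟩
  · intro h
    exact hy (by simpa using h.algebraMap (A := F))
  have htop : K⟮AdjoinSimple.gen K y⟯ = (⊤ : IntermediateField K K⟮y⟯) := by
    refine IntermediateField.map_injective K⟮y⟯.val ?_
    rw [adjoin_map, Set.image_singleton, ← AlgHom.fieldRange_eq_map, fieldRange_val]
    rfl
  have hmem : ∀ x : K⟮y⟯, x ∈ K⟮AdjoinSimple.gen K y⟯ := fun x => by rw [htop]; trivial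
  refine ⟨Module.Finite.of_surjective (Algebra.linearMap K⟮AdjoinSimple.gen K y⟯ K⟮y⟯)
    fun x => ⟨⟨x, hmem x⟩, rfl⟩, ⟨fun x => ?_⟩⟩
  exact isSeparable_algebraMap (⟨x, hmem x⟩ : K⟮AdjoinSimple.gen K y⟯)

omit [IsFunctionField K F] [IsAlgClosed K] in
/-- On `K(y)` there is at most one place with `ord y > 0`, and there `ord y = 1`. -/
theorem adjoin_zero_place {y : F} {v v' : Place K K⟮y⟯} (hv : 0 < v.ord (AdjoinSimple.gen K y))
    (hv' : 0 < v'.ord (AdjoinSimple.gen K y)) :
    v = v' ∧ v.ord (AdjoinSimple.gen K y) = 1 := by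
  have key : ∀ f : K⟮y⟯, f ≠ 0 → ∃ m : ℤ, ∀ u : Place K K⟮y⟯, 0 < u.ord (AdjoinSimple.gen K y) →
      u.ord f = m * u.ord (AdjoinSimple.gen K y) := by
    intro f hf
    obtain ⟨r, s, hrs⟩ := (mem_adjoin_simple_iff K _).mp f.2
    have hfF : (f : F) ≠ 0 := by simpa using hf
    have hr : Polynomial.aeval y r ≠ 0 := fun h => hfF (by rw [hrs, h, zero_div])
    have hs : Polynomial.aeval y s ≠ 0 := fun h => hfF (by rw [hrs, h, div_zero])
    have hcoe : ∀ p : Polynomial K,
        ((Polynomial.aeval (AdjoinSimple.gen K y) p : K⟮y⟯) : F) = Polynomial.aeval y p :=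
          fun p => by
      exact (Polynomial.aeval_algHom_apply K⟮y⟯.val (AdjoinSimple.gen K y) p).symm
    refine ⟨(r.natTrailingDegree : ℤ) - s.natTrailingDegree, fun u hu => ?_⟩
    have hr0 : r ≠ 0 := fun h => hr (by simp [h])
    have hs0 : s ≠ 0 := fun h => hs (by simp [h])
    have hf' : f = Polynomial.aeval (AdjoinSimple.gen K y) r
        / Polynomial.aeval (AdjoinSimple.gen K y) s := Subtype.ext (by
      rw [hrs]; push_cast; rw [hcoe, hcoe])
    rw [hf', ord_div u (fun h => hr (by rw [← hcoe, h]; rfl))
      (fun h => hs (by rw [← hcoe, h]; rfl)), ord_aeval hu hr0, ord_aeval hu hs0]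
    ring
  -- so the order at a zero of `y` determines the valuation ring
  refine ⟨Place.ext (SetLike.ext fun f => ?_), ?_⟩
  · rw [mem_iff v, mem_iff v']
    rcases eq_or_ne f 0 with rfl | hf
    · simp
    obtain ⟨m, hm⟩ := key f hf
    simp only [hf, false_or, hm v hv, hm v' hv']
    constructor <;> intro h <;> nlinarith
  · obtain ⟨t, ht0, ht⟩ := exists_ord_eq_one v
    obtain ⟨m, hm⟩ := key t ht0
    have := hm v hv
    rw [ht] at this
    exact Int.eq_one_of_mul_eq_one_left (by omega) this.symm

/-- The zeros of `y` have total order at most `[F : K(y)]`. -/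
theorem sum_zeros_le {y : F} (hy : Transcendental K y) (S : Finset (Place K F))
    (hS : ∀ v ∈ S, 0 < v.ord y) : ∑ v ∈ S, v.ord y ≤ Module.finrank K⟮y⟯ F := by
  classical
  rcases S.eq_empty_or_nonempty with rfl | ⟨v₁, hv₁⟩
  · simp
  have := finiteDimensional_adjoin hy
  have : IsFunctionField K K⟮y⟯ := isFunctionField_adjoin hy
  have hpos : ∀ v ∈ S, 0 < (v.restrict K⟮y⟯).ord (AdjoinSimple.gen K y) := fun v hv => by
    have h := v.ord_restrict (F := K⟮y⟯) (AdjoinSimple.gen K y)
    rw [AdjoinSimple.algebraMap_gen] at h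
    by_contra hle
    have h2 := hS v hv
    rw [h] at h2
    nlinarith
  have he : ∀ v ∈ S, (v.ramificationIndex K⟮y⟯ : ℤ) = v.ord y := fun v hv => by
    have h := v.ord_restrict (F := K⟮y⟯) (AdjoinSimple.gen K y)
    rw [AdjoinSimple.algebraMap_gen, (adjoin_zero_place (hpos v hv) (hpos v hv)).2, mul_one] at h
    exact h.symm
  obtain ⟨z, hz⟩ := exists_localFamily (F := K⟮y⟯) S
  have := hz.sum_le_finrank (v := v₁.restrict K⟮y⟯)
    fun w hw => (adjoin_zero_place (hpos w hw) (hpos v₁ hv₁)).1
  rw [← Finset.sum_congr rfl he]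
  exact_mod_cast this

/-- A transcendental function has finitely many zeros. -/
theorem finite_setOf_ord_pos {y : F} (hy : Transcendental K y) :
    {v : Place K F | 0 < v.ord y}.Finite := by
  by_contra hinf
  obtain ⟨S, hS, hcard⟩ := Set.Infinite.exists_subset_card_eq hinf (Module.finrank K⟮y⟯ F + 1)
  have h1 := sum_zeros_le hy S fun v hv => hS hv
  have h2 : (S.card : ℤ) ≤ ∑ v ∈ S, v.ord y := by
    rw [Finset.cast_card]
    exact Finset.sum_le_sum fun v hv => by have : 0 < v.ord y := hS hv; omega
  omega

/-- Every function has finitely many zeros and poles. -/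
theorem finite_setOf_ord_ne_zero (f : F) : {v : Place K F | v.ord f ≠ 0}.Finite := by
  by_cases hf : f ∈ Set.range (algebraMap K F)
  · obtain ⟨c, rfl⟩ := hf
    simp [ord_algebraMap]
  · have hy := transcendental_of_not_mem hf
    have hy' : Transcendental K f⁻¹ := fun h => hy (IsAlgebraic.inv_iff.mp h)
    refine ((finite_setOf_ord_pos hy).union (finite_setOf_ord_pos hy')).subset fun v hv => ?_
    simp only [Set.mem_union, Set.mem_ofPred_eq, v.ord_inv] at hv ⊢
    omega

omit [IsAlgClosed K] [IsFunctionField K F] in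
/-- `K(y⁻¹) = K(y)`. -/
theorem adjoin_inv_eq {y : F} : K⟮y⁻¹⟯ = K⟮y⟯ := by
  apply le_antisymm <;> rw [adjoin_simple_le_iff]
  · exact inv_mem (mem_adjoin_simple_self K y)
  · simpa using inv_mem (mem_adjoin_simple_self K y⁻¹)

omit [IsAlgClosed K] [IsFunctionField K F] in
/-- `K(x - a) = K(x)`. -/
theorem adjoin_simple_sub_algebraMap (x : F) (a : K) : K⟮x - algebraMap K F a⟯ = K⟮x⟯ := by
  apply le_antisymm <;> rw [adjoin_simple_le_iff]
  · exact sub_mem (mem_adjoin_simple_self K x) (IntermediateField.algebraMap_mem _ a)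
  · simpa using add_mem (mem_adjoin_simple_self K (x - algebraMap K F a))
      (IntermediateField.algebraMap_mem _ a)

/-- `n (k + 1) ≤ ℓ(k A + C)` for `A ≥ (y)₀` and a fixed effective `C`. -/
theorem exists_ell_ge {y : F} (hy : Transcendental K y) {A : Divisor K F}
    (hA : ∀ v : Place K F, max (v.ord y) 0 ≤ A v) :
    ∃ C : Divisor K F, 0 ≤ C ∧
      ∀ k : ℕ, Module.finrank K⟮y⟯ F * (k + 1) ≤ ell (k • A + C) := by
  classical
  have := finiteDimensional_adjoin hy
  set n := Module.finrank K⟮y⟯ F with hn
  let u := Module.finBasis K⟮y⟯ F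
  have hC : ∀ j : Fin n, ∃ C : Divisor K F, 0 ≤ C ∧ u j ∈ riemannRochSpace C := fun j => by
    refine ⟨Finsupp.onFinset (finite_setOf_ord_ne_zero (K := K) (u j)).toFinset
      (fun v => max (-v.ord (u j)) 0) (fun v hv => by
        simp only [Set.Finite.mem_toFinset, Set.mem_ofPred_eq]; omega), ?_, ?_⟩
    · exact Finsupp.le_def.mpr fun v => by simp
    · rw [mem_riemannRochSpace]
      intro v
      refine (ordGE_ord v (u j)).mono ?_
      simp only [Finsupp.onFinset_apply]
      omega
  choose C hC0 hCu using hC
  let C' : Divisor K F := ∑ j, C j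
  have hC'0 : 0 ≤ C' := Finset.sum_nonneg fun j _ => hC0 j
  have hle : ∀ j, C j ≤ C' := fun j => Finset.single_le_sum (fun j _ => hC0 j) (Finset.mem_univ j)
  refine ⟨C', hC'0, fun k => ?_⟩
  -- the products `y⁻ⁱ u_j`
  let z : Fin n × Fin (k + 1) → riemannRochSpace (k • A + C') := fun p =>
    ⟨(y⁻¹) ^ (p.2 : ℕ) * u p.1, by
      rw [mem_riemannRochSpace]
      intro v
      have h1 := mem_riemannRochSpace.mp (hCu p.1) v
      refine ((ordGE_ord v (y⁻¹ ^ (p.2 : ℕ))).mul h1).mono ?_
      rw [ord_pow, v.ord_inv]
      have h2 := Finsupp.le_def.mp (hle p.1) v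
      have h3 : (p.2 : ℤ) ≤ k := by have := p.2.2; omega
      simp only [Finsupp.add_apply, Finsupp.smul_apply, nsmul_eq_mul]
      have h4 := hA v
      have h5 : v.ord y ≤ A v := (le_max_left _ _).trans h4
      have h6 : 0 ≤ A v := (le_max_right _ _).trans h4
      nlinarith⟩
  -- they are independent, as the `u_j` are a basis over `K(y)`
  have hli : LinearIndependent K z := by
    refine LinearIndependent.of_comp (riemannRochSpace (k • A + C')).subtype ?_
    rw [Fintype.linearIndependent_iff]
    intro c hc
    let q : Fin n → Polynomial K := fun j =>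
      ∑ i : Fin (k + 1), Polynomial.C (c (j, i)) * Polynomial.X ^ (i : ℕ)
    have hmem : ∀ j, Polynomial.aeval y⁻¹ (q j) ∈ K⟮y⟯ := fun j => by
      rw [← adjoin_inv_eq]
      exact algebra_adjoin_le_adjoin K _ (Polynomial.aeval_mem_adjoin_singleton K _)
    have hz : ∀ j, (⟨_, hmem j⟩ : K⟮y⟯) = 0 := by
      refine Fintype.linearIndependent_iff.mp u.linearIndependent _ ?_
      rw [← hc, Fintype.sum_prod_type]
      refine Finset.sum_congr rfl fun j _ => ?_
      rw [IntermediateField.smul_def, smul_eq_mul]
      simp only [q, map_sum, map_mul, Polynomial.aeval_C, Polynomial.aeval_X_pow,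
        Finset.sum_mul, Function.comp_apply, Submodule.coe_subtype, z, Algebra.smul_def,
        mul_assoc]
    rintro ⟨j, i⟩
    have hq : q j = 0 := by
      by_contra hne
      have hy' : Transcendental K y⁻¹ := fun h => hy (IsAlgebraic.inv_iff.mp h)
      exact hne (transcendental_iff.mp hy' (q j) (congrArg Subtype.val (hz j)))
    have := congrArg (fun p => Polynomial.coeff p (i : ℕ)) hq
    simpa [q, Polynomial.finsetSum_coeff, Polynomial.coeff_C_mul, Polynomial.coeff_X_pow,
      Fin.val_inj] using this
  have h1 := hli.fintype_card_le_finrank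
  rwa [Fintype.card_prod, Fintype.card_fin, Fintype.card_fin] at h1

/-- The sum of the orders of zeros is the degree. -/
theorem sum_zeros_eq {y : F} (hy : Transcendental K y) :
    ∑ v ∈ (finite_setOf_ord_pos hy).toFinset, v.ord y = Module.finrank K⟮y⟯ F := by
  classical
  refine le_antisymm (sum_zeros_le hy _ fun v hv => by simpa using hv) ?_
  set S := (finite_setOf_ord_pos hy).toFinset with hS
  have := finiteDimensional_adjoin hy
  set n := Module.finrank K⟮y⟯ F with hn
  let A : Divisor K F := Finsupp.onFinset S (fun v => max (v.ord y) 0) fun v hv => by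
    simp only [hS, Set.Finite.mem_toFinset, Set.mem_ofPred_eq]
    omega
  obtain ⟨C', hC'0, hkey⟩ := exists_ell_ge hy (A := A) (fun v => by simp [A])
  have hdegA : Divisor.degree A = ∑ v ∈ S, v.ord y := by
    rw [degree_eq_sum, Finsupp.onFinset_sum _ (fun _ => rfl)]
    refine Finset.sum_congr rfl fun v hv => max_eq_left ?_
    simp only [hS, Set.Finite.mem_toFinset, Set.mem_ofPred_eq] at hv
    omega
  have hA0 : 0 ≤ A := Finsupp.le_def.mpr fun v => by simp [A]
  -- compare the growth of `ℓ(k A + C)` with the bound by the degree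
  have key : ∀ k : ℕ, ((n * (k + 1) : ℕ) : ℤ) ≤ k * Divisor.degree A + Divisor.degree C' + 1 := by
    intro k
    have hpos : (0 : Divisor K F) ≤ k • A + C' := add_nonneg (nsmul_nonneg hA0 k) hC'0
    have h2 := ell_le_of_nonneg hpos
    rw [map_add, map_nsmul, nsmul_eq_mul] at h2
    exact le_trans (by exact_mod_cast hkey k) h2
  rw [← hdegA]
  have hc : 0 ≤ Divisor.degree C' := by
    rw [degree_eq_sum]
    exact Finset.sum_nonneg fun v _ => Finsupp.le_def.mp hC'0 v
  by_contra hlt
  have := key ((Divisor.degree C').toNat + 1)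
  push_cast at this
  rw [Int.toNat_of_nonneg hc] at this
  have hlt' : Divisor.degree A ≤ (n : ℤ) - 1 := by omega
  have hpos : (0 : ℤ) < n := by exact_mod_cast Module.finrank_pos (R := K⟮y⟯) (M := F)
  have hmul : (Divisor.degree C' + 1) * Divisor.degree A
      ≤ (Divisor.degree C' + 1) * ((n : ℤ) - 1) := mul_le_mul_of_nonneg_left hlt' (by omega)
  linarith

/-- The principal divisor of a function exists and has degree `0`. -/
theorem exists_divisor_of_ord (f : F) :
    ∃ D : Divisor K F, (∀ v, D v = v.ord f) ∧ Divisor.degree D = 0 := by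
  classical
  let S := (finite_setOf_ord_ne_zero (K := K) f).toFinset
  refine ⟨Finsupp.onFinset S (fun v => v.ord f) fun v hv => by simpa [S] using hv,
    fun v => Finsupp.onFinset_apply, ?_⟩
  rw [degree_eq_sum, Finsupp.onFinset_sum _ (fun _ => rfl)]
  by_cases hf : f ∈ Set.range (algebraMap K F)
  · obtain ⟨c, rfl⟩ := hf
    simp [ord_algebraMap]
  · have hy := transcendental_of_not_mem hf
    have hy' : Transcendental K f⁻¹ := fun h => hy (IsAlgebraic.inv_iff.mp h)
    have h1 := sum_zeros_eq hy
    have h2 := sum_zeros_eq hy'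
    rw [adjoin_inv_eq, ← h1] at h2
    rw [← Finset.sum_filter_add_sum_filter_not S (fun v => 0 < v.ord f)]
    have e1 : S.filter (fun v => 0 < v.ord f) = (finite_setOf_ord_pos hy).toFinset := by
      ext v; simp [S]; omega
    have e2 : S.filter (fun v => ¬0 < v.ord f) = (finite_setOf_ord_pos hy').toFinset := by
      ext v; simp [S, v.ord_inv]; omega
    rw [e1, e2, ← h2, ← Finset.sum_add_distrib]
    simp [Place.ord_inv]

/-- Every nonzero function has a divisor, of degree zero. -/
instance (priority := 100) instHasPrincipalDivisors : HasPrincipalDivisors K F :=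
  ⟨fun f _ => exists_divisor_of_ord f⟩

variable (K) in
open Classical in
/-- The divisor of a function (junk value `0` for `f = 0`). -/
def divOf (f : F) : Divisor K F :=
  if hf : f = 0 then 0 else
    (HasPrincipalDivisors.exists_divisor (K := K) f hf).choose

/-- The coefficient of a divisor of a function is the order. -/
@[simp] theorem divOf_apply (f : F) (v : Place K F) : divOf K f v = v.ord f := by
  by_cases hf : f = 0
  · simp [divOf, hf]
  · rw [divOf, dif_neg hf]
    exact (HasPrincipalDivisors.exists_divisor (K := K) f hf).choose_spec.1 v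

/-- Principal divisors have degree `0`. -/
@[simp] theorem degree_divOf (f : F) : Divisor.degree (divOf K f) = 0 := by
  by_cases hf : f = 0
  · simp [divOf, hf]
  · rw [divOf, dif_neg hf]
    exact (HasPrincipalDivisors.exists_divisor (K := K) f hf).choose_spec.2

/-- The divisor of a product. -/
theorem divOf_mul {f g : F} (hf : f ≠ 0) (hg : g ≠ 0) :
    divOf K (f * g) = divOf K f + divOf K g := by
  ext v; simp [v.ord_mul hf hg]

/-- Nonzero constant factors do not change the divisor. -/
theorem divOf_const_smul {c : K} (hc : c ≠ 0) {f : F} (hf : f ≠ 0) :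
    divOf K (c • f) = divOf K f := by
  ext v
  rw [divOf_apply, divOf_apply, Algebra.smul_def, v.ord_mul ((_root_.map_ne_zero _).mpr hc) hf,
    ord_algebraMap, zero_add]

/-- The divisor of an inverse. -/
theorem divOf_inv (f : F) : divOf K f⁻¹ = -divOf K f := by
  ext v; simp [v.ord_inv]

/-- Semilinear automorphisms commute with taking divisors. -/
theorem smul_divOf (g : SemilinearAut K F) (f : F) : g • divOf K f = divOf K (g • f) := by
  ext v
  rw [SemilinearAut.divisor_smul_apply, divOf_apply, divOf_apply,
    ← SemilinearAut.ord_smul g (g⁻¹ • v) f, smul_inv_smul]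

variable (K) in
/-- The divisor of zeros. -/
def zeroDiv (f : F) : Divisor K F := (divOf K f).mapRange (fun n => max n 0) (by simp)

variable (K) in
/-- The divisor of poles (effective). -/
def poleDiv (f : F) : Divisor K F := zeroDiv K f⁻¹

/-- The coefficients of the divisor of zeros. -/
@[simp] theorem zeroDiv_apply (f : F) (v : Place K F) : zeroDiv K f v = max (v.ord f) 0 := by
  simp [zeroDiv]

/-- The coefficients of the divisor of poles. -/
@[simp] theorem poleDiv_apply (f : F) (v : Place K F) : poleDiv K f v = max (-v.ord f) 0 := by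
  simp [poleDiv, v.ord_inv]

/-- Adding a constant does not change the divisor of poles. -/
theorem poleDiv_sub_algebraMap (f : F) (a : K) :
    poleDiv K (f - algebraMap K F a) = poleDiv K f := by
  ext v
  rw [poleDiv_apply, poleDiv_apply]
  rcases lt_or_ge (v.ord f) 0 with h | h
  · have hf : f ≠ 0 := fun h0 => by rw [h0, Place.ord_zero] at h; omega
    rw [sub_eq_add_neg, (ord_add_of_lt (g := -algebraMap K F a) v hf
      (by rwa [ord_neg, ord_algebraMap])).1]
  · have h2 : 0 ≤ v.ord (f - algebraMap K F a) := by
      rcases ordGE_iff.1 ((ordGE_iff.2 (Or.inr h) : OrdGE v f 0).sub (ordGE_algebraMap v a))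
        with h0 | h0
      · rw [h0, Place.ord_zero]
      · exact h0
    omega

/-- A principal divisor is zeros minus poles. -/
theorem divOf_eq_sub (f : F) : divOf K f = zeroDiv K f - poleDiv K f := by
  ext v
  simp only [divOf_apply, Finsupp.sub_apply, zeroDiv_apply, poleDiv_apply]
  omega

/-- A transcendental function takes each value `[F : K(f)]` times. -/
theorem degree_zeroDiv {y : F} (hy : Transcendental K y) :
    Divisor.degree (zeroDiv K y) = Module.finrank K⟮y⟯ F := by
  classical
  rw [← sum_zeros_eq hy, degree_eq_sum, Finsupp.sum]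
  have hsupp : (zeroDiv K y).support = (finite_setOf_ord_pos hy).toFinset := by
    ext v; simp only [Finsupp.mem_support_iff, zeroDiv_apply, Set.Finite.mem_toFinset,
      Set.mem_ofPred_eq]; omega
  rw [hsupp]
  refine Finset.sum_congr rfl fun v hv => ?_
  simp only [Set.Finite.mem_toFinset, Set.mem_ofPred_eq] at hv
  rw [zeroDiv_apply]
  omega

/-- A transcendental function has `[F : K(f)]` poles, counted with multiplicity. -/
theorem degree_poleDiv {y : F} (hy : Transcendental K y) :
    Divisor.degree (poleDiv K y) = Module.finrank K⟮y⟯ F := by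
  have hy' : Transcendental K y⁻¹ := fun h => hy (IsAlgebraic.inv_iff.mp h)
  rw [poleDiv, degree_zeroDiv hy', adjoin_inv_eq]

/-- Every value `a` is taken `[F : K(y)]` times. -/
theorem degree_zeroDiv_sub {y : F} (hy : Transcendental K y) (a : K) :
    Divisor.degree (zeroDiv K (y - algebraMap K F a)) = Module.finrank K⟮y⟯ F := by
  have hy' : Transcendental K (y - algebraMap K F a) := fun h =>
    hy (by simpa using h.add (isAlgebraic_algebraMap a))
  rw [degree_zeroDiv hy', adjoin_simple_sub_algebraMap]

/-- A nonconstant function has a pole. -/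
theorem exists_ord_neg {f : F} (hf : f ∉ Set.range (algebraMap K F)) :
    ∃ v : Place K F, v.ord f < 0 := by
  by_contra h
  push Not at h
  exact hf (mem_range_of_forall_ordGE fun v => ordGE_iff.mpr (.inr (h v)))

/-- A function field has infinitely many places. -/
instance (priority := 100) instInfinitePlace : Infinite (Place K F) := by
  obtain ⟨x, hx, -, -⟩ := IsFunctionField.exists_separating (K := K) (F := F)
  have : Infinite K := inferInstance
  have hz : ∀ a : K, ∃ v : Place K F, 0 < v.ord (x - algebraMap K F a) := fun a =>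
    exists_place_ord_pos fun h => hx (by simpa using h.add (isAlgebraic_algebraMap a))
  choose v hv using hz
  refine Infinite.of_injective v fun a b hab => ?_
  by_contra hne
  have h1 : OrdGE (v a) (x - algebraMap K F a) 1 := ordGE_iff.mpr (.inr (hv a))
  have h2 : OrdGE (v a) (x - algebraMap K F b) 1 := ordGE_iff.mpr (.inr (hab ▸ hv b))
  have := h2.sub h1
  rw [sub_sub_sub_cancel_left, ← map_sub] at this
  exact hne (sub_eq_zero.mp (eq_zero_of_ordGE_one this))

end Fermat.FF

end
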