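import Fermat.Agent.FF.Duality

/-!
# Linear systems of large degree, nonspecial divisors, moving lemma

The main results are `exists_exact_ord`, `exists_nonspecial` and the moving lemma `exists_avoid`.
-/

set_option autoImplicit false

noncomputable section

open AlgebraicCurve

namespace Fermat.FF

variable {K F : Type*} [Field K] [Field F] [Algebra K F] [IsAlgClosed K] [IsFunctionField K F]

/-- The degree of a sum of distinct points is their number. -/
theorem degree_single_sum (T : Finset (Place K F)) :
    Divisor.degree (∑ v ∈ T, Finsupp.single v (1 : ℤ)) = T.card := by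
  rw [map_sum, Finset.card_eq_sum_ones]
  push_cast
  exact Finset.sum_congr rfl fun v _ => by rw [Divisor.degree_single, deg_eq_one]; simp

/-- In degree `≥ 2g`, removing a point lowers `ℓ` by exactly one. -/
theorem ell_sub_single {D : Divisor K F} (v : Place K F)
    (hD : 2 * (genusFF K F : ℤ) ≤ Divisor.degree D) :
    ell (D - Finsupp.single v 1) + 1 = ell D := by
  have hd : Divisor.degree (D - Finsupp.single v 1) = Divisor.degree D - 1 := by
    rw [map_sub, Divisor.degree_single, deg_eq_one]; simp
  have h1 := ell_of_degree_ge (D := D - Finsupp.single v 1) (by omega)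
  have h2 := ell_of_degree_ge (D := D) (by omega)
  omega

omit [IsAlgClosed K] [IsFunctionField K F] in
/-- A nonzero section of `D` is one of `D - v` iff its order at `v` is not `-D v`. -/
theorem mem_sub_single_iff {D : Divisor K F} {v : Place K F} {f : F}
    (hf : f ∈ riemannRochSpace D) (hf0 : f ≠ 0) :
    f ∈ riemannRochSpace (D - Finsupp.single v 1) ↔ v.ord f ≠ -D v := by
  rw [mem_riemannRochSpace] at hf ⊢
  constructor
  · intro h
    have := (h v).le_ord hf0
    simp only [Finsupp.sub_apply, Finsupp.single_eq_same] at this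
    omega
  · intro h w
    rcases eq_or_ne w v with rfl | hw
    · have := (hf w).le_ord hf0
      exact (ordGE_iff_of_ne hf0).mpr
        (by simp only [Finsupp.sub_apply, Finsupp.single_eq_same]; omega)
    · simpa [Finsupp.single_eq_of_ne hw] using hf w

/-- Base point freeness in degree `≥ 2g`, at finitely many places at once. -/
theorem exists_exact_ord {D : Divisor K F} (S : Finset (Place K F))
    (hD : 2 * (genusFF K F : ℤ) ≤ Divisor.degree D) :
    ∃ f ∈ riemannRochSpace D, f ≠ 0 ∧ ∀ v ∈ S, v.ord f = -D v := by
  classical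
  have hout : ∀ v : Place K F, ∃ g ∈ riemannRochSpace D,
      g ∉ riemannRochSpace (D - Finsupp.single v 1) := by
    intro v
    by_contra h
    push Not at h
    have := ell_sub_single v hD
    have h2 : ell D ≤ ell (D - Finsupp.single v 1) := Submodule.finrank_mono h
    omega
  induction S using Finset.induction_on with
  | empty =>
    obtain ⟨P⟩ := nonempty_place K F
    obtain ⟨g, hg, hg'⟩ := hout P
    exact ⟨g, hg, fun h => hg' (h ▸ zero_mem _), by simp⟩
  | insert a S ha ih =>
    obtain ⟨f, hf, hf0, hfS⟩ := ih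
    obtain ⟨g, hg, hga⟩ := hout a
    have hbad : ∀ v : Place K F,
        (v = a ∨ v ∈ S) → {c : K | f + c • g ∈
          riemannRochSpace (D - Finsupp.single v 1)}.Subsingleton := by
      intro v hv c hc c' hc'
      simp only [Set.mem_ofPred_eq] at hc hc'
      by_contra hne
      have h1 := sub_mem hc hc'
      rw [add_sub_add_left_eq_sub, ← sub_smul, Submodule.smul_mem_iff _ (sub_ne_zero.mpr hne)] at h1
      rcases hv with rfl | hv
      · exact hga h1
      · have h2 := sub_mem hc (Submodule.smul_mem _ c h1)
        rw [add_sub_cancel_right] at h2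
        exact (mem_sub_single_iff hf hf0).mp h2 (hfS v hv)
    -- for all but finitely many `c`, `f + c g` has exact order on `insert a S`
    have hfin : (⋃ v ∈ insert a S,
        {c : K | f + c • g ∈ riemannRochSpace (D - Finsupp.single v 1)}).Finite :=
      (insert a S).finite_toSet.biUnion fun v hv => (hbad v (Finset.mem_insert.mp hv)).finite
    obtain ⟨c, hc⟩ := hfin.infinite_compl.nonempty
    simp only [Set.mem_compl_iff, Set.mem_iUnion, Set.mem_ofPred_eq, not_exists] at hc
    have hmem : f + c • g ∈ riemannRochSpace D := add_mem hf (Submodule.smul_mem _ c hg)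
    have hne : f + c • g ≠ 0 := fun h => hc a (Finset.mem_insert_self a S) (h ▸ zero_mem _)
    refine ⟨f + c • g, hmem, hne, fun v hv => ?_⟩
    by_contra h
    exact hc v hv ((mem_sub_single_iff hmem hne).mpr h)

/-- Points imposing independent conditions on a canonical system extend to `g` points avoiding
`S` forming a nonspecial divisor. -/
theorem exists_nonspecial_step {W : Divisor K F} (hW : IsCanonical W) (S : Set (Place K F))
    (hS : S.Finite) (T₀ : Finset (Place K F)) (hT₀S : ∀ v ∈ T₀, v ∉ S)
    (hT₀ : ell (W - ∑ v ∈ T₀, Finsupp.single v (1 : ℤ)) + T₀.card = genusFF K F) :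
    ∃ T : Finset (Place K F), T₀ ⊆ T ∧ T.card = genusFF K F ∧ (∀ v ∈ T, v ∉ S) ∧
      ell (∑ v ∈ T, Finsupp.single v (1 : ℤ)) = 1 ∧
      h1 (∑ v ∈ T, Finsupp.single v (1 : ℤ)) = 0 := by
  classical
  suffices key : ∀ k : ℕ, T₀.card + k ≤ genusFF K F → ∃ T : Finset (Place K F), T₀ ⊆ T ∧
      T.card = T₀.card + k ∧ (∀ v ∈ T, v ∉ S) ∧
      ell (W - ∑ v ∈ T, Finsupp.single v (1 : ℤ)) + T.card = genusFF K F by
    obtain ⟨T, hsub, hcard, hTS, hT⟩ := key (genusFF K F - T₀.card) (by omega)
    have hc : T.card = genusFF K F := by omega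
    have h0 : h1 (∑ v ∈ T, Finsupp.single v (1 : ℤ)) = 0 := by rw [hW.h1_eq]; omega
    refine ⟨T, hsub, hc, hTS, ?_, h0⟩
    have := FF.riemann_roch (∑ v ∈ T, Finsupp.single v (1 : ℤ))
    rw [h0, degree_single_sum, hc] at this
    omega
  intro k
  induction k with
  | zero => intro _; exact ⟨T₀, subset_rfl, by simp, hT₀S, hT₀⟩
  | succ k ih =>
    intro hk
    obtain ⟨T, hsub, hcard, hTS, hT⟩ := ih (by omega)
    set D := W - ∑ v ∈ T, Finsupp.single v (1 : ℤ)
    obtain ⟨f, hf0, hf⟩ := exists_effective_of_ell_ne_zero (D := D) (by omega)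
    -- a new point where some section of `W - T` does not vanish lowers `ℓ` by one
    obtain ⟨v, hv⟩ := Infinite.exists_notMem_finset ((D + divOf K f).support ∪ T ∪ hS.toFinset)
    simp only [Finset.mem_union, Set.Finite.mem_toFinset, Finsupp.mem_support_iff, not_or, not_not,
      Finsupp.add_apply, divOf_apply] at hv
    refine ⟨insert v T, hsub.trans (Finset.subset_insert v T), by
      rw [Finset.card_insert_of_notMem hv.1.2, hcard]; omega, ?_, ?_⟩
    · intro u hu
      rcases Finset.mem_insert.mp hu with rfl | hu
      · exact hv.2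
      · exact hTS u hu
    · have heq : W - ∑ u ∈ insert v T, Finsupp.single u (1 : ℤ) = D - Finsupp.single v 1 := by
        rw [Finset.sum_insert hv.1.2]; simp only [D]; abel
      have hmem : f ∈ riemannRochSpace D := (nonneg_add_divOf_iff hf0).mp hf
      have hnot : f ∉ riemannRochSpace (D - Finsupp.single v 1) := fun h =>
        (mem_sub_single_iff hmem hf0).mp h (by have := hv.1.1; omega)
      have hle : D - Finsupp.single v 1 ≤ D := sub_le_self _ (by simp)
      have hlt : ell (D - Finsupp.single v 1) < ell D := Submodule.finrank_lt_finrank_of_lt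
        (lt_of_le_of_ne (riemannRochSpace_mono hle) fun h => hnot (h ▸ hmem))
      have hup := (finrank_riemannRochSpace_add_single (D - Finsupp.single v 1) v).2
      rw [sub_add_cancel] at hup
      rw [heq, Finset.card_insert_of_notMem hv.1.2]
      omega

/-- There are `g` distinct points avoiding `S` whose sum is nonspecial. -/
theorem exists_nonspecial (S : Set (Place K F)) (hS : S.Finite) :
    ∃ T : Finset (Place K F), T.card = genusFF K F ∧ (∀ v ∈ T, v ∉ S) ∧
      ell (∑ v ∈ T, Finsupp.single v (1 : ℤ)) = 1 ∧
      h1 (∑ v ∈ T, Finsupp.single v (1 : ℤ)) = 0 := by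
  obtain ⟨W, hW⟩ := exists_isCanonical K F
  obtain ⟨T, -, h⟩ := exists_nonspecial_step hW S hS ∅ (by simp) (by simp [hW.2])
  exact ⟨T, h⟩

/-- Moving lemma. -/
theorem exists_avoid (D : Divisor K F) (S : Finset (Place K F)) :
    ∃ f : F, f ≠ 0 ∧ ∀ v ∈ S, (D + divOf K f) v = 0 := by
  obtain ⟨f, hf, hord⟩ := exists_ord_eq_on S (fun v => -D v)
  exact ⟨f, hf, fun v hv => by rw [Finsupp.add_apply, divOf_apply, hord v hv, add_neg_cancel]⟩

end Fermat.FF

end
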