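import Fermat.Agent.FF.Along

/-!
# The base `K(x)`: simple zeros and poles, ramification indices of a function

The ramification index of a function is `ramIndex`, compared with that over `K(x)` in
`ramificationIndex_adjoin`.
-/

set_option autoImplicit false

noncomputable section

open AlgebraicCurve IntermediateField

namespace Fermat.FF

variable {K F : Type*} [Field K] [Field F] [Algebra K F] [IsAlgClosed K] [IsFunctionField K F]

open Classical in
/-- The ramification index of the function `x` at `v`. -/
def ramIndex (x : F) (v : Place K F) : ℕ :=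
  if 0 ≤ v.ord x then (v.ord (x - algebraMap K F (evalAt v x))).toNat else (-v.ord x).toNat

omit [IsAlgClosed K] [IsFunctionField K F] in
/-- The generator generates `K(x)`. -/
theorem adjoin_gen_eq_top (x : F) :
    K⟮AdjoinSimple.gen K x⟯ = (⊤ : IntermediateField K K⟮x⟯) := by
  refine IntermediateField.map_injective K⟮x⟯.val ?_
  rw [adjoin_map, Set.image_singleton, ← AlgHom.fieldRange_eq_map, fieldRange_val]
  rfl

omit [IsFunctionField K F] in
/-- On `K(x)` every value is taken simply. -/
theorem ord_gen_sub_eq_one {x : F} (hx : Transcendental K x) {u : Place K K⟮x⟯} {a : K}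
    (h : 0 < u.ord (AdjoinSimple.gen K x - algebraMap K K⟮x⟯ a)) :
    u.ord (AdjoinSimple.gen K x - algebraMap K K⟮x⟯ a) = 1 := by
  have := isFunctionField_adjoin hx
  have ht : Transcendental K (AdjoinSimple.gen K x) := fun h => hx (by
    simpa using h.algebraMap (A := F))
  have hd := degree_zeroDiv_sub ht a
  rw [adjoin_gen_eq_top, IntermediateField.finrank_top, Nat.cast_one, degree_eq_sum,
    Finsupp.sum] at hd
  have h1 := Finset.single_le_sum (s :=
    (zeroDiv K (AdjoinSimple.gen K x - algebraMap K K⟮x⟯ a)).support)
    (f := fun w => zeroDiv K (AdjoinSimple.gen K x - algebraMap K K⟮x⟯ a) w)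
    (fun w _ => by rw [zeroDiv_apply]; exact le_max_right _ _) (a := u)
    (by rw [Finsupp.mem_support_iff, zeroDiv_apply]; omega)
  simp only [zeroDiv_apply] at h1 hd
  omega

omit [IsFunctionField K F] in
/-- On `K(x)` the pole of `x` is simple. -/
theorem ord_gen_eq_neg_one {x : F} (hx : Transcendental K x) {u : Place K K⟮x⟯}
    (h : u.ord (AdjoinSimple.gen K x) < 0) : u.ord (AdjoinSimple.gen K x) = -1 := by
  have := isFunctionField_adjoin hx
  have ht : Transcendental K (AdjoinSimple.gen K x) := fun h => hx (by
    simpa using h.algebraMap (A := F))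
  have hd := degree_poleDiv ht
  rw [adjoin_gen_eq_top, IntermediateField.finrank_top, Nat.cast_one, degree_eq_sum,
    Finsupp.sum] at hd
  have h1 := Finset.single_le_sum (s := (poleDiv K (AdjoinSimple.gen K x)).support)
    (f := fun w => poleDiv K (AdjoinSimple.gen K x) w)
    (fun w _ => by rw [poleDiv_apply]; exact le_max_right _ _) (a := u)
    (by rw [Finsupp.mem_support_iff, poleDiv_apply]; omega)
  simp only [poleDiv_apply] at h1 hd
  omega

omit [IsAlgClosed K] [IsFunctionField K F] in
/-- `x` is regular at `v` iff the generator is regular at the place of `K(x)` below `v`. -/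
theorem ordGE_gen_restrict_iff {x : F} [Algebra.IsIntegral K⟮x⟯ F]
    (v : Place K F) :
    OrdGE (v.restrict K⟮x⟯) (AdjoinSimple.gen K x) 0 ↔ OrdGE v x 0 := by
  rw [← mem_iff_ordGE, ← mem_iff_ordGE, Place.mem_restrict_iff, AdjoinSimple.algebraMap_gen]

/-- `ramIndex x` is the ramification index over `K(x)`. -/
theorem ramificationIndex_adjoin {x : F} (hx : Transcendental K x)
    [Algebra.IsIntegral K⟮x⟯ F] (v : Place K F) :
    v.ramificationIndex K⟮x⟯ = ramIndex x v := by
  have := isFunctionField_adjoin hx
  rw [ramIndex]
  set t := AdjoinSimple.gen K x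
  set u := v.restrict K⟮x⟯
  have hx' : v.ord x = v.ramificationIndex K⟮x⟯ * u.ord t := by
    rw [← v.ord_restrict, AdjoinSimple.algebraMap_gen]
  have hepos : 0 < (v.ramificationIndex K⟮x⟯ : ℤ) := Int.natCast_pos.mpr v.ramificationIndex_pos
  split
  -- a finite value `a`: `x - a` has a simple zero below
  · next h =>
    have hu : OrdGE u t 0 := (ordGE_gen_restrict_iff v).mpr (ordGE_iff.mpr (.inr h))
    set a := evalAt u t
    have hval : evalAt v x = a := by
      refine evalAt_eq ?_
      have h' := ordGE_algebraMap_of_restrict (w := v) rfl (evalAt_spec hu)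
      rw [map_sub, AdjoinSimple.algebraMap_gen, ← IsScalarTower.algebraMap_apply] at h'
      exact h'.mono (by omega)
    have hne : t - algebraMap K K⟮x⟯ a ≠ 0 := fun h0 => hx <| by
      have := congrArg (algebraMap K⟮x⟯ F) (sub_eq_zero.mp h0)
      rw [AdjoinSimple.algebraMap_gen, ← IsScalarTower.algebraMap_apply] at this
      exact this ▸ isAlgebraic_algebraMap a
    have hpos : 0 < u.ord (t - algebraMap K K⟮x⟯ a) := by
      have h2 : 1 ≤ u.ord (t - algebraMap K K⟮x⟯ a) := (evalAt_spec hu).le_ord hne
      omega
    have h1 := v.ord_restrict (t - algebraMap K K⟮x⟯ a)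
    rw [map_sub, AdjoinSimple.algebraMap_gen, ← IsScalarTower.algebraMap_apply,
      ord_gen_sub_eq_one hx hpos, mul_one] at h1
    rw [hval, h1, Int.toNat_natCast]
  · next h =>
    have hlt : u.ord t < 0 := by
      by_contra hge
      exact h (hx' ▸ mul_nonneg hepos.le (not_lt.mp hge))
    rw [hx', ord_gen_eq_neg_one hx hlt]
    omega

/-- Ramification indices are positive. -/
theorem ramIndex_pos {x : F} (hx : Transcendental K x) (v : Place K F) : 0 < ramIndex x v := by
  have := finiteDimensional_adjoin hx
  have : Algebra.IsIntegral K⟮x⟯ F := Algebra.IsIntegral.of_finite _ _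
  rw [← ramificationIndex_adjoin hx v]
  exact v.ramificationIndex_pos

end Fermat.FF

end
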